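/-
Programme FFJ (S19), chapter ALG, brick A0 (helper3): the MAXIMAL function order.

`R` a noetherian ring, `F ⊆ Ω` fields, `M` a finite abelian group with an action of `Aut(Ω/F)`.
The `R`-subalgebra of `Fun(M, Ω)` generated by two function orders (`FunOrder68.IsFunOrder`) is again a
function order; hence, as soon as all function orders take their values in one finite `R`-subalgebra
`B ⊆ Ω` (e.g. the integral closure of `R` in a finite extension `L/F` trivialising `M`), the subalgebra
`maxOrder R F` generated by ALL function orders is a function order: the largest one.  It is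
canonical, so it is stable under every symmetry of the situation (brick A1), which repairs the
semilocal gluing / descent steps A2, A3 (no uniqueness of prolongations is needed).

* `HasComulIn H h`         : `Δ h ∈ H ⊗ H` in function form (range of `prodEval`);
* `comulSub H`             : the subalgebra of such `h`;
* `equivSub R F`           : the subalgebra of equivariant functions;
* `valSub B`               : functions with values in `B`; finite over `R`;
* `maxOrder R F`, `le_maxOrder`, `isFunOrder_maxOrder`;
* `exists_bound`           : the integral-closure bound `B`.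
-/
import Mathlib
import Fermat.Agent.TW.FF.FunOrder68

set_option autoImplicit false

noncomputable section

open scoped TensorProduct

namespace Fermat.Agent.FFJ.Alg.MaxOrder3

open Fermat.Agent.S19.Shell64 Fermat.Agent.TW.FF.FunOrder68

section Comul

variable {R Ω M : Type} [CommRing R] [Field Ω] [Algebra R Ω] [AddCommGroup M]

/-- the translation comultiplication `h ↦ ((m, m') ↦ h (m + m'))` as an algebra homomorphism. -/
def addPull (R Ω M : Type) [CommRing R] [Field Ω] [Algebra R Ω] [AddCommGroup M] :
    (M → Ω) →ₐ[R] (M × M → Ω) :=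
  pullAlg R Ω (fun p : M × M => p.1 + p.2)

@[simp]
theorem addPull_apply (h : M → Ω) (p : M × M) : addPull R Ω M h p = h (p.1 + p.2) := rfl

/-- `H ⊗ H` in function form. -/
def sq (H : Subalgebra R (M → Ω)) : Subalgebra R (M × M → Ω) :=
  (prodEval H.val H.val).range

/-- the subalgebra of functions whose comultiplication lies in `H ⊗ H`. -/
def comulSub (H : Subalgebra R (M → Ω)) : Subalgebra R (M → Ω) :=
  (sq H).comap (addPull R Ω M)

omit [AddCommGroup M] in
theorem prodEval_sum_apply (H : Subalgebra R (M → Ω)) {n : ℕ} (a b : Fin n → H) (p : M × M) :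
    prodEval H.val H.val (∑ i, a i ⊗ₜ[R] b i) p = ∑ i, (a i : M → Ω) p.1 * (b i : M → Ω) p.2 := by
  rw [map_sum, Finset.sum_apply]
  rfl

theorem mem_comulSub_iff (H : Subalgebra R (M → Ω)) (h : M → Ω) :
    h ∈ comulSub H ↔ ∃ (n : ℕ) (a b : Fin n → H), ∀ m m' : M,
      h (m + m') = ∑ i, (a i : M → Ω) m * (b i : M → Ω) m' := by
  unfold comulSub sq
  rw [Subalgebra.mem_comap, AlgHom.mem_range]
  constructor
  · rintro ⟨t, ht⟩
    obtain ⟨n, a, b, rfl⟩ := exists_fin_sum_tmul t
    refine ⟨n, a, b, fun m m' => ?_⟩
    have := congrFun ht (m, m')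
    rw [addPull_apply, prodEval_sum_apply] at this
    exact this.symm
  · rintro ⟨n, a, b, hab⟩
    refine ⟨∑ i, a i ⊗ₜ[R] b i, ?_⟩
    funext p
    rw [addPull_apply, hab p.1 p.2, prodEval_sum_apply]

theorem comulSub_mono {H H' : Subalgebra R (M → Ω)} (hHH' : H ≤ H') :
    comulSub H ≤ comulSub H' := by
  intro h hh
  rw [mem_comulSub_iff] at hh ⊢
  obtain ⟨n, a, b, hab⟩ := hh
  exact ⟨n, fun i => ⟨a i, hHH' (a i).2⟩, fun i => ⟨b i, hHH' (b i).2⟩, hab⟩

end Comul

section Equiv

variable (R F : Type) {Ω M : Type} [CommRing R] [Field F] [Field Ω] [Algebra R Ω] [Algebra F Ω]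
  [Algebra R F] [IsScalarTower R F Ω] [MulAction (Ω ≃ₐ[F] Ω) M]

/-- the subalgebra of equivariant functions. -/
def equivSub : Subalgebra R (M → Ω) where
  carrier := {h | IsEquivariantFun F h}
  mul_mem' := by
    intro a b ha hb σ m
    simp only [Pi.mul_apply, map_mul, ha σ m, hb σ m]
  one_mem' := by
    intro σ m
    simp
  add_mem' := by
    intro a b ha hb σ m
    simp only [Pi.add_apply, map_add, ha σ m, hb σ m]
  zero_mem' := by
    intro σ m
    simp
  algebraMap_mem' := by
    intro r σ m
    simp only [Pi.algebraMap_apply]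
    rw [IsScalarTower.algebraMap_apply R F Ω, AlgEquiv.commutes]

theorem mem_equivSub_iff (h : M → Ω) : h ∈ equivSub R F (Ω := Ω) (M := M) ↔
    IsEquivariantFun F h := Iff.rfl

end Equiv

section Val

variable {R Ω : Type} (M : Type) [CommRing R] [Field Ω] [Algebra R Ω]

/-- the subalgebra of functions with values in a subalgebra `B ⊆ Ω`. -/
def valSub (B : Subalgebra R Ω) : Subalgebra R (M → Ω) where
  carrier := {h | ∀ m, h m ∈ B}
  mul_mem' := fun ha hb m => B.mul_mem (ha m) (hb m)
  one_mem' := fun _ => B.one_mem
  add_mem' := fun ha hb m => B.add_mem (ha m) (hb m)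
  zero_mem' := fun _ => B.zero_mem
  algebraMap_mem' := fun r _ => B.algebraMap_mem r

theorem mem_valSub_iff (B : Subalgebra R Ω) (h : M → Ω) : h ∈ valSub M B ↔ ∀ m, h m ∈ B := Iff.rfl

/-- a subalgebra of `valSub M B` is a finite `R`-module when `B` is finite, `M` is finite and `R` is
noetherian. -/
theorem finite_of_le_valSub [IsNoetherianRing R] [Finite M] (B : Subalgebra R Ω)
    [Module.Finite R B] (H : Subalgebra R (M → Ω)) (hH : H ≤ valSub M B) : Module.Finite R H := by
  let f : H →ₗ[R] (M → B) :=
    { toFun := fun h m => ⟨(h : M → Ω) m, hH h.2 m⟩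
      map_add' := fun _ _ => rfl
      map_smul' := fun _ _ => rfl }
  have hf : Function.Injective f := by
    intro h h' hh
    apply Subtype.ext
    funext m
    exact congrArg Subtype.val (congrFun hh m)
  have : IsNoetherian R (M → B) := isNoetherian_of_isNoetherianRing_of_finite R (M → B)
  exact Module.Finite.of_injective f hf

end Val

section Max

variable (R F : Type) {Ω M : Type} [CommRing R] [Field F] [Field Ω] [Algebra R Ω] [Algebra F Ω]
  [AddCommGroup M] [MulAction (Ω ≃ₐ[F] Ω) M]

/-- **The maximal function order**: the subalgebra generated by all function orders. -/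
def maxOrder : Subalgebra R (M → Ω) :=
  Algebra.adjoin R {h | ∃ H : Subalgebra R (M → Ω), IsFunOrder R F H ∧ h ∈ H}

variable {R F}

theorem le_maxOrder {H : Subalgebra R (M → Ω)} (hH : IsFunOrder R F H) :
    H ≤ maxOrder R F (Ω := Ω) (M := M) :=
  fun _ hh => Algebra.subset_adjoin ⟨H, hH, hh⟩

theorem maxOrder_le {S : Subalgebra R (M → Ω)}
    (hS : ∀ H : Subalgebra R (M → Ω), IsFunOrder R F H → H ≤ S) :
    maxOrder R F (Ω := Ω) (M := M) ≤ S := by
  refine Algebra.adjoin_le ?_
  rintro h ⟨H, hH, hh⟩
  exact hS H hH hh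

/-- **A0.**  If all function orders take their values in one finite subalgebra `B ⊆ Ω` and at least one
function order exists, the maximal function order is a function order. -/
theorem isFunOrder_maxOrder [IsNoetherianRing R] [Algebra R F] [IsScalarTower R F Ω] [Finite M]
    (B : Subalgebra R Ω) [Module.Finite R B]
    (hB : ∀ H : Subalgebra R (M → Ω), IsFunOrder R F H → ∀ h ∈ H, ∀ m, h m ∈ B)
    (hne : ∃ H : Subalgebra R (M → Ω), IsFunOrder R F H) :
    IsFunOrder R F (maxOrder R F (Ω := Ω) (M := M)) := by
  refine ⟨?_, ?_, ?_, ?_⟩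
  · exact finite_of_le_valSub M B _ (maxOrder_le fun H hH h hh => hB H hH h hh)
  · intro h hh
    have : maxOrder R F (Ω := Ω) (M := M) ≤ equivSub R F :=
      maxOrder_le fun H hH h' hh' => hH.equivariant h' hh'
    exact this hh
  · obtain ⟨H, hH⟩ := hne
    intro m m' hmm
    obtain ⟨h, hh, hne⟩ := hH.separates m m' hmm
    exact ⟨h, le_maxOrder hH hh, hne⟩
  · intro h hh
    have : maxOrder R F (Ω := Ω) (M := M) ≤ comulSub (maxOrder R F) := by
      refine maxOrder_le fun H hH => ?_
      refine le_trans ?_ (comulSub_mono (le_maxOrder hH))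
      intro h' hh'
      exact (mem_comulSub_iff H h').mpr (hH.comul h' hh')
    exact (mem_comulSub_iff _ h).mp (this hh)

end Max

section Bound

variable {R F Ω M : Type} [CommRing R] [Field F] [Field Ω] [Algebra R Ω] [Algebra F Ω]
  [Algebra R F] [IsScalarTower R F Ω] [AddCommGroup M] [MulAction (Ω ≃ₐ[F] Ω) M]

omit [Algebra R F] [IsScalarTower R F Ω] in
/-- the values of the elements of a function order are integral over `R`. -/
theorem isIntegral_apply {H : Subalgebra R (M → Ω)} (hH : IsFunOrder R F H) {h : M → Ω}
    (hh : h ∈ H) (m : M) : IsIntegral R (h m) := by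
  have := hH.finite
  have h1 : IsIntegral R (⟨h, hh⟩ : H) := IsIntegral.of_finite R _
  have h2 := h1.map ((Pi.evalAlgHom R (fun _ : M => Ω) m).comp H.val)
  exact h2

/-- **The integral-closure bound.**  If `L/F` is a finite separable subextension of `Ω/F` such that
`Aut(Ω/L)` acts trivially on `M` and has fixed field `L`, then all function orders over the
integrally closed noetherian domain `R` (fraction field `F`) take their values in one finite
subalgebra of `Ω`: the integral closure of `R` in `L`. -/
theorem exists_bound [IsDomain R] [IsIntegrallyClosed R] [IsNoetherianRing R] [IsFractionRing R F]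
    (L : IntermediateField F Ω) [FiniteDimensional F L] [Algebra.IsSeparable F L]
    (hL : ∀ σ : Ω ≃ₐ[F] Ω, (∀ x ∈ L, σ x = x) → ∀ m : M, σ • m = m)
    (hfixL : ∀ x : Ω, (∀ σ : Ω ≃ₐ[F] Ω, (∀ y ∈ L, σ y = y) → σ x = x) → x ∈ L) :
    ∃ B : Subalgebra R Ω, Module.Finite R B ∧
      ∀ H : Subalgebra R (M → Ω), IsFunOrder R F H → ∀ h ∈ H, ∀ m, h m ∈ B := by
  let _ : Algebra R L := ((algebraMap F L).comp (algebraMap R F)).toAlgebra
  have : IsScalarTower R F L := IsScalarTower.of_algebraMap_eq fun _ => rfl
  have : IsScalarTower R L Ω := IsScalarTower.of_algebraMap_eq fun r => by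
    rw [IsScalarTower.algebraMap_apply R F Ω, IsScalarTower.algebraMap_apply F L Ω]
    rfl
  have : Module.Finite R (integralClosure R L) :=
    IsIntegralClosure.finite R F L (integralClosure R L)
  let ι : L →ₐ[R] Ω := IsScalarTower.toAlgHom R L Ω
  refine ⟨(integralClosure R L).map ι, ?_, ?_⟩
  · let g : (integralClosure R L) →ₗ[R] ((integralClosure R L).map ι) :=
      { toFun := fun x => ⟨ι x, ⟨x, x.2, rfl⟩⟩
        map_add' := fun x y => Subtype.ext (map_add ι _ _)
        map_smul' := fun r x => Subtype.ext (map_smul ι r _) }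
    have hg : Function.Surjective g := by
      rintro ⟨y, x, hx, rfl⟩
      exact ⟨⟨x, hx⟩, rfl⟩
    exact Module.Finite.of_surjective g hg
  · intro H hH h hh m
    have hmem : h m ∈ L := by
      refine hfixL _ fun σ hσ => ?_
      rw [← hH.equivariant h hh σ m, hL σ hσ m]
    have hint : IsIntegral R (h m) := isIntegral_apply hH hh m
    refine ⟨⟨h m, hmem⟩, ?_, rfl⟩
    have hinj : Function.Injective ι := (algebraMap L Ω).injective
    exact (isIntegral_algHom_iff ι hinj).mp hint

end Bound

end Fermat.Agent.FFJ.Alg.MaxOrder3
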