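/-
Programme FFJ (S19), chapter ALG, brick A1 (helper3): CONJUGATE function orders.

`F ⊆ Ω` fields, `M` an abelian group with an action of `Aut(Ω/F)`.  A *conjugation datum* consists of a
ring automorphism `s` of `Ω`, an additive automorphism `φ` of `M`, a ring isomorphism `e : R ≃ R'`
between two coefficient rings with `s ∘ algebraMap R Ω = algebraMap R' Ω ∘ e`, such that `s` normalises
`Aut(Ω/F)` compatibly with `φ` (both directions).  In the application `s = σ ∈ Gal(ℚ̄/ℚ)`, `φ = (σ • ·)`,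
`F = K` a number field normal over `ℚ`, `R = A ∩ K`, `R' = σA ∩ K`.

For such a datum `conj D H = {m ↦ s (h (φ⁻¹ m)) | h ∈ H}` is an `R'`-subalgebra of `Fun(M, Ω)`, it is a
function order when `H` is (`isFunOrder_conj`), and conjugation carries the maximal function order over
`R` to the maximal function order over `R'` (`conj_maxOrder`).
-/
import Mathlib
import Fermat.Agent.FFJ.Alg.MaxOrder3

set_option autoImplicit false

noncomputable section

namespace Fermat.Agent.FFJ.Alg.ConjOrder3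

open Fermat.Agent.S19.Shell64 Fermat.Agent.TW.FF.FunOrder68 Fermat.Agent.FFJ.Alg.MaxOrder3

/-- A conjugation datum. -/
structure ConjData (R R' F Ω M : Type) [CommRing R] [CommRing R'] [Field F] [Field Ω]
    [Algebra R Ω] [Algebra R' Ω] [Algebra F Ω] [AddCommGroup M] [MulAction (Ω ≃ₐ[F] Ω) M] where
  /-- the automorphism of the big field -/
  s : Ω ≃+* Ω
  /-- the automorphism of the group -/
  φ : M ≃+ M
  /-- the isomorphism of coefficient rings -/
  e : R ≃+* R'
  he : ∀ r : R, s (algebraMap R Ω r) = algebraMap R' Ω (e r)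
  norm : ∀ τ : Ω ≃ₐ[F] Ω, ∃ τ' : Ω ≃ₐ[F] Ω,
    (∀ x, τ' x = s.symm (τ (s x))) ∧ ∀ m : M, τ' • m = φ.symm (τ • φ m)
  norm' : ∀ τ : Ω ≃ₐ[F] Ω, ∃ τ' : Ω ≃ₐ[F] Ω,
    (∀ x, τ' x = s (τ (s.symm x))) ∧ ∀ m : M, τ' • m = φ (τ • φ.symm m)

variable {R R' F Ω M : Type} [CommRing R] [CommRing R'] [Field F] [Field Ω]
  [Algebra R Ω] [Algebra R' Ω] [Algebra F Ω] [AddCommGroup M] [MulAction (Ω ≃ₐ[F] Ω) M]

namespace ConjData

/-- the inverse datum. -/
def symm (D : ConjData R R' F Ω M) : ConjData R' R F Ω M where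
  s := D.s.symm
  φ := D.φ.symm
  e := D.e.symm
  he := by
    intro r
    apply D.s.injective
    rw [RingEquiv.apply_symm_apply, D.he, RingEquiv.apply_symm_apply]
  norm := by
    intro τ
    obtain ⟨τ', h1, h2⟩ := D.norm' τ
    exact ⟨τ', fun x => by rw [h1]; simp, fun m => by rw [h2]; simp⟩
  norm' := by
    intro τ
    obtain ⟨τ', h1, h2⟩ := D.norm τ
    exact ⟨τ', fun x => by rw [h1]; simp, fun m => by rw [h2]; simp⟩

/-- conjugation of a function. -/
def conjFun (D : ConjData R R' F Ω M) (h : M → Ω) : M → Ω := fun m => D.s (h (D.φ.symm m))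

@[simp]
theorem conjFun_apply (D : ConjData R R' F Ω M) (h : M → Ω) (m : M) :
    D.conjFun h m = D.s (h (D.φ.symm m)) := rfl

theorem symm_conjFun_conjFun (D : ConjData R R' F Ω M) (h : M → Ω) :
    D.symm.conjFun (D.conjFun h) = h := by
  funext m
  simp [conjFun, symm]

theorem conjFun_symm_conjFun (D : ConjData R R' F Ω M) (h : M → Ω) :
    D.conjFun (D.symm.conjFun h) = h := by
  funext m
  simp [conjFun, symm]

theorem conjFun_add (D : ConjData R R' F Ω M) (a b : M → Ω) :
    D.conjFun (a + b) = D.conjFun a + D.conjFun b := by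
  funext m
  simp [conjFun]

theorem conjFun_mul (D : ConjData R R' F Ω M) (a b : M → Ω) :
    D.conjFun (a * b) = D.conjFun a * D.conjFun b := by
  funext m
  simp [conjFun]

theorem conjFun_zero (D : ConjData R R' F Ω M) : D.conjFun (0 : M → Ω) = 0 := by
  funext m
  simp [conjFun]

theorem conjFun_one (D : ConjData R R' F Ω M) : D.conjFun (1 : M → Ω) = 1 := by
  funext m
  simp [conjFun]

theorem conjFun_algebraMap (D : ConjData R R' F Ω M) (r : R) :
    D.conjFun (algebraMap R (M → Ω) r) = algebraMap R' (M → Ω) (D.e r) := by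
  funext m
  simp only [conjFun_apply, Pi.algebraMap_apply]
  exact D.he r

theorem conjFun_smul (D : ConjData R R' F Ω M) (r : R) (h : M → Ω) :
    D.conjFun (r • h) = D.e r • D.conjFun h := by
  rw [Algebra.smul_def, Algebra.smul_def, conjFun_mul, conjFun_algebraMap]

/-- **The conjugate subalgebra.** -/
def conj (D : ConjData R R' F Ω M) (H : Subalgebra R (M → Ω)) : Subalgebra R' (M → Ω) where
  carrier := {g | ∃ h ∈ H, D.conjFun h = g}
  mul_mem' := by
    rintro _ _ ⟨a, ha, rfl⟩ ⟨b, hb, rfl⟩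
    exact ⟨a * b, H.mul_mem ha hb, D.conjFun_mul a b⟩
  one_mem' := ⟨1, H.one_mem, D.conjFun_one⟩
  add_mem' := by
    rintro _ _ ⟨a, ha, rfl⟩ ⟨b, hb, rfl⟩
    exact ⟨a + b, H.add_mem ha hb, D.conjFun_add a b⟩
  zero_mem' := ⟨0, H.zero_mem, D.conjFun_zero⟩
  algebraMap_mem' := by
    intro r'
    refine ⟨algebraMap R (M → Ω) (D.e.symm r'), H.algebraMap_mem _, ?_⟩
    rw [conjFun_algebraMap, RingEquiv.apply_symm_apply]

theorem mem_conj_iff (D : ConjData R R' F Ω M) (H : Subalgebra R (M → Ω)) (g : M → Ω) :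
    g ∈ D.conj H ↔ ∃ h ∈ H, D.conjFun h = g := Iff.rfl

theorem conjFun_mem_conj (D : ConjData R R' F Ω M) {H : Subalgebra R (M → Ω)} {h : M → Ω}
    (hh : h ∈ H) : D.conjFun h ∈ D.conj H := ⟨h, hh, rfl⟩

theorem mem_conj_iff' (D : ConjData R R' F Ω M) (H : Subalgebra R (M → Ω)) (g : M → Ω) :
    g ∈ D.conj H ↔ D.symm.conjFun g ∈ H := by
  constructor
  · rintro ⟨h, hh, rfl⟩
    rwa [symm_conjFun_conjFun]
  · intro hg
    exact ⟨_, hg, D.conjFun_symm_conjFun g⟩

theorem conj_mono (D : ConjData R R' F Ω M) {H H' : Subalgebra R (M → Ω)} (hHH' : H ≤ H') :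
    D.conj H ≤ D.conj H' := by
  rintro _ ⟨h, hh, rfl⟩
  exact ⟨h, hHH' hh, rfl⟩

theorem symm_conj_conj (D : ConjData R R' F Ω M) (H : Subalgebra R (M → Ω)) :
    D.symm.conj (D.conj H) = H := by
  ext g
  rw [mem_conj_iff', mem_conj_iff']
  have : D.symm.symm.conjFun g = D.conjFun g := rfl
  rw [this, symm_conjFun_conjFun]

theorem conj_symm_conj (D : ConjData R R' F Ω M) (H : Subalgebra R' (M → Ω)) :
    D.conj (D.symm.conj H) = H := by
  ext g
  rw [mem_conj_iff', mem_conj_iff']
  have : D.symm.symm.conjFun (D.symm.conjFun g) = D.conjFun (D.symm.conjFun g) := rfl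
  rw [this, conjFun_symm_conjFun]

/-- conjugation preserves equivariance. -/
theorem isEquivariantFun_conjFun (D : ConjData R R' F Ω M) {h : M → Ω}
    (hh : IsEquivariantFun F h) : IsEquivariantFun F (D.conjFun h) := by
  intro τ m
  obtain ⟨τ', h1, h2⟩ := D.norm τ
  have h3 := hh τ' (D.φ.symm m)
  rw [h1, h2, AddEquiv.apply_symm_apply] at h3
  simp only [conjFun_apply]
  rw [h3, RingEquiv.apply_symm_apply]

/-- **A1.**  The conjugate of a function order is a function order. -/
theorem isFunOrder_conj (D : ConjData R R' F Ω M) {H : Subalgebra R (M → Ω)}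
    (hH : IsFunOrder R F H) : IsFunOrder R' F (D.conj H) := by
  refine ⟨?_, ?_, ?_, ?_⟩
  · have := hH.finite
    let f : H →ₛₗ[(D.e : R →+* R')] (D.conj H) :=
      { toFun := fun h => ⟨D.conjFun h, D.conjFun_mem_conj h.2⟩
        map_add' := fun a b => Subtype.ext (D.conjFun_add a b)
        map_smul' := fun r a => Subtype.ext (D.conjFun_smul r a) }
    refine Module.Finite.of_surjective f ?_
    rintro ⟨_, h, hh, rfl⟩
    exact ⟨⟨h, hh⟩, rfl⟩
  · rintro _ ⟨h, hh, rfl⟩
    exact D.isEquivariantFun_conjFun (hH.equivariant h hh)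
  · intro m m' hmm
    have hne : D.φ.symm m ≠ D.φ.symm m' := fun h => hmm (D.φ.symm.injective h)
    obtain ⟨h, hh, hsep⟩ := hH.separates _ _ hne
    refine ⟨D.conjFun h, D.conjFun_mem_conj hh, ?_⟩
    simp only [conjFun_apply]
    exact fun h' => hsep (D.s.injective h')
  · rintro _ ⟨h, hh, rfl⟩
    obtain ⟨n, a, b, hab⟩ := hH.comul h hh
    refine ⟨n, fun i => ⟨D.conjFun (a i), D.conjFun_mem_conj (a i).2⟩,
      fun i => ⟨D.conjFun (b i), D.conjFun_mem_conj (b i).2⟩, fun m m' => ?_⟩
    simp only [conjFun_apply, map_add, hab, map_sum, map_mul]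

/-- **Conjugation carries the maximal function order to the maximal function order.** -/
theorem conj_maxOrder (D : ConjData R R' F Ω M) :
    D.conj (maxOrder R F (Ω := Ω) (M := M)) = maxOrder R' F := by
  apply le_antisymm
  · have h1 : maxOrder R F (Ω := Ω) (M := M) ≤ D.symm.conj (maxOrder R' F) := by
      refine maxOrder_le fun H hH => ?_
      have h2 : D.conj H ≤ maxOrder R' F := le_maxOrder (D.isFunOrder_conj hH)
      have h3 := D.symm.conj_mono h2
      rwa [symm_conj_conj] at h3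
    have h4 := D.conj_mono h1
    rwa [conj_symm_conj] at h4
  · refine maxOrder_le fun H hH => ?_
    have h2 : D.symm.conj H ≤ maxOrder R F := le_maxOrder (D.symm.isFunOrder_conj hH)
    have h3 := D.conj_mono h2
    rwa [conj_symm_conj] at h3

end ConjData

end Fermat.Agent.FFJ.Alg.ConjOrder3
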