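/-
FFJ / chapter ALG (helper78).  **Unbundled function orders inside `Fun(T, L)`.**

`L/F` a field extension, `G = Aut(L/F)` acting on the additive group `T`.  Inside the ring `T → L`:
* `conjFun σ h = σ ∘ h ∘ σ⁻¹` (a ring automorphism of `T → L`, `conjRingEquiv`);
* `IsEquivFor 𝒩 h` : `h` is equivariant for the subgroup `𝒩 ≤ G`;
* `IsSubOrder O 𝒩 H` : the subring `H ≤ (T → L)` is a function order over the subring `O ≤ L` for the
  subgroup `𝒩` (stable under `O`, finitely generated over `O`, `𝒩`-equivariant, separating, closed under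
  the translation comultiplication);
* `stab O` : the subgroup of `G` stabilising `O`.
-/
import Mathlib
import Fermat.Agent.S19.Shell64.Main

set_option autoImplicit false

namespace Fermat.Agent.FFJ.Alg.Defs78

open Fermat.Agent.S19.Shell64

section Conj

variable {F L T : Type} [Field F] [Field L] [Algebra F L] [MulAction (L ≃ₐ[F] L) T]

/-- the conjugate `σ ∘ h ∘ σ⁻¹` of a function. -/
def conjFun (σ : L ≃ₐ[F] L) (h : T → L) : T → L := fun m => σ (h (σ⁻¹ • m))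

@[simp] theorem conjFun_apply (σ : L ≃ₐ[F] L) (h : T → L) (m : T) :
    conjFun σ h m = σ (h (σ⁻¹ • m)) := rfl

theorem conjFun_one (h : T → L) : conjFun (1 : L ≃ₐ[F] L) h = h := by
  funext m
  simp

theorem conjFun_mul (σ τ : L ≃ₐ[F] L) (h : T → L) :
    conjFun (σ * τ) h = conjFun σ (conjFun τ h) := by
  funext m
  simp [mul_smul]

theorem conjFun_add (σ : L ≃ₐ[F] L) (h h' : T → L) :
    conjFun σ (h + h') = conjFun σ h + conjFun σ h' := by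
  funext m
  simp

theorem conjFun_mul' (σ : L ≃ₐ[F] L) (h h' : T → L) :
    conjFun σ (h * h') = conjFun σ h * conjFun σ h' := by
  funext m
  simp

theorem conjFun_smul (σ : L ≃ₐ[F] L) (c : L) (h : T → L) :
    conjFun σ (c • h) = σ c • conjFun σ h := by
  funext m
  simp

theorem conjFun_sum {J : Type*} (s : Finset J) (σ : L ≃ₐ[F] L) (h : J → T → L) :
    conjFun σ (∑ j ∈ s, h j) = ∑ j ∈ s, conjFun σ (h j) := by
  funext m
  simp [Finset.sum_apply]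

/-- conjugation as a ring automorphism of `T → L`. -/
def conjRingEquiv (σ : L ≃ₐ[F] L) : (T → L) ≃+* (T → L) where
  toFun := conjFun σ
  invFun := conjFun σ⁻¹
  left_inv h := by rw [← conjFun_mul, inv_mul_cancel, conjFun_one]
  right_inv h := by rw [← conjFun_mul, mul_inv_cancel, conjFun_one]
  map_mul' := conjFun_mul' σ
  map_add' := conjFun_add σ

@[simp] theorem conjRingEquiv_apply (σ : L ≃ₐ[F] L) (h : T → L) :
    conjRingEquiv σ h = conjFun σ h := rfl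

/-- `h` is equivariant for the subgroup `𝒩`. -/
def IsEquivFor (𝒩 : Subgroup (L ≃ₐ[F] L)) (h : T → L) : Prop :=
  ∀ σ ∈ 𝒩, ∀ m : T, h (σ • m) = σ (h m)

theorem isEquivFor_top {h : T → L} : IsEquivFor (⊤ : Subgroup (L ≃ₐ[F] L)) h ↔ IsEquivariantFun F h :=
  ⟨fun hh σ m => hh σ (Subgroup.mem_top σ) m, fun hh σ _ m => hh σ m⟩

theorem IsEquivFor.mono {𝒩 𝒩' : Subgroup (L ≃ₐ[F] L)} (hle : 𝒩 ≤ 𝒩') {h : T → L}
    (hh : IsEquivFor 𝒩' h) : IsEquivFor 𝒩 h := fun σ hσ m => hh σ (hle hσ) m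

/-- an equivariant function is fixed by conjugation. -/
theorem conjFun_eq_self {𝒩 : Subgroup (L ≃ₐ[F] L)} {h : T → L} (hh : IsEquivFor 𝒩 h)
    {σ : L ≃ₐ[F] L} (hσ : σ ∈ 𝒩) : conjFun σ h = h := by
  funext m
  rw [conjFun_apply, ← hh σ hσ, smul_inv_smul]

/-- conjugates of equivariant functions are equivariant (for a normal subgroup). -/
theorem IsEquivFor.conjFun {𝒩 : Subgroup (L ≃ₐ[F] L)} [𝒩.Normal] {h : T → L}
    (hh : IsEquivFor 𝒩 h) (σ : L ≃ₐ[F] L) : IsEquivFor 𝒩 (conjFun σ h) := by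
  intro ν hν m
  have h1 : σ⁻¹ * ν * σ ∈ 𝒩 := by
    have := Subgroup.Normal.conj_mem (inferInstance : 𝒩.Normal) ν hν σ⁻¹
    simpa using this
  rw [conjFun_apply, conjFun_apply]
  have h2 : σ⁻¹ • ν • m = (σ⁻¹ * ν * σ) • σ⁻¹ • m := by
    simp [mul_smul]
  rw [h2, hh _ h1]
  simp

/-- conjugates depend only on the coset. -/
theorem conjFun_mul_of_mem {𝒩 : Subgroup (L ≃ₐ[F] L)} {h : T → L} (hh : IsEquivFor 𝒩 h)
    (σ : L ≃ₐ[F] L) {ν : L ≃ₐ[F] L} (hν : ν ∈ 𝒩) : conjFun (σ * ν) h = conjFun σ h := by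
  rw [conjFun_mul, conjFun_eq_self hh hν]

theorem IsEquivFor.smul {𝒩 : Subgroup (L ≃ₐ[F] L)} {h : T → L} (hh : IsEquivFor 𝒩 h) {c : L}
    (hc : ∀ σ ∈ 𝒩, σ c = c) : IsEquivFor 𝒩 (c • h) := by
  intro σ hσ m
  simp [hh σ hσ m, hc σ hσ]

/-- the stabiliser of a subring of `L`. -/
def stab (O : Subring L) : Subgroup (L ≃ₐ[F] L) where
  carrier := {σ | ∀ x : L, σ x ∈ O ↔ x ∈ O}
  mul_mem' := by
    intro σ τ hσ hτ x
    rw [AlgEquiv.mul_apply, hσ, hτ]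
  one_mem' := by
    intro x
    simp
  inv_mem' := by
    intro σ hσ x
    rw [← hσ (σ⁻¹ x)]
    simp

theorem mem_stab {O : Subring L} {σ : L ≃ₐ[F] L} :
    σ ∈ stab (F := F) O ↔ ∀ x : L, σ x ∈ O ↔ x ∈ O := Iff.rfl

end Conj

section Order

variable {F L T : Type} [Field F] [Field L] [Algebra F L] [AddCommGroup T]
  [DistribMulAction (L ≃ₐ[F] L) T]

/-- an (unbundled) function order inside `T → L`. -/
structure IsSubOrder (O : Subring L) (𝒩 : Subgroup (L ≃ₐ[F] L)) (H : Subring (T → L)) : Prop where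
  smul_mem : ∀ c ∈ O, ∀ h ∈ H, c • h ∈ H
  fg : ∃ (n : ℕ) (g : Fin n → T → L), (∀ j, g j ∈ H) ∧
    ∀ h ∈ H, ∃ c : Fin n → L, (∀ j, c j ∈ O) ∧ h = ∑ j, c j • g j
  equivariant : ∀ h ∈ H, IsEquivFor 𝒩 h
  separates : ∀ m m' : T, m ≠ m' → ∃ h ∈ H, h m ≠ h m'
  comul : ∀ h ∈ H, ∃ (n : ℕ) (a b : Fin n → T → L), (∀ i, a i ∈ H ∧ b i ∈ H) ∧
    ∀ m m' : T, h (m + m') = ∑ i, a i m * b i m'

variable {O : Subring L} {𝒩 : Subgroup (L ≃ₐ[F] L)} {H : Subring (T → L)}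

/-- the coefficient ring of an order is fixed by the group. -/
theorem IsSubOrder.fixed (hH : IsSubOrder O 𝒩 H) {c : L} (hc : c ∈ O) {σ : L ≃ₐ[F] L}
    (hσ : σ ∈ 𝒩) : σ c = c := by
  have h1 := hH.equivariant _ (hH.smul_mem c hc 1 H.one_mem) σ hσ (0 : T)
  simpa using h1.symm

theorem IsSubOrder.sum_smul_mem (hH : IsSubOrder O 𝒩 H) {J : Type*} (s : Finset J) (c : J → L)
    (g : J → T → L) (hc : ∀ j ∈ s, c j ∈ O) (hg : ∀ j ∈ s, g j ∈ H) : ∑ j ∈ s, c j • g j ∈ H :=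
  H.sum_mem fun j hj => hH.smul_mem _ (hc j hj) _ (hg j hj)

/-- the group fixing an order's coefficient ring pointwise lies in the stabiliser. -/
theorem IsSubOrder.le_stab (hH : IsSubOrder O 𝒩 H) : 𝒩 ≤ stab O := by
  intro σ hσ x
  constructor
  · intro hx
    have h1 := hH.fixed hx (𝒩.inv_mem hσ)
    have h2 : σ⁻¹ (σ x) = x := by simp
    rw [h2] at h1
    rw [h1]
    exact hx
  · intro hx
    rw [hH.fixed hx hσ]
    exact hx

/-- **adapted trace-dual families** for `(O, 𝒩, ϖ)`: for every `N` a family `x_a ∈ O`, `y_a` with all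
conjugates in `O`, the conjugates by `σ ∉ Stab(O)` in `ϖ^N·O`, and `∑_a x_a σ(y_a) = [σ ∈ 𝒩]`. -/
def AdaptedTD (O : Subring L) (𝒩 : Subgroup (L ≃ₐ[F] L)) (ϖ : L) : Prop :=
  ∀ N : ℕ, ∃ (n : ℕ) (x y : Fin n → L), (∀ a, x a ∈ O) ∧ (∀ a (σ : L ≃ₐ[F] L), σ (y a) ∈ O) ∧
    (∀ σ : L ≃ₐ[F] L, σ ∈ stab (F := F) O ∨ ∀ a, ∃ z ∈ O, σ (y a) = ϖ ^ N * z) ∧
    (∀ σ ∈ 𝒩, ∑ a, x a * σ (y a) = 1) ∧ ∀ σ : L ≃ₐ[F] L, σ ∉ 𝒩 → ∑ a, x a * σ (y a) = 0

end Order

end Fermat.Agent.FFJ.Alg.Defs78
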