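/-
FFJ / chapter ALG (helper78).  **CORE: descent of a stable function order by adapted trace-dual
families.**

`L/F` with `L^{Aut(L/F)} = F`, `G = Aut(L/F)` acting on the finite group `T`; `𝒩 ≤ G` normal of finite
index; `O ≤ L` a subring; `R` a PID with fraction field `F` and `O ∩ F = R`.  Let `H ≤ (T → L)` be a
function order over `O` for `𝒩` which is stable under conjugation by the stabiliser of `O`.  Given
*adapted trace-dual families* (`AdaptedTD`), the `G`-equivariant members of `H` form a function order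
over `R` for `G` (`isFunOrder_descentAlg`).
-/
import Mathlib
import Fermat.Agent.FFJ.Alg.Defs78
import Fermat.Agent.FFJ.Descent.EquivBasis78
import Fermat.Agent.TW.FF.FunOrder68

set_option autoImplicit false

noncomputable section

namespace Fermat.Agent.FFJ.Alg.Core78

open Fermat.Agent.S19.Shell64 Fermat.Agent.TW.FF.FunOrder68 Fermat.Agent.FFJ.Alg.Defs78
open Fermat.Agent.FFJ.Descent.EquivBasis78

section Coeff

variable {F L X : Type} [Field F] [Field L] [Algebra F L] [MulAction (L ≃ₐ[F] L) X]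

/-- twisting the coefficients by a single `σ`. -/
theorem sum_map_smul_eq_of {J : Type*} [Fintype J] {v : J → X → L} {f : X → L} {c : J → L}
    (σ : L ≃ₐ[F] L) (hv : ∀ j x, v j (σ • x) = σ (v j x)) (hf : ∀ x, f (σ • x) = σ (f x))
    (hc : f = ∑ j, c j • v j) : f = ∑ j, σ (c j) • v j := by
  funext x
  have h1 := congrFun hc (σ⁻¹ • x)
  simp only [Finset.sum_apply, Pi.smul_apply, smul_eq_mul] at h1 ⊢
  have h2 := congrArg σ h1
  rw [map_sum, ← hf (σ⁻¹ • x), smul_inv_smul] at h2
  rw [h2]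
  refine Finset.sum_congr rfl fun j _ => ?_
  rw [map_mul, ← hv j (σ⁻¹ • x), smul_inv_smul]

/-- the coefficients of an `𝒩`-equivariant function in an independent `𝒩`-equivariant family are
fixed by `𝒩`. -/
theorem coeff_fixed {𝒩 : Subgroup (L ≃ₐ[F] L)} {J : Type*} [Fintype J] {v : J → X → L}
    (hv : ∀ j, IsEquivFor 𝒩 (v j)) (hli : LinearIndependent L v) {f : X → L}
    (hf : IsEquivFor 𝒩 f) {c : J → L} (hc : f = ∑ j, c j • v j) (j : J) :
    ∀ σ ∈ 𝒩, σ (c j) = c j := by
  intro σ hσ
  have h1 := sum_map_smul_eq_of σ (fun j x => hv j σ hσ x) (fun x => hf σ hσ x) hc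
  have h2 : ∑ j, (σ (c j) - c j) • v j = 0 := by
    simp only [sub_smul, Finset.sum_sub_distrib]
    rw [← h1, ← hc, sub_self]
  have h3 := (Fintype.linearIndependent_iff.mp hli) _ h2 j
  exact sub_eq_zero.mp h3

end Coeff

section Span

variable {L T : Type} [Field L] [Finite T]

/-- a subring of `T → L` (`T` finite) separating the points spans all functions over `L`. -/
theorem span_eq_top_of_separates_subring (H : Subring (T → L))
    (hsep : ∀ m m' : T, m ≠ m' → ∃ h ∈ H, h m ≠ h m') :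
    Submodule.span L (H : Set (T → L)) = ⊤ := by
  classical
  cases nonempty_fintype T
  set A : Subalgebra L (T → L) := Algebra.adjoin L (H : Set (T → L)) with hA
  have hAspan : Subalgebra.toSubmodule A = Submodule.span L (H : Set (T → L)) := by
    rw [hA, Algebra.adjoin_eq_span]
    congr 1
    have := Submonoid.closure_eq H.toSubmonoid
    exact congrArg (fun S : Submonoid (T → L) => (S : Set (T → L))) this
  have hconst : ∀ c : L, (fun _ : T => c) ∈ A := fun c => A.algebraMap_mem c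
  choose! hf hfH hfne using hsep
  have hsingle : ∀ m : T, (Pi.single m (1 : L) : T → L) ∈ A := by
    intro m
    have h1 : (∏ m' ∈ Finset.univ.erase m,
        ((hf m m' - fun _ => hf m m' m') * fun _ => (hf m m' m - hf m m' m')⁻¹) : T → L) ∈ A := by
      refine Subalgebra.prod_mem _ fun m' hm' => ?_
      refine A.mul_mem (A.sub_mem ?_ (hconst _)) (hconst _)
      exact Algebra.subset_adjoin (hfH m m' (Finset.ne_of_mem_erase hm').symm)
    convert h1 using 1
    funext x
    rw [Finset.prod_apply]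
    by_cases hx : x = m
    · subst hx
      rw [Pi.single_eq_same]
      symm
      refine Finset.prod_eq_one fun m' hm' => ?_
      have hne := hfne x m' (Finset.ne_of_mem_erase hm').symm
      simp only [Pi.mul_apply, Pi.sub_apply]
      exact mul_inv_cancel₀ (sub_ne_zero.mpr hne)
    · rw [Pi.single_eq_of_ne hx]
      symm
      refine Finset.prod_eq_zero (Finset.mem_erase.mpr ⟨hx, Finset.mem_univ x⟩) ?_
      simp
  rw [← hAspan, eq_top_iff]
  intro f _
  have hf' : f = ∑ m, f m • (Pi.single m (1 : L) : T → L) := by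
    funext x
    simp [Finset.sum_apply, Pi.single_apply]
  rw [hf']
  exact Submodule.sum_mem _ fun m _ => Submodule.smul_mem _ _ (hsingle m)

end Span

section Main

variable {F L T : Type} [Field F] [Field L] [Algebra F L] [AddCommGroup T]
  [DistribMulAction (L ≃ₐ[F] L) T]

/-- **lattice property**: a sufficiently high multiple of an `𝒩`-equivariant function lies in the
order. -/
theorem exists_pow_smul_mem [Finite T] {O : Subring L} {𝒩 : Subgroup (L ≃ₐ[F] L)}
    {H : Subring (T → L)} (hH : IsSubOrder O 𝒩 H) {ϖ : L} (hϖ : ϖ ∈ O)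
    (hscale : ∀ x : L, (∀ σ ∈ 𝒩, σ x = x) → ∃ N : ℕ, ϖ ^ N * x ∈ O) {f : T → L}
    (hf : IsEquivFor 𝒩 f) : ∃ N : ℕ, ∀ N' : ℕ, N ≤ N' → ϖ ^ N' • f ∈ H := by
  classical
  obtain ⟨n, g, hgH, hgen⟩ := hH.fg
  have htop : Submodule.span L (Set.range g) = ⊤ := by
    rw [eq_top_iff, ← span_eq_top_of_separates_subring H hH.separates]
    refine Submodule.span_le.mpr ?_
    intro h hh
    obtain ⟨c, -, hc⟩ := hgen h hh
    rw [hc]
    exact Submodule.sum_mem _ fun j _ =>
      Submodule.smul_mem _ _ (Submodule.subset_span (Set.mem_range_self j))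
  obtain ⟨b, hbsub, hbspan, hbli⟩ := exists_linearIndependent L (Set.range g)
  have hbfin : b.Finite := (Set.finite_range g).subset hbsub
  have : Fintype b := hbfin.fintype
  have hbH : ∀ i : b, (i : T → L) ∈ H := by
    intro i
    obtain ⟨j, hj⟩ := hbsub i.2
    rw [← hj]
    exact hgH j
  have hfmem : f ∈ Submodule.span L (Set.range (Subtype.val : b → T → L)) := by
    rw [Subtype.range_coe, hbspan, htop]
    exact Submodule.mem_top
  obtain ⟨c, hc⟩ := (Submodule.mem_span_range_iff_exists_fun L).mp hfmem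
  have hfix := fun i => coeff_fixed (v := (Subtype.val : b → T → L))
    (fun i => hH.equivariant _ (hbH i)) hbli hf hc.symm i
  have hN := fun i => hscale (c i) (hfix i)
  choose N hN using hN
  refine ⟨∑ i, N i, fun N' hN' => ?_⟩
  have h1 : ϖ ^ N' • f = ∑ i, (ϖ ^ N' * c i) • (i : T → L) := by
    rw [← hc, Finset.smul_sum]
    exact Finset.sum_congr rfl fun i _ => by rw [mul_smul]
  rw [h1]
  refine hH.sum_smul_mem _ _ _ (fun i _ => ?_) (fun i _ => hbH i)
  have h2 : N i ≤ N' := le_trans (Finset.single_le_sum (fun _ _ => Nat.zero_le _)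
    (Finset.mem_univ i)) hN'
  obtain ⟨k, rfl⟩ := Nat.exists_eq_add_of_le h2
  rw [pow_add, mul_comm (ϖ ^ N i), mul_assoc]
  exact O.mul_mem (O.pow_mem hϖ k) (hN i)

/-! ### The trace operator -/

section Trace

variable (𝒩 : Subgroup (L ≃ₐ[F] L)) [Fintype ((L ≃ₐ[F] L) ⧸ 𝒩)]

/-- the trace `∑_{σ ∈ G/𝒩} σ·f` of an `𝒩`-equivariant function. -/
def trFun (f : T → L) : T → L := ∑ q : (L ≃ₐ[F] L) ⧸ 𝒩, conjFun q.out f

variable {𝒩}

omit [Fintype ((L ≃ₐ[F] L) ⧸ 𝒩)] in
theorem conjFun_out_smul {f : T → L} (hf : IsEquivFor 𝒩 f) (τ : L ≃ₐ[F] L)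
    (q : (L ≃ₐ[F] L) ⧸ 𝒩) : conjFun (τ • q).out f = conjFun (τ * q.out) f := by
  have h1 : ((τ * q.out : L ≃ₐ[F] L) : (L ≃ₐ[F] L) ⧸ 𝒩) = (((τ • q).out : L ≃ₐ[F] L) :
      (L ≃ₐ[F] L) ⧸ 𝒩) := by
    rw [QuotientGroup.out_eq']
    conv_rhs => rw [← QuotientGroup.out_eq' q]
    rfl
  have h2 : (τ * q.out)⁻¹ * (τ • q).out ∈ 𝒩 := QuotientGroup.eq.mp h1
  have h3 : (τ • q).out = (τ * q.out) * ((τ * q.out)⁻¹ * (τ • q).out) := by group
  rw [h3, conjFun_mul_of_mem hf _ h2]

/-- the trace of an `𝒩`-equivariant function is `G`-equivariant. -/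
theorem trFun_equivariant {f : T → L} (hf : IsEquivFor 𝒩 f) : IsEquivariantFun F (trFun 𝒩 f) := by
  intro τ m
  unfold trFun
  rw [Finset.sum_apply, Finset.sum_apply, map_sum]
  rw [← Equiv.sum_comp (MulAction.toPerm τ : Equiv.Perm ((L ≃ₐ[F] L) ⧸ 𝒩))]
  refine Finset.sum_congr rfl fun q _ => ?_
  rw [MulAction.toPerm_apply, conjFun_out_smul hf]
  simp [mul_smul]

/-- **trace decomposition**: `g = ∑_a x_a Tr(y_a g)` for a trace-dual family. -/
theorem eq_sum_smul_trFun {n : ℕ} (x y : Fin n → L)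
    (h1 : ∀ σ ∈ 𝒩, ∑ a, x a * σ (y a) = 1) (h0 : ∀ σ : L ≃ₐ[F] L, σ ∉ 𝒩 → ∑ a, x a * σ (y a) = 0)
    {g : T → L} (hg : IsEquivFor 𝒩 g) : g = ∑ a, x a • trFun 𝒩 (y a • g) := by
  classical
  have hsw : ∑ a, x a • trFun 𝒩 (y a • g) =
      ∑ q : (L ≃ₐ[F] L) ⧸ 𝒩, (∑ a, x a * q.out (y a)) • conjFun q.out g := by
    unfold trFun
    simp only [Finset.smul_sum, conjFun_smul, Finset.sum_smul, mul_smul]
    rw [Finset.sum_comm]
  rw [hsw]
  have hq : ∀ q : (L ≃ₐ[F] L) ⧸ 𝒩, q.out ∈ 𝒩 ↔ q = ((1 : L ≃ₐ[F] L) : (L ≃ₐ[F] L) ⧸ 𝒩) := by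
    intro q
    constructor
    · intro h
      rw [← QuotientGroup.out_eq' q]
      exact (QuotientGroup.eq.mpr (by simpa using h)).symm
    · intro h
      have h2 : ((1 : L ≃ₐ[F] L) : (L ≃ₐ[F] L) ⧸ 𝒩) = ((q.out : L ≃ₐ[F] L) :
          (L ≃ₐ[F] L) ⧸ 𝒩) := by rw [QuotientGroup.out_eq', h]
      simpa using QuotientGroup.eq.mp h2
  rw [Finset.sum_eq_single ((1 : L ≃ₐ[F] L) : (L ≃ₐ[F] L) ⧸ 𝒩)]
  · have hmem := (hq _).mpr rfl
    rw [h1 _ hmem, one_smul, conjFun_eq_self hg hmem]
  · intro q _ hne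
    have hmem : q.out ∉ 𝒩 := fun h => hne ((hq q).mp h)
    rw [h0 _ hmem, zero_smul]
  · intro h
    exact absurd (Finset.mem_univ _) h

end Trace

/-! ### The key decomposition -/

/-- **KEY**: every member of a stable order is an `O`-combination of `G`-equivariant members. -/
theorem exists_trace_decomp [Finite T] {O : Subring L} {𝒩 : Subgroup (L ≃ₐ[F] L)} [𝒩.Normal]
    [Fintype ((L ≃ₐ[F] L) ⧸ 𝒩)] {H : Subring (T → L)} (hH : IsSubOrder O 𝒩 H)
    (hstab : ∀ σ ∈ stab (F := F) O, ∀ h ∈ H, conjFun σ h ∈ H) {ϖ : L} (hϖ : ϖ ∈ O)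
    (hscale : ∀ x : L, (∀ σ ∈ 𝒩, σ x = x) → ∃ N : ℕ, ϖ ^ N * x ∈ O) (hTD : AdaptedTD O 𝒩 ϖ)
    {g : T → L} (hg : g ∈ H) :
    ∃ (n : ℕ) (x : Fin n → L) (u : Fin n → T → L), (∀ a, x a ∈ O) ∧
      (∀ a, u a ∈ H ∧ IsEquivariantFun F (u a)) ∧ g = ∑ a, x a • u a := by
  classical
  have hgN := hH.equivariant g hg
  have hq := fun q : (L ≃ₐ[F] L) ⧸ 𝒩 =>
    exists_pow_smul_mem hH hϖ hscale (hgN.conjFun q.out)
  choose Nq hNq using hq
  obtain ⟨n, x, y, hx, hy, hyN, h1, h0⟩ := hTD (∑ q, Nq q)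
  refine ⟨n, x, fun a => trFun 𝒩 (y a • g), hx, fun a => ⟨?_, ?_⟩,
    eq_sum_smul_trFun x y h1 h0 hgN⟩
  · unfold trFun
    refine H.sum_mem fun q _ => ?_
    rw [conjFun_smul]
    rcases hyN q.out with hs | hz
    · exact hH.smul_mem _ (hy a _) _ (hstab _ hs g hg)
    · obtain ⟨z, hz, hzeq⟩ := hz a
      rw [hzeq, mul_comm, mul_smul]
      refine hH.smul_mem z hz _ (hNq q _ ?_)
      exact Finset.single_le_sum (fun _ _ => Nat.zero_le _) (Finset.mem_univ q)
  · refine trFun_equivariant (hgN.smul fun σ hσ => ?_)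
    have h2 := hy a 1
    rw [AlgEquiv.one_apply] at h2
    exact hH.fixed h2 hσ

/-! ### The descended order -/

section Descent

variable {R : Type} [CommRing R] [Algebra R F] [Algebra R L] [IsScalarTower R F L]

omit [AddCommGroup T] [DistribMulAction (L ≃ₐ[F] L) T] in
theorem map_algebraMap_eq (r : R) (σ : L ≃ₐ[F] L) : σ (algebraMap R L r) = algebraMap R L r := by
  rw [IsScalarTower.algebraMap_apply R F L, AlgEquiv.commutes]

/-- the `G`-equivariant members of `H`, as an `R`-algebra. -/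
def descentAlg (R : Type) [CommRing R] [Algebra R F] [Algebra R L] [IsScalarTower R F L]
    (H : Subring (T → L)) (hR : ∀ r : R, algebraMap R (T → L) r ∈ H) : Subalgebra R (T → L) where
  carrier := {h | h ∈ H ∧ IsEquivariantFun F h}
  mul_mem' := by
    rintro f g ⟨hf, hf'⟩ ⟨hg, hg'⟩
    exact ⟨H.mul_mem hf hg, (equivariantSubalgebra F L T).mul_mem hf' hg'⟩
  one_mem' := ⟨H.one_mem, (equivariantSubalgebra F L T).one_mem⟩
  add_mem' := by
    rintro f g ⟨hf, hf'⟩ ⟨hg, hg'⟩
    exact ⟨H.add_mem hf hg, (equivariantSubalgebra F L T).add_mem hf' hg'⟩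
  zero_mem' := ⟨H.zero_mem, (equivariantSubalgebra F L T).zero_mem⟩
  algebraMap_mem' := by
    intro r
    refine ⟨hR r, fun σ m => ?_⟩
    simp only [Pi.algebraMap_apply]
    exact (map_algebraMap_eq r σ).symm

theorem mem_descentAlg {H : Subring (T → L)} {hR : ∀ r : R, algebraMap R (T → L) r ∈ H}
    {h : T → L} : h ∈ descentAlg (F := F) R H hR ↔ h ∈ H ∧ IsEquivariantFun F h := Iff.rfl

end Descent

/-! ### The descent theorem -/

section MainThm

variable {R : Type} [CommRing R] [IsDomain R] [IsPrincipalIdealRing R] [Algebra R F]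
  [IsFractionRing R F] [Algebra R L] [IsScalarTower R F L]

omit [IsDomain R] [IsPrincipalIdealRing R] [IsFractionRing R F] [Algebra R F]
  [IsScalarTower R F L] in
/-- constants from `R` lie in an order whose coefficient ring contains `R`. -/
theorem algebraMap_mem_of_isSubOrder {O : Subring L} {𝒩 : Subgroup (L ≃ₐ[F] L)}
    {H : Subring (T → L)} (hH : IsSubOrder O 𝒩 H) (hRO : ∀ r : R, algebraMap R L r ∈ O) (r : R) :
    algebraMap R (T → L) r ∈ H := by
  have h1 : algebraMap R (T → L) r = algebraMap R L r • (1 : T → L) := by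
    funext m
    simp
  rw [h1]
  exact hH.smul_mem _ (hRO r) 1 H.one_mem

/-- **The descent theorem.** -/
theorem isFunOrder_descentAlg [Finite T] (hfix : FixedFieldEqBase F L) {O : Subring L}
    {𝒩 : Subgroup (L ≃ₐ[F] L)} [𝒩.Normal] [𝒩.FiniteIndex] {H : Subring (T → L)}
    (hH : IsSubOrder O 𝒩 H) (hstab : ∀ σ ∈ stab (F := F) O, ∀ h ∈ H, conjFun σ h ∈ H)
    (hRO : ∀ r : R, algebraMap R L r ∈ O)
    (hOR : ∀ x : F, algebraMap F L x ∈ O → ∃ r : R, algebraMap R L r = algebraMap F L x)
    {ϖ : R}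
    (hscale : ∀ x : L, (∀ σ ∈ 𝒩, σ x = x) → ∃ N : ℕ, algebraMap R L ϖ ^ N * x ∈ O)
    (hTD : AdaptedTD O 𝒩 (algebraMap R L ϖ)) (hϖ : ϖ ≠ 0) :
    IsFunOrder R F (descentAlg (F := F) R H (algebraMap_mem_of_isSubOrder hH hRO)) := by
  classical
  cases nonempty_fintype ((L ≃ₐ[F] L) ⧸ 𝒩)
  set HF := descentAlg (F := F) R H (algebraMap_mem_of_isSubOrder hH hRO) with hHF
  set ϖL := algebraMap R L ϖ with hϖLdef
  have hinjRL : Function.Injective (algebraMap R L) := algebraMap_injective_of_tower (F := F)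
  have hϖL : ϖL ≠ 0 := fun h => hϖ (hinjRL (by rw [map_zero]; exact h))
  have hϖO : ϖL ∈ O := hRO ϖ
  have key := fun (g : T → L) (hg : g ∈ H) => exists_trace_decomp hH hstab hϖO hscale hTD hg
  -- separation
  have hsep : ∀ m m' : T, m ≠ m' → ∃ h ∈ HF, h m ≠ h m' := by
    intro m m' hmm
    by_contra hcon
    push Not at hcon
    obtain ⟨h, hh, hne⟩ := hH.separates m m' hmm
    obtain ⟨n, x, u, hx, hu, hdec⟩ := key h hh
    apply hne
    rw [hdec]
    simp only [Finset.sum_apply, Pi.smul_apply, smul_eq_mul]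
    refine Finset.sum_congr rfl fun a _ => ?_
    rw [hcon (u a) (hu a)]
  have hsepG : ∀ x y : T, x ≠ y → ∃ h : T → L, IsEquivariantFun F h ∧ h x ≠ h y := by
    intro x y hxy
    obtain ⟨h, hh, hne⟩ := hsep x y hxy
    exact ⟨h, hh.2, hne⟩
  obtain ⟨nv, v, hv, hvli, hvspan⟩ := exists_equivariant_basis hfix hsepG
  obtain ⟨ng, g, hgH, hgen⟩ := hH.fg
  -- coefficients of the generators
  have hcoef : ∀ j, ∃ c : Fin nv → L, g j = ∑ i, c i • v i := by
    intro j
    have h1 : g j ∈ Submodule.span L (Set.range v) := hvspan Submodule.mem_top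
    obtain ⟨c, hc⟩ := (Submodule.mem_span_range_iff_exists_fun L).mp h1
    exact ⟨c, hc.symm⟩
  choose c hc using hcoef
  have hvN : ∀ i, IsEquivFor 𝒩 (v i) := fun i =>
    (isEquivFor_top.mpr (hv i)).mono le_top
  have hcfix : ∀ j i, ∀ σ ∈ 𝒩, σ (c j i) = c j i := fun j i =>
    coeff_fixed hvN hvli (hH.equivariant _ (hgH j)) (hc j) i
  have hcN : ∀ j i, ∃ N : ℕ, ϖL ^ N * c j i ∈ O := fun j i => hscale _ (hcfix j i)
  choose Nc hNc using hcN
  set N := ∑ j, ∑ i, Nc j i with hN
  have hNc' : ∀ j i, ϖL ^ N * c j i ∈ O := by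
    intro j i
    have h2 : Nc j i ≤ N := by
      refine le_trans ?_ (Finset.single_le_sum (fun _ _ => Nat.zero_le _) (Finset.mem_univ j))
      exact Finset.single_le_sum (f := fun i => Nc j i) (fun _ _ => Nat.zero_le _)
        (Finset.mem_univ i)
    obtain ⟨k, hk⟩ := Nat.exists_eq_add_of_le h2
    rw [hk, pow_add, mul_comm (ϖL ^ Nc j i), mul_assoc]
    exact O.mul_mem (O.pow_mem hϖO k) (hNc j i)
  -- finiteness
  have hfin : Module.Finite R HF := by
    let Ψ : (Fin nv → R) →ₗ[R] (T → L) :=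
      { toFun := fun r => ∑ i, algebraMap R L (r i) • v i
        map_add' := by
          intro r s
          simp only [Pi.add_apply, map_add, add_smul, Finset.sum_add_distrib]
        map_smul' := by
          intro a r
          simp only [Pi.smul_apply, smul_eq_mul, map_mul, RingHom.id_apply, Finset.smul_sum]
          refine Finset.sum_congr rfl fun j _ => ?_
          rw [mul_smul, algebraMap_smul] }
    have hmem : ∀ h : HF, ϖL ^ N • (h : T → L) ∈ LinearMap.range Ψ := by
      rintro ⟨h, hhH, hheq⟩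
      obtain ⟨o, ho, hho⟩ := hgen h hhH
      have hd : h = ∑ i, (∑ j, o j * c j i) • v i := by
        rw [hho]
        calc ∑ j, o j • g j = ∑ j, ∑ i, (o j * c j i) • v i := by
              refine Finset.sum_congr rfl fun j _ => ?_
              rw [hc j, Finset.smul_sum]
              exact Finset.sum_congr rfl fun i _ => by rw [mul_smul]
          _ = ∑ i, ∑ j, (o j * c j i) • v i := Finset.sum_comm
          _ = ∑ i, (∑ j, o j * c j i) • v i :=
              Finset.sum_congr rfl fun i _ => by rw [Finset.sum_smul]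
      have hdF := fun i => coeff_mem_range hfix hv hvli hheq hd i
      choose q hq using hdF
      have hdO : ∀ i, ϖL ^ N * ∑ j, o j * c j i ∈ O := by
        intro i
        rw [Finset.mul_sum]
        refine O.sum_mem fun j _ => ?_
        rw [mul_left_comm]
        exact O.mul_mem (ho j) (hNc' j i)
      have hr : ∀ i, ∃ r : R, algebraMap R L r = ϖL ^ N * ∑ j, o j * c j i := by
        intro i
        have h3 : algebraMap F L (algebraMap R F ϖ ^ N * q i) = ϖL ^ N * ∑ j, o j * c j i := by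
          rw [map_mul, map_pow, ← IsScalarTower.algebraMap_apply, hq i]
        obtain ⟨r, hr⟩ := hOR (algebraMap R F ϖ ^ N * q i) (by rw [h3]; exact hdO i)
        exact ⟨r, by rw [hr, h3]⟩
      choose r hr using hr
      refine ⟨r, ?_⟩
      show ∑ i, algebraMap R L (r i) • v i = ϖL ^ N • h
      conv_rhs => rw [hd]
      rw [Finset.smul_sum]
      refine Finset.sum_congr rfl fun i _ => ?_
      rw [hr i, mul_smul]
    let f : HF →ₗ[R] LinearMap.range Ψ :=
      { toFun := fun h => ⟨ϖL ^ N • (h : T → L), hmem h⟩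
        map_add' := by
          intro x y
          apply Subtype.ext
          simp only [Subalgebra.coe_add, smul_add, AddMemClass.mk_add_mk]
        map_smul' := by
          intro a x
          apply Subtype.ext
          simp only [RingHom.id_apply, SetLike.val_smul]
          rw [smul_comm] }
    have hf : Function.Injective f := by
      intro x y hxy
      have h1 := congrArg Subtype.val hxy
      apply Subtype.ext
      exact smul_right_injective _ (pow_ne_zero N hϖL) h1
    have : IsNoetherian R (LinearMap.range Ψ) := isNoetherian_of_isNoetherianRing_of_finite R _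
    exact Module.Finite.of_injective f hf
  refine ⟨hfin, fun h hh => hh.2, hsep, ?_⟩
  -- comultiplication
  have : Module.IsTorsionFree R (T → L) := isTorsionFree_fun (F := F)
  have : Module.IsTorsionFree R HF :=
    Function.Injective.moduleIsTorsionFree (fun h : HF => (h : T → L)) Subtype.val_injective
      (fun _ _ => rfl)
  have : Module.Free R HF := Module.free_of_finite_type_torsion_free'
  let η := Module.Free.chooseBasis R HF
  have hηli : LinearIndependent L (fun k => ((η k : HF) : T → L)) :=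
    basis_linearIndependent hfix HF (fun h hh => hh.2) η
  have hηspan : ⊤ ≤ Submodule.span L (Set.range fun k => ((η k : HF) : T → L)) := by
    refine span_eq_top_of_separates HF.val η hηli ?_
    intro x y hxy
    obtain ⟨h, hh, hne⟩ := hsep x y hxy
    exact ⟨⟨h, hh⟩, hne⟩
  -- every member of `H` is an `O`-combination of `η`
  have hOη : ∀ a ∈ H, ∃ α : Module.Free.ChooseBasisIndex R HF → L, (∀ k, α k ∈ O) ∧
      a = ∑ k, α k • ((η k : HF) : T → L) := by
    intro a ha
    obtain ⟨n, x, u, hx, hu, hdec⟩ := key a ha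
    have hu' : ∀ a', u a' = ∑ k, algebraMap R L (η.repr ⟨u a', hu a'⟩ k) • ((η k : HF) : T → L) := by
      intro a'
      have h1 := η.sum_repr ⟨u a', hu a'⟩
      have h2 := congrArg (fun z : HF => (z : T → L)) h1
      simp only [AddSubmonoidClass.coe_finsetSum, SetLike.val_smul] at h2
      refine h2.symm.trans (Finset.sum_congr rfl fun k _ => ?_)
      rw [algebraMap_smul]
    refine ⟨fun k => ∑ a', x a' * algebraMap R L (η.repr ⟨u a', hu a'⟩ k),
      fun k => O.sum_mem fun a' _ => O.mul_mem (hx a') (hRO _), ?_⟩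
    rw [hdec]
    calc ∑ a', x a' • u a'
        = ∑ a', ∑ k, (x a' * algebraMap R L (η.repr ⟨u a', hu a'⟩ k)) • ((η k : HF) : T → L) := by
          refine Finset.sum_congr rfl fun a' _ => ?_
          conv_lhs => rw [hu' a']
          rw [Finset.smul_sum]
          exact Finset.sum_congr rfl fun k _ => by rw [mul_smul]
      _ = ∑ k, ∑ a', (x a' * algebraMap R L (η.repr ⟨u a', hu a'⟩ k)) • ((η k : HF) : T → L) :=
          Finset.sum_comm
      _ = _ := Finset.sum_congr rfl fun k _ => by rw [Finset.sum_smul]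
  rintro h ⟨hhH, hheq⟩
  obtain ⟨n, a, b, hab, hsum⟩ := hH.comul h hhH
  have hα := fun i => hOη (a i) (hab i).1
  have hβ := fun i => hOη (b i) (hab i).2
  choose α hαO hα using hα
  choose β hβO hβ using hβ
  let ι := Module.Free.ChooseBasisIndex R HF
  let C : ι × ι → L := fun p => ∑ i, α i p.1 * β i p.2
  have hCO : ∀ p, C p ∈ O := fun p =>
    O.sum_mem fun i _ => O.mul_mem (hαO i _) (hβO i _)
  let Δ : T × T → L := fun p => h (p.1 + p.2)
  have hΔ : Δ = ∑ p : ι × ι, C p • prodFun ((η p.1 : HF) : T → L) ((η p.2 : HF) : T → L) := by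
    funext mm
    obtain ⟨m, m'⟩ := mm
    simp only [Δ, C, Finset.sum_apply, Pi.smul_apply, prodFun_apply, smul_eq_mul]
    rw [hsum m m', Fintype.sum_prod_type]
    calc ∑ i, a i m * b i m'
        = ∑ i, ∑ k, ∑ l, α i k * β i l * (((η k : HF) : T → L) m * ((η l : HF) : T → L) m') := by
          refine Finset.sum_congr rfl fun i _ => ?_
          conv_lhs => rw [hα i, hβ i]
          simp only [Finset.sum_apply, Pi.smul_apply, smul_eq_mul]
          rw [Finset.sum_mul_sum]
          refine Finset.sum_congr rfl fun k _ => Finset.sum_congr rfl fun l _ => ?_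
          ring
      _ = ∑ k, ∑ i, ∑ l, α i k * β i l * (((η k : HF) : T → L) m * ((η l : HF) : T → L) m') :=
          Finset.sum_comm
      _ = ∑ k, ∑ l, ∑ i, α i k * β i l * (((η k : HF) : T → L) m * ((η l : HF) : T → L) m') :=
          Finset.sum_congr rfl fun k _ => Finset.sum_comm
      _ = _ := by
          refine Finset.sum_congr rfl fun k _ => Finset.sum_congr rfl fun l _ => ?_
          rw [Finset.sum_mul]
  have hΔeq : IsEquivariantFun F Δ := by
    intro σ mm
    simp only [Δ, Prod.smul_fst, Prod.smul_snd]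
    rw [← smul_add, hheq σ]
  have hpe : ∀ p : ι × ι,
      IsEquivariantFun F (prodFun ((η p.1 : HF) : T → L) ((η p.2 : HF) : T → L)) := by
    intro p σ mm
    simp only [prodFun_apply, Prod.smul_fst, Prod.smul_snd, map_mul]
    rw [(η p.1).2.2 σ, (η p.2).2.2 σ]
  have hpli := linearIndependent_prodFun hηli hηli
  have hCF := fun p => coeff_mem_range hfix hpe hpli hΔeq hΔ p
  have hCR : ∀ p, ∃ r : R, algebraMap R L r = C p := by
    intro p
    obtain ⟨q, hq⟩ := hCF p
    obtain ⟨r, hr⟩ := hOR q (by rw [hq]; exact hCO p)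
    exact ⟨r, by rw [hr, hq]⟩
  choose r hr using hCR
  let e := Fintype.equivFin (ι × ι)
  refine ⟨Fintype.card (ι × ι), fun i => r (e.symm i) • η (e.symm i).1, fun i => η (e.symm i).2,
    fun m m' => ?_⟩
  have h1 := congrFun hΔ (m, m')
  simp only [Δ, Finset.sum_apply, Pi.smul_apply, prodFun_apply, smul_eq_mul] at h1
  rw [h1, ← Equiv.sum_comp e.symm]
  refine Finset.sum_congr rfl fun i _ => ?_
  have hval : (((r (e.symm i) • η (e.symm i).1 : HF)) : T → L) m =
      C (e.symm i) * ((η (e.symm i).1 : HF) : T → L) m := by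
    rw [← hr]
    show (r (e.symm i) • ((η (e.symm i).1 : HF) : T → L)) m = _
    rw [Pi.smul_apply, Algebra.smul_def]
  rw [hval]
  ring

end MainThm

end Main

end Fermat.Agent.FFJ.Alg.Core78
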