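/-
FFJ / chapter ALG (helper78).  **CORE, key form.**

The descent theorem `Core78.isFunOrder_descentAlg` only ever uses its hypotheses "stable + adapted
trace-dual families + `𝒩` normal of finite index" through the *key decomposition*

  every `g ∈ H` is `∑_a x_a • u_a` with `x_a ∈ O` and `u_a ∈ H` `G`-equivariant.

Here the theorem is restated with the key decomposition as a hypothesis (`𝒩` an arbitrary subgroup),
so that it also applies to a number field `K` which is NOT normal over `ℚ` (`KeyNN78`).
-/
import Mathlib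
import Fermat.Agent.FFJ.Alg.Core78

set_option autoImplicit false

noncomputable section

namespace Fermat.Agent.FFJ.Alg.CoreKey78

open Fermat.Agent.S19.Shell64 Fermat.Agent.TW.FF.FunOrder68 Fermat.Agent.FFJ.Alg.Defs78
open Fermat.Agent.FFJ.Descent.EquivBasis78 Fermat.Agent.FFJ.Alg.Core78

variable {F L T : Type} [Field F] [Field L] [Algebra F L] [AddCommGroup T]
  [DistribMulAction (L ≃ₐ[F] L) T]

variable {R : Type} [CommRing R] [IsDomain R] [IsPrincipalIdealRing R] [Algebra R F]
  [IsFractionRing R F] [Algebra R L] [IsScalarTower R F L]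

/-- **The descent theorem, key form.** -/
theorem isFunOrder_descentAlg_of_key [Finite T] (hfix : FixedFieldEqBase F L) {O : Subring L}
    {𝒩 : Subgroup (L ≃ₐ[F] L)} {H : Subring (T → L)}
    (hH : IsSubOrder O 𝒩 H)
    (hRO : ∀ r : R, algebraMap R L r ∈ O)
    (hOR : ∀ x : F, algebraMap F L x ∈ O → ∃ r : R, algebraMap R L r = algebraMap F L x)
    {ϖ : R}
    (hscale : ∀ x : L, (∀ σ ∈ 𝒩, σ x = x) → ∃ N : ℕ, algebraMap R L ϖ ^ N * x ∈ O)
    (key : ∀ g ∈ H, ∃ (n : ℕ) (x : Fin n → L) (u : Fin n → T → L), (∀ a, x a ∈ O) ∧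
      (∀ a, u a ∈ H ∧ IsEquivariantFun F (u a)) ∧ g = ∑ a, x a • u a)
    (hϖ : ϖ ≠ 0) :
    IsFunOrder R F (descentAlg (F := F) R H (algebraMap_mem_of_isSubOrder hH hRO)) := by
  classical
  set HF := descentAlg (F := F) R H (algebraMap_mem_of_isSubOrder hH hRO) with hHF
  set ϖL := algebraMap R L ϖ with hϖLdef
  have hinjRL : Function.Injective (algebraMap R L) := algebraMap_injective_of_tower (F := F)
  have hϖL : ϖL ≠ 0 := fun h => hϖ (hinjRL (by rw [map_zero]; exact h))
  have hϖO : ϖL ∈ O := hRO ϖ
  -- separation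
  have hsep : ∀ m m' : T, m ≠ m' → ∃ h ∈ HF, h m ≠ h m' := by
    intro m m' hmm
    by_contra hcon
    push Not at hcon
    obtain ⟨h, hh, hne⟩ := hH.separates m m' hmm
    obtain ⟨n, x, u, hx, hu, hdec⟩ := key h hh
    apply hne
    rw [hdec]
    simp only [Finset.sum_apply, Pi.smul_apply, smul_eq_mul]
    refine Finset.sum_congr rfl fun a _ => ?_
    rw [hcon (u a) (hu a)]
  have hsepG : ∀ x y : T, x ≠ y → ∃ h : T → L, IsEquivariantFun F h ∧ h x ≠ h y := by
    intro x y hxy
    obtain ⟨h, hh, hne⟩ := hsep x y hxy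
    exact ⟨h, hh.2, hne⟩
  obtain ⟨nv, v, hv, hvli, hvspan⟩ := exists_equivariant_basis hfix hsepG
  obtain ⟨ng, g, hgH, hgen⟩ := hH.fg
  -- coefficients of the generators
  have hcoef : ∀ j, ∃ c : Fin nv → L, g j = ∑ i, c i • v i := by
    intro j
    have h1 : g j ∈ Submodule.span L (Set.range v) := hvspan Submodule.mem_top
    obtain ⟨c, hc⟩ := (Submodule.mem_span_range_iff_exists_fun L).mp h1
    exact ⟨c, hc.symm⟩
  choose c hc using hcoef
  have hvN : ∀ i, IsEquivFor 𝒩 (v i) := fun i =>
    (isEquivFor_top.mpr (hv i)).mono le_top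
  have hcfix : ∀ j i, ∀ σ ∈ 𝒩, σ (c j i) = c j i := fun j i =>
    coeff_fixed hvN hvli (hH.equivariant _ (hgH j)) (hc j) i
  have hcN : ∀ j i, ∃ N : ℕ, ϖL ^ N * c j i ∈ O := fun j i => hscale _ (hcfix j i)
  choose Nc hNc using hcN
  set N := ∑ j, ∑ i, Nc j i with hN
  have hNc' : ∀ j i, ϖL ^ N * c j i ∈ O := by
    intro j i
    have h2 : Nc j i ≤ N := by
      refine le_trans ?_ (Finset.single_le_sum (fun _ _ => Nat.zero_le _) (Finset.mem_univ j))
      exact Finset.single_le_sum (f := fun i => Nc j i) (fun _ _ => Nat.zero_le _)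
        (Finset.mem_univ i)
    obtain ⟨k, hk⟩ := Nat.exists_eq_add_of_le h2
    rw [hk, pow_add, mul_comm (ϖL ^ Nc j i), mul_assoc]
    exact O.mul_mem (O.pow_mem hϖO k) (hNc j i)
  -- finiteness
  have hfin : Module.Finite R HF := by
    let Ψ : (Fin nv → R) →ₗ[R] (T → L) :=
      { toFun := fun r => ∑ i, algebraMap R L (r i) • v i
        map_add' := by
          intro r s
          simp only [Pi.add_apply, map_add, add_smul, Finset.sum_add_distrib]
        map_smul' := by
          intro a r
          simp only [Pi.smul_apply, smul_eq_mul, map_mul, RingHom.id_apply, Finset.smul_sum]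
          refine Finset.sum_congr rfl fun j _ => ?_
          rw [mul_smul, algebraMap_smul] }
    have hmem : ∀ h : HF, ϖL ^ N • (h : T → L) ∈ LinearMap.range Ψ := by
      rintro ⟨h, hhH, hheq⟩
      obtain ⟨o, ho, hho⟩ := hgen h hhH
      have hd : h = ∑ i, (∑ j, o j * c j i) • v i := by
        rw [hho]
        calc ∑ j, o j • g j = ∑ j, ∑ i, (o j * c j i) • v i := by
              refine Finset.sum_congr rfl fun j _ => ?_
              rw [hc j, Finset.smul_sum]
              exact Finset.sum_congr rfl fun i _ => by rw [mul_smul]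
          _ = ∑ i, ∑ j, (o j * c j i) • v i := Finset.sum_comm
          _ = ∑ i, (∑ j, o j * c j i) • v i :=
              Finset.sum_congr rfl fun i _ => by rw [Finset.sum_smul]
      have hdF := fun i => coeff_mem_range hfix hv hvli hheq hd i
      choose q hq using hdF
      have hdO : ∀ i, ϖL ^ N * ∑ j, o j * c j i ∈ O := by
        intro i
        rw [Finset.mul_sum]
        refine O.sum_mem fun j _ => ?_
        rw [mul_left_comm]
        exact O.mul_mem (ho j) (hNc' j i)
      have hr : ∀ i, ∃ r : R, algebraMap R L r = ϖL ^ N * ∑ j, o j * c j i := by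
        intro i
        have h3 : algebraMap F L (algebraMap R F ϖ ^ N * q i) = ϖL ^ N * ∑ j, o j * c j i := by
          rw [map_mul, map_pow, ← IsScalarTower.algebraMap_apply, hq i]
        obtain ⟨r, hr⟩ := hOR (algebraMap R F ϖ ^ N * q i) (by rw [h3]; exact hdO i)
        exact ⟨r, by rw [hr, h3]⟩
      choose r hr using hr
      refine ⟨r, ?_⟩
      show ∑ i, algebraMap R L (r i) • v i = ϖL ^ N • h
      conv_rhs => rw [hd]
      rw [Finset.smul_sum]
      refine Finset.sum_congr rfl fun i _ => ?_
      rw [hr i, mul_smul]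
    let f : HF →ₗ[R] LinearMap.range Ψ :=
      { toFun := fun h => ⟨ϖL ^ N • (h : T → L), hmem h⟩
        map_add' := by
          intro x y
          apply Subtype.ext
          simp only [Subalgebra.coe_add, smul_add, AddMemClass.mk_add_mk]
        map_smul' := by
          intro a x
          apply Subtype.ext
          simp only [RingHom.id_apply, SetLike.val_smul]
          rw [smul_comm] }
    have hf : Function.Injective f := by
      intro x y hxy
      have h1 := congrArg Subtype.val hxy
      apply Subtype.ext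
      exact smul_right_injective _ (pow_ne_zero N hϖL) h1
    have : IsNoetherian R (LinearMap.range Ψ) := isNoetherian_of_isNoetherianRing_of_finite R _
    exact Module.Finite.of_injective f hf
  refine ⟨hfin, fun h hh => hh.2, hsep, ?_⟩
  -- comultiplication
  have : Module.IsTorsionFree R (T → L) := isTorsionFree_fun (F := F)
  have : Module.IsTorsionFree R HF :=
    Function.Injective.moduleIsTorsionFree (fun h : HF => (h : T → L)) Subtype.val_injective
      (fun _ _ => rfl)
  have : Module.Free R HF := Module.free_of_finite_type_torsion_free'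
  let η := Module.Free.chooseBasis R HF
  have hηli : LinearIndependent L (fun k => ((η k : HF) : T → L)) :=
    basis_linearIndependent hfix HF (fun h hh => hh.2) η
  have hηspan : ⊤ ≤ Submodule.span L (Set.range fun k => ((η k : HF) : T → L)) := by
    refine span_eq_top_of_separates HF.val η hηli ?_
    intro x y hxy
    obtain ⟨h, hh, hne⟩ := hsep x y hxy
    exact ⟨⟨h, hh⟩, hne⟩
  -- every member of `H` is an `O`-combination of `η`
  have hOη : ∀ a ∈ H, ∃ α : Module.Free.ChooseBasisIndex R HF → L, (∀ k, α k ∈ O) ∧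
      a = ∑ k, α k • ((η k : HF) : T → L) := by
    intro a ha
    obtain ⟨n, x, u, hx, hu, hdec⟩ := key a ha
    have hu' : ∀ a', u a' = ∑ k, algebraMap R L (η.repr ⟨u a', hu a'⟩ k) • ((η k : HF) : T → L) := by
      intro a'
      have h1 := η.sum_repr ⟨u a', hu a'⟩
      have h2 := congrArg (fun z : HF => (z : T → L)) h1
      simp only [AddSubmonoidClass.coe_finsetSum, SetLike.val_smul] at h2
      refine h2.symm.trans (Finset.sum_congr rfl fun k _ => ?_)
      rw [algebraMap_smul]
    refine ⟨fun k => ∑ a', x a' * algebraMap R L (η.repr ⟨u a', hu a'⟩ k),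
      fun k => O.sum_mem fun a' _ => O.mul_mem (hx a') (hRO _), ?_⟩
    rw [hdec]
    calc ∑ a', x a' • u a'
        = ∑ a', ∑ k, (x a' * algebraMap R L (η.repr ⟨u a', hu a'⟩ k)) • ((η k : HF) : T → L) := by
          refine Finset.sum_congr rfl fun a' _ => ?_
          conv_lhs => rw [hu' a']
          rw [Finset.smul_sum]
          exact Finset.sum_congr rfl fun k _ => by rw [mul_smul]
      _ = ∑ k, ∑ a', (x a' * algebraMap R L (η.repr ⟨u a', hu a'⟩ k)) • ((η k : HF) : T → L) :=
          Finset.sum_comm
      _ = _ := Finset.sum_congr rfl fun k _ => by rw [Finset.sum_smul]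
  rintro h ⟨hhH, hheq⟩
  obtain ⟨n, a, b, hab, hsum⟩ := hH.comul h hhH
  have hα := fun i => hOη (a i) (hab i).1
  have hβ := fun i => hOη (b i) (hab i).2
  choose α hαO hα using hα
  choose β hβO hβ using hβ
  let ι := Module.Free.ChooseBasisIndex R HF
  let C : ι × ι → L := fun p => ∑ i, α i p.1 * β i p.2
  have hCO : ∀ p, C p ∈ O := fun p =>
    O.sum_mem fun i _ => O.mul_mem (hαO i _) (hβO i _)
  let Δ : T × T → L := fun p => h (p.1 + p.2)
  have hΔ : Δ = ∑ p : ι × ι, C p • prodFun ((η p.1 : HF) : T → L) ((η p.2 : HF) : T → L) := by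
    funext mm
    obtain ⟨m, m'⟩ := mm
    simp only [Δ, C, Finset.sum_apply, Pi.smul_apply, prodFun_apply, smul_eq_mul]
    rw [hsum m m', Fintype.sum_prod_type]
    calc ∑ i, a i m * b i m'
        = ∑ i, ∑ k, ∑ l, α i k * β i l * (((η k : HF) : T → L) m * ((η l : HF) : T → L) m') := by
          refine Finset.sum_congr rfl fun i _ => ?_
          conv_lhs => rw [hα i, hβ i]
          simp only [Finset.sum_apply, Pi.smul_apply, smul_eq_mul]
          rw [Finset.sum_mul_sum]
          refine Finset.sum_congr rfl fun k _ => Finset.sum_congr rfl fun l _ => ?_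
          ring
      _ = ∑ k, ∑ i, ∑ l, α i k * β i l * (((η k : HF) : T → L) m * ((η l : HF) : T → L) m') :=
          Finset.sum_comm
      _ = ∑ k, ∑ l, ∑ i, α i k * β i l * (((η k : HF) : T → L) m * ((η l : HF) : T → L) m') :=
          Finset.sum_congr rfl fun k _ => Finset.sum_comm
      _ = _ := by
          refine Finset.sum_congr rfl fun k _ => Finset.sum_congr rfl fun l _ => ?_
          rw [Finset.sum_mul]
  have hΔeq : IsEquivariantFun F Δ := by
    intro σ mm
    simp only [Δ, Prod.smul_fst, Prod.smul_snd]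
    rw [← smul_add, hheq σ]
  have hpe : ∀ p : ι × ι,
      IsEquivariantFun F (prodFun ((η p.1 : HF) : T → L) ((η p.2 : HF) : T → L)) := by
    intro p σ mm
    simp only [prodFun_apply, Prod.smul_fst, Prod.smul_snd, map_mul]
    rw [(η p.1).2.2 σ, (η p.2).2.2 σ]
  have hpli := linearIndependent_prodFun hηli hηli
  have hCF := fun p => coeff_mem_range hfix hpe hpli hΔeq hΔ p
  have hCR : ∀ p, ∃ r : R, algebraMap R L r = C p := by
    intro p
    obtain ⟨q, hq⟩ := hCF p
    obtain ⟨r, hr⟩ := hOR q (by rw [hq]; exact hCO p)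
    exact ⟨r, by rw [hr, hq]⟩
  choose r hr using hCR
  let e := Fintype.equivFin (ι × ι)
  refine ⟨Fintype.card (ι × ι), fun i => r (e.symm i) • η (e.symm i).1, fun i => η (e.symm i).2,
    fun m m' => ?_⟩
  have h1 := congrFun hΔ (m, m')
  simp only [Δ, Finset.sum_apply, Pi.smul_apply, prodFun_apply, smul_eq_mul] at h1
  rw [h1, ← Equiv.sum_comp e.symm]
  refine Finset.sum_congr rfl fun i _ => ?_
  have hval : (((r (e.symm i) • η (e.symm i).1 : HF)) : T → L) m =
      C (e.symm i) * ((η (e.symm i).1 : HF) : T → L) m := by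
    rw [← hr]
    show (r (e.symm i) • ((η (e.symm i).1 : HF) : T → L)) m = _
    rw [Pi.smul_apply, Algebra.smul_def]
  rw [hval]
  ring


end Fermat.Agent.FFJ.Alg.CoreKey78
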