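/-
FFJ / chapter ALG (helper78, architect).  **Spec of the formal descent of function orders.**

GEO (chapters CURVE/PIC/VAL/ORDER/BRIDGE) produces, for the finite `G_ℚ`-module `M` (in the end
`M = J₀(M_lev)(ℚ̄)[ℓ^k]`), a *function order at ONE place of ONE number field*:

  `K ⊂ ℚ̄` finite and normal over `ℚ`, unramified above `ℓ` (`UnramAt ℓ K`), `A` a valuation subring of
  `ℚ̄` over `ℓ`, `O := A ∩ K` (`= RED.Interface4.AK A K`), and an `O`-subalgebra `H ⊂ Fun(M, ℚ̄)` with
  `IsFunOrder O K H` for the action of `Gal(ℚ̄/K)` on `M` by restriction (`resMulAction`).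

This is `GeoInput ℓ M`.  Chapter ALG proves `AlgStatement`: `GeoInput ℓ M → FlatModel ℓ M (σ • ·)`,
i.e. the frozen S19 shape over `ℤ_(ℓ)`.  Route (everything happens inside `Fun(M, ℚ̄)`):

* STAB  : replace `H` by the compositum `H̃` of its conjugates `σ·H`, `σ` in the stabiliser of `O`
          (`(σ·h)(m) = σ(h(σ⁻¹m))`); `H̃` is again a function order over `O` and is stable.
          (An intersection of conjugates would NOT be closed under the comultiplication.)
* TD    : from `UnramAt` (a trace-dual family = the separability idempotent of `K/ℚ`, integral at `ℓ`)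
          and an approximation element, *adapted trace-dual families*: `x_a ∈ O`, all conjugates of
          `y_a` in `O`, the conjugates by `σ ∉ Stab(O)` in `ℓ^N·O`, and `∑_a x_a σ(y_a) = [σ ∈ G_K]`.
* CORE  : `H_ℚ := {h ∈ H̃ | h is G_ℚ-equivariant}` is a function order over `ℤ_(ℓ)`: every generator
          `g` of `H̃` is `∑_a x_a Tr(y_a g)` with `Tr(y_a g) ∈ H_ℚ`, so `H̃ = O·H_ℚ`; finiteness,
          separation and the comultiplication descend by rationality of coefficients.
* WIRE  : bundling/unbundling and `IsFunOrder.exists_model`.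

`UnramAt` is stated so that it is elementary to PRODUCE: it is closed under composita and conjugates,
holds for `ℚ(ζ_n)` (`ℓ ∤ n`) and for towers of simple extensions by a root `α` of a monic `f` with
`f'(α)` a unit at `ℓ` (Euler's formula); see the producer statements at the end.
-/
import Mathlib
import Fermat.Prelude.Def_FLTPrelim_Ramification
import Fermat.Agent.TW.FF.FunOrder68
import Fermat.Agent.TW.FF.FlatModel68

set_option autoImplicit false

noncomputable section

namespace Fermat.Agent.FFJ.Alg.Spec78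

open Fermat.Agent.S19.Shell64 Fermat.Agent.TW.FF.FunOrder68 Fermat.Agent.TW.FF.FlatModel68

/-- `ℚ̄`. -/
abbrev Qbar : Type := AlgebraicClosure ℚ

/-- The action of `Gal(ℚ̄/K)` on a `G_ℚ`-set, by restriction (a def, not an instance). -/
@[reducible] def resMulAction (K : IntermediateField ℚ Qbar) (M : Type) [MulAction GQ M] :
    MulAction (Qbar ≃ₐ[K] Qbar) M :=
  MulAction.compHom M (AlgEquiv.restrictScalarsHom ℚ : (Qbar ≃ₐ[K] Qbar) →* GQ)

theorem resMulAction_smul (K : IntermediateField ℚ Qbar) (M : Type) [MulAction GQ M]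
    (σ : Qbar ≃ₐ[K] Qbar) (m : M) :
    (resMulAction K M).smul σ m = (σ.restrictScalars ℚ : GQ) • m := rfl

/-- `x ∈ ℚ̄` is integral at `ℓ`: it lies in every valuation subring of `ℚ̄` over `ℓ`
(equivalently, `x` is integral over `ℤ_(ℓ)`). -/
def IntegralAt (l : ℕ) (x : Qbar) : Prop :=
  ∀ A : ValuationSubring Qbar, A.LiesOverPrime l → x ∈ A

/-- **`K` is unramified above `ℓ`**, in trace-dual form: the separability idempotent of `K/ℚ` is
`∑ θ_a ⊗ θ'_a` with all `θ_a, θ'_a ∈ K` integral at `ℓ`.  (For `σ ∈ G_ℚ` the sum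
`∑ θ_a σ(θ'_a)` is `1` if `σ` fixes `K` and `0` otherwise.) -/
def UnramAt (l : ℕ) (K : IntermediateField ℚ Qbar) : Prop :=
  ∃ (n : ℕ) (θ θ' : Fin n → Qbar), (∀ a, θ a ∈ K ∧ θ' a ∈ K) ∧
    (∀ a, IntegralAt l (θ a) ∧ IntegralAt l (θ' a)) ∧
    (∀ σ : GQ, σ ∈ K.fixingSubgroup → ∑ a, θ a * σ (θ' a) = 1) ∧
    ∀ σ : GQ, σ ∉ K.fixingSubgroup → ∑ a, θ a * σ (θ' a) = 0

/-- **What GEO delivers**: a function order for `M` at one place of one number field which is normal
over `ℚ` and unramified above `ℓ`. -/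
def GeoInput (l : ℕ) (M : Type) [AddCommGroup M] [DistribMulAction GQ M] : Prop :=
  ∃ (K : IntermediateField ℚ Qbar) (_ : FiniteDimensional ℚ K)
    (_ : ∀ (σ : GQ) (x : Qbar), x ∈ K → σ x ∈ K) (_ : UnramAt l K)
    (A : ValuationSubring Qbar) (_ : A.LiesOverPrime l)
    (H : Subalgebra (A.comap (algebraMap K Qbar)) (M → Qbar)),
    @IsFunOrder (A.comap (algebraMap K Qbar)) K Qbar M _ _ _ _ _ _ (resMulAction K M) H

/-- **The theorem of chapter ALG.** -/
def AlgStatement : Prop :=
  ∀ (l : ℕ) [Fact l.Prime] (M : Type) [AddCommGroup M] [DistribMulAction GQ M],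
    GeoInput l M → FlatModel l M (fun σ m => σ • m)

/-! ### Producers of `UnramAt` (for CURVE/PIC; proved in `FFJ/Alg/Unram*78`) -/

/-- `ℚ` is unramified. -/
def UnramBot : Prop := ∀ l : ℕ, UnramAt l ⊥

/-- composita of unramified fields are unramified. -/
def UnramSup : Prop :=
  ∀ (l : ℕ) (K₁ K₂ : IntermediateField ℚ Qbar), UnramAt l K₁ → UnramAt l K₂ → UnramAt l (K₁ ⊔ K₂)

/-- conjugates of unramified fields are unramified. -/
def UnramMap : Prop :=
  ∀ (l : ℕ) (K : IntermediateField ℚ Qbar) (σ : GQ), UnramAt l K →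
    UnramAt l (K.map (σ : Qbar →ₐ[ℚ] Qbar))

/-- **Euler's formula**: adjoining a root `α` of a monic polynomial `f` whose coefficients lie in an
unramified `K` and are integral at `ℓ`, such that `f'(α)` is a unit at `ℓ` (`f'(α) ≠ 0` and
`f'(α)⁻¹` integral at `ℓ`), keeps the field unramified.  (`f` need not be irreducible.) -/
def UnramAdjoinRoot : Prop :=
  ∀ (l : ℕ) (K : IntermediateField ℚ Qbar), UnramAt l K →
    ∀ (f : Polynomial Qbar) (α : Qbar), f.Monic → (∀ i, f.coeff i ∈ K ∧ IntegralAt l (f.coeff i)) →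
      f.eval α = 0 → f.derivative.eval α ≠ 0 → IntegralAt l (f.derivative.eval α)⁻¹ →
      UnramAt l (K ⊔ IntermediateField.adjoin ℚ {α})

/-- `ℚ(ζ)` is unramified above `ℓ` for `ζ^n = 1`, `ℓ ∤ n`. -/
def UnramRootOfUnity : Prop :=
  ∀ (l : ℕ) (_ : l.Prime) (n : ℕ) (_ : ¬ l ∣ n) (ζ : Qbar), ζ ^ n = 1 →
    UnramAt l (IntermediateField.adjoin ℚ {ζ})

end Fermat.Agent.FFJ.Alg.Spec78
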