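/-
FFJ / chapter ALG (helper92).  **`σ⁻¹A ∩ K = A ∩ K  ⟹  σ ∈ Stab(A) · G_K`.**

`K ⊂ ℚ̄` any subfield, `A` a valuation subring of `ℚ̄`, `σ ∈ G_ℚ` with `σ x ∈ A ↔ x ∈ A` for all
`x ∈ K`.  Then there is `g ∈ G_K` with `σ g ∈ Stab(A)` (`exists_fixing_mul_mem_stab`): the valuation
subrings `A` and `σ⁻¹A` of `ℚ̄` have the same trace on `K`, hence are conjugate under `Gal(ℚ̄/K)`
(`ValConj75.exists_algEquiv_forall_mem_iff` over `F = K`).
-/
import Mathlib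
import Fermat.Agent.FFJ.Alg.Defs78
import Fermat.Agent.FFJ.Alg.Spec78
import Fermat.Agent.FFJ.Order.ValConj75

set_option autoImplicit false

noncomputable section

namespace Fermat.Agent.FFJ.Alg.Decomp92

open Fermat.Agent.FFJ.Alg.Spec78 Fermat.Agent.TW.FF.FlatModel68 Fermat.Agent.FFJ.Alg.Defs78

theorem isAlgebraic_Qbar : Algebra.IsAlgebraic ℚ Qbar := AlgebraicClosure.isAlgebraic ℚ

theorem isAlgClosure_over (K : IntermediateField ℚ Qbar) : IsAlgClosure ↥K Qbar :=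
  have := isAlgebraic_Qbar
  ⟨inferInstance, Algebra.IsAlgebraic.tower_top (K := ℚ) ↥K⟩

theorem isGalois_over (K : IntermediateField ℚ Qbar) : IsGalois ↥K Qbar :=
  have := isAlgClosure_over K
  IsAlgClosure.isGalois ↥K Qbar

/-- **`σ⁻¹A ∩ K = A ∩ K ⟹ σ ∈ Stab(A)·G_K`.** -/
theorem exists_fixing_mul_mem_stab (K : IntermediateField ℚ Qbar) (A : ValuationSubring Qbar)
    (σ : GQ) (h : ∀ x : Qbar, x ∈ K → (σ x ∈ A ↔ x ∈ A)) :
    ∃ g : GQ, g ∈ K.fixingSubgroup ∧ ∀ x : Qbar, (σ * g) x ∈ A ↔ x ∈ A := by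
  have hgal := isGalois_over K
  -- `V' = σ⁻¹ A`
  let V' : ValuationSubring Qbar := A.comap ((σ : Qbar ≃+* Qbar) : Qbar →+* Qbar)
  have hV' : ∀ x : Qbar, x ∈ V' ↔ σ x ∈ A := fun x => by
    show x ∈ A.comap _ ↔ _
    rw [ValuationSubring.mem_comap]
    rfl
  obtain ⟨τ, hτ⟩ := Fermat.Agent.FFJ.Order.ValConj75.exists_algEquiv_forall_mem_iff
    (F := ↥K) (Ω := Qbar) A V' (fun a => by
      rw [hV']
      exact (h (a : Qbar) a.2).symm)
  refine ⟨τ.restrictScalars ℚ, ?_, fun x => ?_⟩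
  · rw [IntermediateField.mem_fixingSubgroup_iff]
    intro x hx
    exact τ.commutes ⟨x, hx⟩
  · have := hτ x
    rw [hV'] at this
    exact this

/-- the same with the stabiliser of `A.toSubring` of `Defs78`. -/
theorem exists_fixing_mul_mem_stab' (K : IntermediateField ℚ Qbar) (A : ValuationSubring Qbar)
    (σ : GQ) (h : ∀ x : Qbar, x ∈ K → (σ x ∈ A ↔ x ∈ A)) :
    ∃ g : GQ, g ∈ K.fixingSubgroup ∧ σ * g ∈ stab (F := ℚ) A.toSubring := by
  obtain ⟨g, hg, hgA⟩ := exists_fixing_mul_mem_stab K A σ h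
  exact ⟨g, hg, mem_stab.mpr hgA⟩

end Fermat.Agent.FFJ.Alg.Decomp92
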