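/-
FFJ / chapter ALG, brick UNRAM (helper92).  **The producers of `Spec78.UnramAt`.**

`UnramAt ℓ K` (trace-dual form of "`K/ℚ` is unramified above `ℓ`") is

* true for `ℚ` (`unramBot`),
* stable under composita (`unramSup`: product family) and conjugates (`unramMap`: transport),
* stable under adjoining a root `α` of a monic `f` with coefficients in `K`, integral at `ℓ`, such
  that `f'(α)` is a unit at `ℓ` (`unramAdjoinRoot`, Euler's formula: with `f = (X - α) g`,
  `g = ∑ b_i X^i`, one has `g(β) = 0` for the other roots `β` of `f` and `g(α) = f'(α)`, so the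
  family `(b_i / f'(α)) θ_a`, `α^i θ'_a` is trace-dual for `K(α)`),
* true for `ℚ(ζ)`, `ζ^n = 1`, `ℓ ∤ n` (`unramRootOfUnity`: `f = X^n - 1`, `f'(ζ)⁻¹ = ζ / n`).
-/
import Mathlib
import Fermat.Agent.FFJ.Alg.Spec78

set_option autoImplicit false

noncomputable section

namespace Fermat.Agent.FFJ.Alg.Unram92

open Fermat.Agent.FFJ.Alg.Spec78 Fermat.Agent.TW.FF.FlatModel68 Polynomial

/-! ### `IntegralAt` -/

theorem integralAt_zero (l : ℕ) : IntegralAt l 0 := fun A _ => A.zero_mem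

theorem integralAt_one (l : ℕ) : IntegralAt l 1 := fun A _ => A.one_mem

theorem integralAt_add {l : ℕ} {x y : Qbar} (hx : IntegralAt l x) (hy : IntegralAt l y) :
    IntegralAt l (x + y) := fun A hA => A.add_mem _ _ (hx A hA) (hy A hA)

theorem integralAt_mul {l : ℕ} {x y : Qbar} (hx : IntegralAt l x) (hy : IntegralAt l y) :
    IntegralAt l (x * y) := fun A hA => A.mul_mem _ _ (hx A hA) (hy A hA)

theorem integralAt_neg {l : ℕ} {x : Qbar} (hx : IntegralAt l x) :
    IntegralAt l (-x) := fun A hA => A.neg_mem _ (hx A hA)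

theorem integralAt_sub {l : ℕ} {x y : Qbar} (hx : IntegralAt l x) (hy : IntegralAt l y) :
    IntegralAt l (x - y) := fun A hA => A.toSubring.sub_mem (hx A hA) (hy A hA)

theorem integralAt_pow {l : ℕ} {x : Qbar} (hx : IntegralAt l x) (n : ℕ) :
    IntegralAt l (x ^ n) := fun A hA => pow_mem (hx A hA) n

theorem integralAt_natCast (l n : ℕ) : IntegralAt l (n : Qbar) :=
  fun A _ => natCast_mem A n

theorem integralAt_intCast (l : ℕ) (n : ℤ) : IntegralAt l (n : Qbar) :=
  fun A _ => intCast_mem A n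

/-- The subring of elements of `ℚ̄` integral at `ℓ`. -/
def integralAtSubring (l : ℕ) : Subring Qbar where
  carrier := {x | IntegralAt l x}
  mul_mem' hx hy := integralAt_mul hx hy
  one_mem' := integralAt_one l
  add_mem' hx hy := integralAt_add hx hy
  zero_mem' := integralAt_zero l
  neg_mem' hx := integralAt_neg hx

theorem mem_integralAtSubring {l : ℕ} {x : Qbar} : x ∈ integralAtSubring l ↔ IntegralAt l x :=
  Iff.rfl

/-- `G_ℚ` permutes the valuation subrings over `ℓ`. -/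
theorem liesOverPrime_comap {l : ℕ} (σ : GQ) {A : ValuationSubring Qbar}
    (hA : A.LiesOverPrime l) : (A.comap ((σ : Qbar ≃+* Qbar) : Qbar →+* Qbar)).LiesOverPrime l := by
  unfold ValuationSubring.LiesOverPrime at hA ⊢
  rw [ValuationSubring.mem_nonunits_iff_or] at hA ⊢
  rcases hA with hA | hA
  · exact Or.inl hA
  · refine Or.inr fun h => hA ?_
    rw [ValuationSubring.mem_comap] at h
    simpa using h

/-- Integrality at `ℓ` is `G_ℚ`-stable. -/
theorem integralAt_map {l : ℕ} (σ : GQ) {x : Qbar} (hx : IntegralAt l x) :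
    IntegralAt l (σ x) := by
  intro A hA
  have := hx _ (liesOverPrime_comap σ hA)
  rw [ValuationSubring.mem_comap] at this
  simpa using this

/-- A root of a monic polynomial with coefficients integral at `ℓ` is integral at `ℓ`. -/
theorem integralAt_of_root {l : ℕ} {f : Qbar[X]} (hf : f.Monic)
    (hc : ∀ i, IntegralAt l (f.coeff i)) {α : Qbar} (hα : f.eval α = 0) : IntegralAt l α := by
  intro A hA
  have hsub : (↑f.coeffs : Set Qbar) ⊆ A.toSubring := by
    intro c hc'
    obtain ⟨n, -, rfl⟩ := Polynomial.mem_coeffs_iff.mp hc'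
    exact hc n A hA
  have hint : IsIntegral A α := by
    refine ⟨f.toSubring A.toSubring hsub, (Polynomial.monic_toSubring f A.toSubring hsub).mpr hf, ?_⟩
    have : (f.toSubring A.toSubring hsub).map (algebraMap A Qbar) = f :=
      Polynomial.map_toSubring f A.toSubring hsub
    rw [← Polynomial.eval_map, this, hα]
  obtain ⟨y, hy⟩ := IsIntegrallyClosed.isIntegral_iff.mp hint
  rw [← hy]
  exact y.2

/-! ### Arbitrary finite index types -/

/-- `UnramAt` from a trace-dual family indexed by an arbitrary finite type. -/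
theorem unramAt_of_fintype {l : ℕ} {K : IntermediateField ℚ Qbar} {ι : Type*} [Fintype ι]
    (θ θ' : ι → Qbar) (hK : ∀ a, θ a ∈ K ∧ θ' a ∈ K)
    (hint : ∀ a, IntegralAt l (θ a) ∧ IntegralAt l (θ' a))
    (h1 : ∀ σ : GQ, σ ∈ K.fixingSubgroup → ∑ a, θ a * σ (θ' a) = 1)
    (h0 : ∀ σ : GQ, σ ∉ K.fixingSubgroup → ∑ a, θ a * σ (θ' a) = 0) : UnramAt l K := by
  classical
  let e := Fintype.equivFin ι
  refine ⟨Fintype.card ι, θ ∘ e.symm, θ' ∘ e.symm, fun a => hK _, fun a => hint _, ?_, ?_⟩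
  · intro σ hσ
    rw [← h1 σ hσ]
    exact Equiv.sum_comp e.symm (fun a => θ a * σ (θ' a))
  · intro σ hσ
    rw [← h0 σ hσ]
    exact Equiv.sum_comp e.symm (fun a => θ a * σ (θ' a))

/-! ### `ℚ` -/

theorem unramBot : UnramBot := by
  intro l
  refine unramAt_of_fintype (ι := Unit) (fun _ => 1) (fun _ => 1) (fun _ => ⟨one_mem _, one_mem _⟩)
    (fun _ => ⟨integralAt_one l, integralAt_one l⟩) ?_ ?_
  · intro σ _
    simp
  · intro σ hσ
    exact absurd (by rw [IntermediateField.fixingSubgroup_bot]; exact Subgroup.mem_top σ) hσ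

/-! ### Composita -/

theorem unramSup : UnramSup := by
  rintro l K₁ K₂ ⟨n₁, θ, θ', hK, hint, h1, h0⟩ ⟨n₂, η, η', hK', hint', h1', h0'⟩
  have hprod : ∀ σ : GQ, ∑ c : Fin n₁ × Fin n₂, (θ c.1 * η c.2) * σ (θ' c.1 * η' c.2) =
      (∑ a, θ a * σ (θ' a)) * ∑ b, η b * σ (η' b) := by
    intro σ
    rw [Finset.sum_mul_sum, Fintype.sum_prod_type]
    refine Finset.sum_congr rfl fun a _ => Finset.sum_congr rfl fun b _ => ?_
    rw [map_mul]
    ring
  refine unramAt_of_fintype (ι := Fin n₁ × Fin n₂) (fun c => θ c.1 * η c.2)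
    (fun c => θ' c.1 * η' c.2) ?_ ?_ ?_ ?_
  · intro c
    exact ⟨mul_mem ((le_sup_left : K₁ ≤ K₁ ⊔ K₂) (hK c.1).1)
        ((le_sup_right : K₂ ≤ K₁ ⊔ K₂) (hK' c.2).1),
      mul_mem ((le_sup_left : K₁ ≤ K₁ ⊔ K₂) (hK c.1).2)
        ((le_sup_right : K₂ ≤ K₁ ⊔ K₂) (hK' c.2).2)⟩
  · intro c
    exact ⟨integralAt_mul (hint c.1).1 (hint' c.2).1, integralAt_mul (hint c.1).2 (hint' c.2).2⟩
  · intro σ hσ
    rw [IntermediateField.fixingSubgroup_sup, Subgroup.mem_inf] at hσ
    rw [hprod, h1 σ hσ.1, h1' σ hσ.2, one_mul]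
  · intro σ hσ
    rw [IntermediateField.fixingSubgroup_sup, Subgroup.mem_inf, not_and_or] at hσ
    rw [hprod]
    rcases hσ with hσ | hσ
    · rw [h0 σ hσ, zero_mul]
    · rw [h0' σ hσ, mul_zero]

/-! ### Conjugates -/

theorem mem_fixingSubgroup_map_iff (K : IntermediateField ℚ Qbar) (σ τ : GQ) :
    τ ∈ (K.map (σ : Qbar →ₐ[ℚ] Qbar)).fixingSubgroup ↔ σ⁻¹ * τ * σ ∈ K.fixingSubgroup := by
  rw [IntermediateField.mem_fixingSubgroup_iff, IntermediateField.mem_fixingSubgroup_iff]
  constructor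
  · intro h x hx
    have := h (σ x) ((IntermediateField.mem_map _).mpr ⟨x, hx, rfl⟩)
    simp only [AlgEquiv.mul_apply]
    rw [this]
    exact σ.symm_apply_apply x
  · intro h y hy
    obtain ⟨x, hx, rfl⟩ := (IntermediateField.mem_map _).mp hy
    have := h x hx
    simp only [AlgEquiv.mul_apply] at this
    have h2 := congrArg σ this
    rw [show σ (σ⁻¹ (τ (σ x))) = τ (σ x) from σ.apply_symm_apply _] at h2
    exact h2

theorem unramMap : UnramMap := by
  rintro l K σ ⟨n, θ, θ', hK, hint, h1, h0⟩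
  have hconj : ∀ τ : GQ, ∑ a, σ (θ a) * τ (σ (θ' a)) =
      σ (∑ a, θ a * (σ⁻¹ * τ * σ) (θ' a)) := by
    intro τ
    rw [map_sum]
    refine Finset.sum_congr rfl fun a _ => ?_
    rw [map_mul]
    simp only [AlgEquiv.mul_apply]
    rw [show σ (σ⁻¹ (τ (σ (θ' a)))) = τ (σ (θ' a)) from σ.apply_symm_apply _]
  refine ⟨n, fun a => σ (θ a), fun a => σ (θ' a), ?_, ?_, ?_, ?_⟩
  · intro a
    exact ⟨(IntermediateField.mem_map _).mpr ⟨θ a, (hK a).1, rfl⟩,
      (IntermediateField.mem_map _).mpr ⟨θ' a, (hK a).2, rfl⟩⟩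
  · intro a
    exact ⟨integralAt_map σ (hint a).1, integralAt_map σ (hint a).2⟩
  · intro τ hτ
    rw [mem_fixingSubgroup_map_iff] at hτ
    rw [hconj, h1 _ hτ, map_one]
  · intro τ hτ
    rw [mem_fixingSubgroup_map_iff] at hτ
    rw [hconj, h0 _ hτ, map_zero]

/-! ### Euler's formula -/

/-- The subfield of `ℚ̄` fixed by `σ`. -/
def fixedBy (σ : GQ) : IntermediateField ℚ Qbar where
  carrier := {x | σ x = x}
  mul_mem' := fun {a b} (ha : σ a = a) (hb : σ b = b) => by
    show σ (a * b) = a * b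
    rw [map_mul, ha, hb]
  add_mem' := fun {a b} (ha : σ a = a) (hb : σ b = b) => by
    show σ (a + b) = a + b
    rw [map_add, ha, hb]
  algebraMap_mem' := fun r => σ.commutes r
  inv_mem' := fun x (hx : σ x = x) => by
    show σ x⁻¹ = x⁻¹
    rw [map_inv₀, hx]

theorem mem_fixingSubgroup_adjoin_simple_iff (σ : GQ) (α : Qbar) :
    σ ∈ (IntermediateField.adjoin ℚ {α}).fixingSubgroup ↔ σ α = α := by
  rw [IntermediateField.mem_fixingSubgroup_iff]
  constructor
  · intro h
    exact h α (IntermediateField.mem_adjoin_simple_self ℚ α)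
  · intro h x hx
    have hle : IntermediateField.adjoin ℚ {α} ≤ fixedBy σ := by
      rw [IntermediateField.adjoin_simple_le_iff]
      exact h
    exact hle hx

/-- Division of `f` by `X - α` (`α` a root) inside a subring containing `α` and the coefficients. -/
theorem exists_quotient {R : Type*} [CommRing R] (S : Subring R) (f : R[X])
    (hfS : ∀ i, f.coeff i ∈ S) {α : R} (hαS : α ∈ S) (hα : f.eval α = 0) :
    ∃ g : R[X], f = (X - C α) * g ∧ ∀ i, g.coeff i ∈ S := by
  have hsub : (↑f.coeffs : Set R) ⊆ S := by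
    intro c hc'
    obtain ⟨n, -, rfl⟩ := Polynomial.mem_coeffs_iff.mp hc'
    exact hfS n
  have hFmap : (f.toSubring S hsub).map S.subtype = f := Polynomial.map_toSubring f S hsub
  have hroot : (f.toSubring S hsub).IsRoot ⟨α, hαS⟩ := by
    have h1 : ((f.toSubring S hsub).map S.subtype).eval (S.subtype ⟨α, hαS⟩) =
        S.subtype ((f.toSubring S hsub).eval ⟨α, hαS⟩) := Polynomial.eval_map_apply _ _
    rw [hFmap] at h1
    have h2 : S.subtype ((f.toSubring S hsub).eval ⟨α, hαS⟩) = 0 := by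
      rw [← h1]
      exact hα
    exact Subtype.ext h2
  refine ⟨((f.toSubring S hsub) /ₘ (X - C ⟨α, hαS⟩)).map S.subtype, ?_, ?_⟩
  · have h3 := congrArg (Polynomial.map S.subtype)
      (Polynomial.mul_divByMonic_eq_iff_isRoot.mpr hroot)
    rw [Polynomial.map_mul, Polynomial.map_sub, Polynomial.map_X, Polynomial.map_C, hFmap] at h3
    exact h3.symm
  · intro i
    rw [Polynomial.coeff_map]
    exact (((f.toSubring S hsub) /ₘ (X - C ⟨α, hαS⟩)).coeff i).2

theorem unramAdjoinRoot : UnramAdjoinRoot := by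
  rintro l K ⟨n, θ, θ', hK, hint, h1, h0⟩ f α hf hc hα hd hdi
  set L : IntermediateField ℚ Qbar := K ⊔ IntermediateField.adjoin ℚ {α} with hL
  have hKL : K ≤ L := le_sup_left
  have hαL : α ∈ L :=
    (le_sup_right : IntermediateField.adjoin ℚ {α} ≤ L) (IntermediateField.mem_adjoin_simple_self ℚ α)
  have hαint : IntegralAt l α := integralAt_of_root hf (fun i => (hc i).2) hα
  -- the quotient `g = f / (X - α)`, with coefficients in `L`, integral at `ℓ`
  obtain ⟨g, hfg, hg⟩ := exists_quotient (L.toSubfield.toSubring ⊓ integralAtSubring l) f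
    (fun i => ⟨hKL (hc i).1, (hc i).2⟩) ⟨hαL, hαint⟩ hα
  have hgL : ∀ i, g.coeff i ∈ L := fun i => (hg i).1
  have hgint : ∀ i, IntegralAt l (g.coeff i) := fun i => (hg i).2
  -- `g(α) = f'(α)`
  have hgα : g.eval α = f.derivative.eval α := by
    rw [hfg, Polynomial.derivative_mul, Polynomial.derivative_X_sub_C]
    simp
  rw [← hgα] at hd hdi
  have hgαL : g.eval α ∈ L := by
    rw [Polynomial.eval_eq_sum_range]
    exact sum_mem fun i _ => mul_mem (hgL i) (pow_mem hαL i)
  -- the other roots of `f` are roots of `g`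
  have hroot : ∀ β : Qbar, f.eval β = 0 → β ≠ α → g.eval β = 0 := by
    intro β hβ hne
    rw [hfg] at hβ
    simp only [Polynomial.eval_mul, Polynomial.eval_sub, Polynomial.eval_X, Polynomial.eval_C,
      mul_eq_zero, sub_eq_zero] at hβ
    exact hβ.resolve_left hne
  -- `σ` fixing `K` permutes the roots of `f`
  have hσroot : ∀ σ : GQ, σ ∈ K.fixingSubgroup → f.eval (σ α) = 0 := by
    intro σ hσ
    rw [IntermediateField.mem_fixingSubgroup_iff] at hσ
    have hfσ : f.map ((σ : Qbar ≃+* Qbar) : Qbar →+* Qbar) = f := by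
      ext i
      rw [Polynomial.coeff_map]
      exact hσ _ (hc i).1
    have h2 : (f.map ((σ : Qbar ≃+* Qbar) : Qbar →+* Qbar)).eval
        (((σ : Qbar ≃+* Qbar) : Qbar →+* Qbar) α) =
        ((σ : Qbar ≃+* Qbar) : Qbar →+* Qbar) (f.eval α) := Polynomial.eval_map_apply _ _
    rw [hfσ, hα, map_zero] at h2
    exact h2
  -- the sum splits
  have hsum : ∀ σ : GQ, ∑ c : Fin (g.natDegree + 1) × Fin n,
      (g.coeff c.1 * (g.eval α)⁻¹ * θ c.2) * σ (α ^ (c.1 : ℕ) * θ' c.2) =
      (g.eval α)⁻¹ * g.eval (σ α) * ∑ a, θ a * σ (θ' a) := by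
    intro σ
    rw [Polynomial.eval_eq_sum_range (p := g) (σ α),
      ← Fin.sum_univ_eq_sum_range (fun i => g.coeff i * σ α ^ i) (g.natDegree + 1),
      mul_assoc, Finset.sum_mul_sum, Finset.mul_sum, Fintype.sum_prod_type]
    refine Finset.sum_congr rfl fun i _ => ?_
    rw [Finset.mul_sum]
    refine Finset.sum_congr rfl fun a _ => ?_
    rw [map_mul, map_pow]
    ring
  refine unramAt_of_fintype (ι := Fin (g.natDegree + 1) × Fin n)
    (fun c => g.coeff c.1 * (g.eval α)⁻¹ * θ c.2) (fun c => α ^ (c.1 : ℕ) * θ' c.2) ?_ ?_ ?_ ?_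
  · intro c
    exact ⟨mul_mem (mul_mem (hgL _) (L.inv_mem hgαL)) (hKL (hK c.2).1),
      mul_mem (pow_mem hαL _) (hKL (hK c.2).2)⟩
  · intro c
    exact ⟨integralAt_mul (integralAt_mul (hgint _) hdi) (hint c.2).1,
      integralAt_mul (integralAt_pow hαint _) (hint c.2).2⟩
  · intro σ hσ
    rw [hL, IntermediateField.fixingSubgroup_sup, Subgroup.mem_inf,
      mem_fixingSubgroup_adjoin_simple_iff] at hσ
    rw [hsum, h1 σ hσ.1, hσ.2, mul_one, inv_mul_cancel₀ hd]
  · intro σ hσ
    rw [hL, IntermediateField.fixingSubgroup_sup, Subgroup.mem_inf,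
      mem_fixingSubgroup_adjoin_simple_iff, not_and_or] at hσ
    rw [hsum]
    by_cases hσK : σ ∈ K.fixingSubgroup
    · have hne : σ α ≠ α := hσ.resolve_left (not_not.mpr hσK)
      rw [hroot (σ α) (hσroot σ hσK) hne, mul_zero, zero_mul]
    · rw [h0 σ hσK, mul_zero]

/-! ### Roots of unity -/

/-- `n` is a unit at `ℓ` when `ℓ ∤ n`. -/
theorem integralAt_inv_natCast {l : ℕ} (hl : l.Prime) {n : ℕ} (hn : ¬ l ∣ n) :
    IntegralAt l ((n : Qbar))⁻¹ := by
  intro A hA
  have hcop : IsCoprime (l : ℤ) (n : ℤ) :=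
    Nat.isCoprime_iff_coprime.mpr ((Nat.Prime.coprime_iff_not_dvd hl).mpr hn)
  obtain ⟨a, b, hab⟩ := hcop
  have hab' : (a : Qbar) * l + b * n = 1 := by
    exact_mod_cast congrArg (Int.cast : ℤ → Qbar) hab
  by_contra hcon
  have hnn : (n : Qbar) ∈ A.nonunits := A.mem_nonunits_iff_or.mpr (Or.inr hcon)
  have hl' : (l : Qbar) ∈ A.nonunits := hA
  rw [ValuationSubring.mem_nonunits_iff] at hnn hl'
  have hint : ∀ (z : ℤ) (x : Qbar), A.valuation x < 1 → A.valuation ((z : Qbar) * x) < 1 := by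
    intro z x hx
    rw [map_mul]
    exact lt_of_le_of_lt
      (mul_le_of_le_one_left' ((A.valuation_le_one_iff _).mpr (intCast_mem A z))) hx
  have h1 : A.valuation ((a : Qbar) * l + b * n) < 1 :=
    lt_of_le_of_lt (A.valuation.map_add _ _) (max_lt (hint a _ hl') (hint b _ hnn))
  rw [hab', map_one] at h1
  exact lt_irrefl _ h1

theorem unramRootOfUnity : UnramRootOfUnity := by
  intro l hl n hn ζ hζ
  have hn0 : n ≠ 0 := by
    rintro rfl
    exact hn (dvd_zero l)
  have hζ0 : ζ ≠ 0 := by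
    rintro rfl
    rw [zero_pow hn0] at hζ
    exact zero_ne_one hζ
  have h01 : ∀ (P : Prop) [Decidable P],
      (if P then (1 : Qbar) else 0) ∈ (⊥ : IntermediateField ℚ Qbar) ∧
        IntegralAt l (if P then (1 : Qbar) else 0) := by
    intro P _
    split_ifs
    · exact ⟨one_mem _, integralAt_one l⟩
    · exact ⟨zero_mem _, integralAt_zero l⟩
  have hcoeff : ∀ i, (X ^ n - C (1 : Qbar)).coeff i ∈ (⊥ : IntermediateField ℚ Qbar) ∧
      IntegralAt l ((X ^ n - C (1 : Qbar)).coeff i) := by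
    intro i
    rw [Polynomial.coeff_sub, Polynomial.coeff_X_pow, Polynomial.coeff_C]
    exact ⟨sub_mem (h01 _).1 (h01 _).1, integralAt_sub (h01 _).2 (h01 _).2⟩
  have hmonic : (X ^ n - C (1 : Qbar)).Monic := Polynomial.monic_X_pow_sub_C 1 hn0
  have hroot : (X ^ n - C (1 : Qbar)).eval ζ = 0 := by
    simp [hζ]
  have hder : (X ^ n - C (1 : Qbar)).derivative.eval ζ = (n : Qbar) * ζ ^ (n - 1) := by
    rw [Polynomial.derivative_sub, Polynomial.derivative_X_pow, Polynomial.derivative_C, sub_zero]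
    simp
  have hζint : IntegralAt l ζ := integralAt_of_root hmonic (fun i => (hcoeff i).2) hroot
  have hinv : ((n : Qbar) * ζ ^ (n - 1))⁻¹ = (n : Qbar)⁻¹ * ζ := by
    rw [mul_inv]
    congr 1
    exact inv_eq_of_mul_eq_one_right (by rw [pow_sub_one_mul hn0, hζ])
  have key := unramAdjoinRoot l ⊥ (unramBot l) (X ^ n - C (1 : Qbar)) ζ hmonic hcoeff hroot
    (by rw [hder]; exact mul_ne_zero (Nat.cast_ne_zero.mpr hn0) (pow_ne_zero _ hζ0))
    (by rw [hder, hinv]; exact integralAt_mul (integralAt_inv_natCast hl hn) hζint)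
  rwa [bot_sup_eq] at key

end Fermat.Agent.FFJ.Alg.Unram92
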