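/-
FFJ / chapter ALG, brick UNRAM, side lemma (helper92).  **`ℚ` has one place over `ℓ`.**

For a rational `x ∈ ℚ ⊂ ℚ̄` and a valuation subring `A` of `ℚ̄` over the prime `ℓ`:
`x ∈ A ↔ ℓ ∤ den x`.  Hence `x ∈ A → IntegralAt ℓ x` (`integralAt_of_mem_bot`): this is the hypothesis
`hjint` of `UnramEtale92.unramAt_of_isUnit_discr` for `R = A ∩ ℚ = A.comap (algebraMap ⊥ ℚ̄)`
(`integralAt_comap_bot`).
-/
import Mathlib
import Fermat.Agent.FFJ.Alg.Unram92

set_option autoImplicit false

noncomputable section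

namespace Fermat.Agent.FFJ.Alg.IntegralBot92

open Fermat.Agent.FFJ.Alg.Spec78 Fermat.Agent.TW.FF.FlatModel68 Fermat.Agent.FFJ.Alg.Unram92

/-- an integer prime to `ℓ` is a unit at `ℓ`. -/
theorem integralAt_inv_intCast {l : ℕ} (hl : l.Prime) {z : ℤ} (hz : ¬ (l : ℤ) ∣ z) :
    IntegralAt l ((z : Qbar))⁻¹ := by
  have hn : ¬ l ∣ z.natAbs := fun h => hz (Int.natCast_dvd.mpr h)
  have h1 := integralAt_inv_natCast hl hn
  rcases Int.natAbs_eq z with h | h
  · have : (z : Qbar) = (z.natAbs : Qbar) := by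
      have h2 := congrArg (Int.cast : ℤ → Qbar) h
      rw [Int.cast_natCast] at h2
      exact h2
    rw [this]
    exact h1
  · have : (z : Qbar) = -(z.natAbs : Qbar) := by
      have h2 := congrArg (Int.cast : ℤ → Qbar) h
      rw [Int.cast_neg, Int.cast_natCast] at h2
      exact h2
    rw [this, inv_neg]
    exact integralAt_neg h1

/-- A rational number in a valuation subring over `ℓ` has denominator prime to `ℓ`. -/
theorem not_dvd_den_of_mem {l : ℕ} (hl : l.Prime) {A : ValuationSubring Qbar}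
    (hA : A.LiesOverPrime l) (q : ℚ) (hq : algebraMap ℚ Qbar q ∈ A) : ¬ l ∣ q.den := by
  rintro ⟨m, hm⟩
  -- `ℓ ∤ num`
  have hnum : ¬ (l : ℤ) ∣ q.num := by
    intro h
    have h1 : l ∣ q.num.natAbs := Int.natCast_dvd.mp h
    have h2 : l ∣ Nat.gcd q.num.natAbs q.den := Nat.dvd_gcd h1 ⟨m, hm⟩
    rw [q.reduced] at h2
    exact hl.one_lt.ne' (Nat.dvd_one.mp h2)
  -- `num = den * x = ℓ * (m * x)`
  have hmul : (q.num : Qbar) = (l : Qbar) * ((m : Qbar) * algebraMap ℚ Qbar q) := by
    have h3 : (q.den : ℚ) * q = q.num := by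
      rw [mul_comm]
      exact Rat.mul_den_eq_num q
    have h4 := congrArg (algebraMap ℚ Qbar) h3
    rw [map_mul, map_natCast, map_intCast, hm] at h4
    rw [← h4]
    push_cast
    ring
  have hl' : A.valuation (l : Qbar) < 1 := (A.mem_nonunits_iff).mp hA
  have h5 : A.valuation (q.num : Qbar) < 1 := by
    rw [hmul, map_mul]
    refine lt_of_le_of_lt (mul_le_of_le_one_right' ?_) hl'
    exact (A.valuation_le_one_iff _).mpr (A.mul_mem _ _ (natCast_mem A m) hq)
  have h6 : A.valuation ((q.num : Qbar))⁻¹ ≤ 1 :=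
    (A.valuation_le_one_iff _).mpr (integralAt_inv_intCast hl hnum A hA)
  have hne : (q.num : Qbar) ≠ 0 := by
    intro h0
    apply hnum
    have : q.num = 0 := by exact_mod_cast h0
    rw [this]
    exact dvd_zero _
  have h7 : A.valuation (1 : Qbar) < 1 := by
    rw [← mul_inv_cancel₀ hne, map_mul]
    exact lt_of_le_of_lt (mul_le_of_le_one_right' h6) h5
  rw [map_one] at h7
  exact lt_irrefl _ h7

/-- A rational number with denominator prime to `ℓ` is integral at `ℓ`. -/
theorem integralAt_of_not_dvd_den {l : ℕ} (hl : l.Prime) (q : ℚ) (hq : ¬ l ∣ q.den) :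
    IntegralAt l (algebraMap ℚ Qbar q) := by
  have h1 : algebraMap ℚ Qbar q = (q.num : Qbar) * ((q.den : Qbar))⁻¹ := by
    conv_lhs => rw [← Rat.num_div_den q]
    rw [map_div₀, map_intCast, map_natCast, div_eq_mul_inv]
  rw [h1]
  exact integralAt_mul (integralAt_intCast l _) (integralAt_inv_natCast hl hq)

/-- **`ℚ` has one place over `ℓ`**: a rational number lying in ONE valuation subring of `ℚ̄` over `ℓ`
lies in all of them. -/
theorem integralAt_of_mem_bot {l : ℕ} (hl : l.Prime) {A : ValuationSubring Qbar}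
    (hA : A.LiesOverPrime l) {x : Qbar} (hx : x ∈ (⊥ : IntermediateField ℚ Qbar)) (hxA : x ∈ A) :
    IntegralAt l x := by
  obtain ⟨q, rfl⟩ := IntermediateField.mem_bot.mp hx
  exact integralAt_of_not_dvd_den hl q (not_dvd_den_of_mem hl hA q hxA)

/-- The form used for `R = A ∩ ℚ` in `UnramEtale92.unramAt_of_isUnit_discr`. -/
theorem integralAt_comap_bot {l : ℕ} (hl : l.Prime) {A : ValuationSubring Qbar}
    (hA : A.LiesOverPrime l)
    (r : A.comap (algebraMap (⊥ : IntermediateField ℚ Qbar) Qbar)) :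
    IntegralAt l (algebraMap (⊥ : IntermediateField ℚ Qbar) Qbar (r : (⊥ : IntermediateField ℚ Qbar))) :=
  integralAt_of_mem_bot hl hA (r : (⊥ : IntermediateField ℚ Qbar)).2 (ValuationSubring.mem_comap.mp r.2)

end Fermat.Agent.FFJ.Alg.IntegralBot92
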