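/-
FFJ / chapter ALG (helper78).  **Spec addendum: ALG with unramifiedness AT ONE PLACE only.**

`UnramAtPlace A K` : a trace-dual family of `K/ℚ` (the separability idempotent) which is integral at the
ONE valuation subring `A` of `ℚ̄` (instead of at every valuation subring over `ℓ`, as in `UnramAt ℓ K`).
For `K` normal over `ℚ` this is all chapter ALG needs: the approximation element of brick TD absorbs the
denominators of the finitely many conjugates (`TDLocal78.adaptedTD_of_unramAtPlace`).

`GeoInputLocal ℓ M` = `GeoInput ℓ M` with `UnramAt ℓ K` replaced by `UnramAtPlace A K` for the same `A`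
that carries the function order;  `AlgStatementLocal` : `GeoInputLocal ℓ M → FlatModel ℓ M (σ • ·)`.
-/
import Mathlib
import Fermat.Agent.FFJ.Alg.Spec78

set_option autoImplicit false

noncomputable section

namespace Fermat.Agent.FFJ.Alg.SpecLocal78

open Fermat.Agent.S19.Shell64 Fermat.Agent.TW.FF.FunOrder68 Fermat.Agent.TW.FF.FlatModel68
open Fermat.Agent.FFJ.Alg.Spec78

/-- **`K` is unramified at the place `A`**, in trace-dual form: the separability idempotent of `K/ℚ`
is `∑ θ_a ⊗ θ'_a` with all `θ_a, θ'_a ∈ A ∩ K`. -/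
def UnramAtPlace (A : ValuationSubring Qbar) (K : IntermediateField ℚ Qbar) : Prop :=
  ∃ (n : ℕ) (θ θ' : Fin n → Qbar), (∀ a, θ a ∈ K ∧ θ' a ∈ K) ∧ (∀ a, θ a ∈ A ∧ θ' a ∈ A) ∧
    (∀ σ : GQ, σ ∈ K.fixingSubgroup → ∑ a, θ a * σ (θ' a) = 1) ∧
    ∀ σ : GQ, σ ∉ K.fixingSubgroup → ∑ a, θ a * σ (θ' a) = 0

/-- global unramifiedness above `ℓ` implies unramifiedness at every place over `ℓ`. -/
theorem unramAtPlace_of_unramAt {l : ℕ} {K : IntermediateField ℚ Qbar} (h : UnramAt l K)
    {A : ValuationSubring Qbar} (hA : A.LiesOverPrime l) : UnramAtPlace A K := by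
  obtain ⟨n, θ, θ', hK, hint, h1, h0⟩ := h
  exact ⟨n, θ, θ', hK, fun a => ⟨(hint a).1 A hA, (hint a).2 A hA⟩, h1, h0⟩

/-- **What GEO delivers, local form**: a function order for `M` at one place `A ∩ K` of a number
field `K` which is normal over `ℚ` and unramified at that place. -/
def GeoInputLocal (l : ℕ) (M : Type) [AddCommGroup M] [DistribMulAction GQ M] : Prop :=
  ∃ (K : IntermediateField ℚ Qbar) (_ : FiniteDimensional ℚ K)
    (_ : ∀ (σ : GQ) (x : Qbar), x ∈ K → σ x ∈ K)
    (A : ValuationSubring Qbar) (_ : A.LiesOverPrime l) (_ : UnramAtPlace A K)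
    (H : Subalgebra (A.comap (algebraMap K Qbar)) (M → Qbar)),
    @IsFunOrder (A.comap (algebraMap K Qbar)) K Qbar M _ _ _ _ _ _ (resMulAction K M) H

theorem geoInputLocal_of_geoInput {l : ℕ} {M : Type} [AddCommGroup M] [DistribMulAction GQ M]
    (h : GeoInput l M) : GeoInputLocal l M := by
  obtain ⟨K, hfd, hnorm, hunr, A, hA, H, hH⟩ := h
  exact ⟨K, hfd, hnorm, A, hA, unramAtPlace_of_unramAt hunr hA, H, hH⟩

/-- **The theorem of chapter ALG, local form.** -/
def AlgStatementLocal : Prop :=
  ∀ (l : ℕ) [Fact l.Prime] (M : Type) [AddCommGroup M] [DistribMulAction GQ M],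
    GeoInputLocal l M → FlatModel l M (fun σ m => σ • m)

end Fermat.Agent.FFJ.Alg.SpecLocal78
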