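/-
FFJ / chapter ALG, brick TD (helper92).  **Adapted trace-dual families from `UnramAt`.**

`K ⊂ ℚ̄` finite and normal over `ℚ`, unramified above `ℓ` (`UnramAt ℓ K`: a trace-dual family
`θ, θ'` integral at `ℓ`), `A` a valuation subring of `ℚ̄` over `ℓ`, `O = A ∩ K`.  For every `N` there is
an *approximation element* `e ∈ K`: integral at `ℓ`, a unit of `A`, and with `σ e ∈ ℓ^N O` for every
`σ ∉ Stab(O)`.  Then `x_a := e⁻¹ θ_a`, `y_a := e θ'_a` is an adapted trace-dual family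
(`Defs78.AdaptedTD`).

The element: the primes `P_σ` of `𝓞 K` cut out by the conjugates `σ⁻¹ A` are finitely many (they
contain `ℓ`); `u ∈ 𝓞 K` lies in all of them except `P_1`; `e = u^M`, with `M` large enough that
`u^M ∈ ℓ^N (σ⁻¹ A ∩ K)` in each of the finitely many discrete valuation rings `σ⁻¹ A ∩ K ≠ A ∩ K`.
-/
import Mathlib
import Fermat.Agent.FFJ.Alg.Defs78
import Fermat.Agent.FFJ.Alg.Unram92
import Fermat.Agent.RED.DESC.NumberFieldDVR27

set_option autoImplicit false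

noncomputable section

namespace Fermat.Agent.FFJ.Alg.TD92

open Fermat.Agent.FFJ.Alg.Spec78 Fermat.Agent.TW.FF.FlatModel68 Fermat.Agent.FFJ.Alg.Defs78
open Fermat.Agent.FFJ.Alg.Unram92
open Fermat.Agent.RED.Interface4 (AK)
open Fermat.Agent.RED.DESC.NumberFieldDVR27
open NumberField IsDedekindDomain IsDedekindDomain.HeightOneSpectrum

/-! ### A discrete valuation ring lemma -/

/-- In a discrete valuation ring a power of a nonunit is divisible by any nonzero element. -/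
theorem exists_pow_eq_mul {D : Type*} [CommRing D] [IsDomain D] [IsDiscreteValuationRing D]
    {u c : D} (hu : u ∈ IsLocalRing.maximalIdeal D) (hc : c ≠ 0) :
    ∃ (M : ℕ) (w : D), u ^ M = c * w := by
  obtain ⟨ϖ, hϖ⟩ := IsDiscreteValuationRing.exists_irreducible D
  obtain ⟨k, v, hcv⟩ := IsDiscreteValuationRing.eq_unit_mul_pow_irreducible hc hϖ
  rw [hϖ.maximalIdeal_eq, Ideal.mem_span_singleton'] at hu
  obtain ⟨t, rfl⟩ := hu
  refine ⟨k, (↑v⁻¹ : D) * t ^ k, ?_⟩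
  have hv : (v : D) * (↑v⁻¹ : D) = 1 := Units.mul_inv v
  rw [hcv, mul_pow]
  linear_combination (-(t ^ k * ϖ ^ k)) * hv

/-! ### Conjugate valuation subrings -/

/-- `σ⁻¹ A = {x | σ x ∈ A}`. -/
def conjA (A : ValuationSubring Qbar) (σ : GQ) : ValuationSubring Qbar :=
  A.comap ((σ : Qbar ≃+* Qbar) : Qbar →+* Qbar)

theorem mem_conjA {A : ValuationSubring Qbar} {σ : GQ} {x : Qbar} : x ∈ conjA A σ ↔ σ x ∈ A := by
  rw [conjA, ValuationSubring.mem_comap]
  rfl

theorem conjA_liesOver {l : ℕ} {A : ValuationSubring Qbar} (hA : A.LiesOverPrime l) (σ : GQ) :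
    (conjA A σ).LiesOverPrime l := liesOverPrime_comap σ hA

theorem mem_inf_iff {A : ValuationSubring Qbar} {K : IntermediateField ℚ Qbar} {x : Qbar} :
    x ∈ A.toSubring ⊓ K.toSubring ↔ x ∈ A ∧ x ∈ K := Iff.rfl

/-- if `σ⁻¹ A ∩ K = A ∩ K` then `σ` stabilises `A ∩ K`. -/
theorem mem_stab_of_AK_eq {A : ValuationSubring Qbar} {K : IntermediateField ℚ Qbar}
    (hnorm : ∀ (σ : GQ) (x : Qbar), x ∈ K → σ x ∈ K) (σ : GQ)
    (h : AK (conjA A σ) K = AK A K) : σ ∈ stab (F := ℚ) (A.toSubring ⊓ K.toSubring) := by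
  rw [mem_stab]
  have key : ∀ x : Qbar, x ∈ K → (σ x ∈ A ↔ x ∈ A) := by
    intro x hx
    have h1 : (⟨x, hx⟩ : K) ∈ AK (conjA A σ) K ↔ (⟨x, hx⟩ : K) ∈ AK A K := by rw [h]
    rw [mem_AK_iff, mem_AK_iff] at h1
    rw [← mem_conjA]
    exact h1
  intro x
  rw [mem_inf_iff, mem_inf_iff]
  constructor
  · rintro ⟨h1, h2⟩
    have hx : x ∈ K := by
      have := hnorm σ⁻¹ (σ x) h2
      rwa [show σ⁻¹ (σ x) = x from σ.symm_apply_apply x] at this
    exact ⟨(key x hx).mp h1, hx⟩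
  · rintro ⟨h1, h2⟩
    exact ⟨(key x h2).mpr h1, hnorm σ x h2⟩

/-! ### The approximation element -/

/-- **The approximation element**: `e ∈ 𝓞 K`, a unit at `A`, and divisible by `ℓ^N` at every
conjugate place `σ⁻¹ A ∩ K ≠ A ∩ K`. -/
theorem exists_approx {l : ℕ} (hl : l.Prime) (K : IntermediateField ℚ Qbar) [FiniteDimensional ℚ K]
    (A : ValuationSubring Qbar) (hA : A.LiesOverPrime l) (N : ℕ) :
    ∃ e : 𝓞 K, A.valuation (((e : K) : Qbar)) = 1 ∧
      ∀ σ : GQ, AK (conjA A σ) K = AK A K ∨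
        ∃ w : K, w ∈ AK (conjA A σ) K ∧ (e : K) = (l : K) ^ N * w := by
  classical
  have hl0 : l ≠ 0 := hl.ne_zero
  set v₁ : HeightOneSpectrum (𝓞 K) := primeOf A K hl0 hA with hv₁
  -- the primes of `𝓞 K` containing `ℓ`
  have hspan : Ideal.span {(l : 𝓞 K)} ≠ 0 := by
    rw [Ne, Ideal.zero_eq_bot, Ideal.span_singleton_eq_bot]
    exact Nat.cast_ne_zero.mpr hl0
  have h𝒮 := Ideal.finite_factors hspan
  have hmem𝒮 : ∀ σ : GQ, primeOf (conjA A σ) K hl0 (conjA_liesOver hA σ) ∈ h𝒮.toFinset := by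
    intro σ
    rw [Set.Finite.mem_toFinset]
    show (primeOf (conjA A σ) K hl0 (conjA_liesOver hA σ)).asIdeal ∣ Ideal.span {(l : 𝓞 K)}
    rw [Ideal.dvd_span_singleton]
    exact natCast_mem_primeIdeal (conjA A σ) K (conjA_liesOver hA σ)
  -- the element `u`
  have hu : ∃ u : 𝓞 K, u ∉ v₁.asIdeal ∧
      ∀ v ∈ h𝒮.toFinset, v ≠ v₁ → u ∈ v.asIdeal := by
    have hnle : ¬ (∏ v ∈ h𝒮.toFinset.erase v₁, v.asIdeal) ≤ v₁.asIdeal := by
      intro hle
      obtain ⟨v, hv, hvle⟩ := (Ideal.IsPrime.prod_le v₁.isPrime).mp hle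
      have heq : v.asIdeal = v₁.asIdeal :=
        (v.isMaximal).eq_of_le v₁.isPrime.ne_top hvle
      exact (Finset.ne_of_mem_erase hv) (HeightOneSpectrum.ext heq)
    obtain ⟨u, huI, hu1⟩ := SetLike.not_le_iff_exists.mp hnle
    refine ⟨u, hu1, fun v hv hne => ?_⟩
    have h1 : (∏ v ∈ h𝒮.toFinset.erase v₁, v.asIdeal) ≤ v.asIdeal :=
      Ideal.prod_le_inf.trans (Finset.inf_le (Finset.mem_erase.mpr ⟨hne, hv⟩))
    exact h1 huI
  obtain ⟨u, hu1, hu2⟩ := hu
  -- `u` is a unit at `A`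
  have hvalu : A.valuation (((u : K) : Qbar)) = 1 := by
    have h1 : ¬ A.valuation (((u : K) : Qbar)) < 1 := hu1
    exact le_antisymm (val_int_le_one A K u) (not_lt.mp h1)
  -- divisibility predicate
  let GV : ValuationSubring K → ℕ → Prop := fun V M =>
    ∃ w : K, w ∈ V ∧ (u : K) ^ M = (l : K) ^ N * w
  have hmono : ∀ (A' : ValuationSubring Qbar) (M M' : ℕ), M ≤ M' → GV (AK A' K) M →
      GV (AK A' K) M' := by
    rintro A' M M' hMM ⟨w, hw, hwe⟩
    obtain ⟨j, rfl⟩ := Nat.exists_eq_add_of_le hMM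
    refine ⟨w * (u : K) ^ j, (AK A' K).mul_mem _ _ hw (pow_mem ?_ j), ?_⟩
    · rw [mem_AK_iff]
      exact coe_int_mem A' K u
    · rw [pow_add, hwe, mul_assoc]
  -- each bad place has some `M`
  have hper : ∀ σ : GQ, primeOf (conjA A σ) K hl0 (conjA_liesOver hA σ) ≠ v₁ →
      ∃ M, GV (AK (conjA A σ) K) M := by
    intro σ hσ
    have hAσ := conjA_liesOver hA σ
    have huσ : (conjA A σ).valuation (((u : K) : Qbar)) < 1 :=
      hu2 _ (hmem𝒮 σ) hσ
    have hdvr : IsDiscreteValuationRing (AK (conjA A σ) K) :=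
      isDiscreteValuationRing_AK (conjA A σ) K hl0 hAσ
    have huV : (u : K) ∈ AK (conjA A σ) K := by
      rw [mem_AK_iff]
      exact coe_int_mem (conjA A σ) K u
    have humax : (⟨(u : K), huV⟩ : AK (conjA A σ) K) ∈
        IsLocalRing.maximalIdeal (AK (conjA A σ) K) := by
      rw [mem_maximalIdeal_iff, ValuationSubring.valuation_lt_one_iff]
      exact huσ
    have hlV : (l : K) ∈ AK (conjA A σ) K := natCast_mem _ l
    have hc : ((⟨(l : K), hlV⟩ : AK (conjA A σ) K)) ^ N ≠ 0 := by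
      apply pow_ne_zero
      intro h0
      have h1 : (l : K) = 0 := congrArg Subtype.val h0
      exact (Nat.cast_ne_zero.mpr hl0) h1
    obtain ⟨M, w, hw⟩ := exists_pow_eq_mul humax hc
    refine ⟨M, (w : K), w.2, ?_⟩
    have := congrArg Subtype.val hw
    simpa using this
  -- uniform `M`
  let m : ValuationSubring K → ℕ := fun V => if h : ∃ M, GV V M then h.choose else 0
  set 𝒱 : Finset (ValuationSubring K) := h𝒮.toFinset.image (valuationSubringAtPrime K) with h𝒱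
  set M₀ : ℕ := 𝒱.sup m with hM₀
  refine ⟨u ^ M₀, ?_, ?_⟩
  · have : (((u ^ M₀ : 𝓞 K) : K) : Qbar) = (((u : K) : Qbar)) ^ M₀ := by
      push_cast
      rfl
    rw [this, map_pow, hvalu, one_pow]
  · intro σ
    have hAσ := conjA_liesOver hA σ
    by_cases hσ : primeOf (conjA A σ) K hl0 hAσ = v₁
    · left
      rw [AK_eq (conjA A σ) K hl0 hAσ, AK_eq A K hl0 hA, hσ]
    · right
      have hex := hper σ hσ
      have hV𝒱 : AK (conjA A σ) K ∈ 𝒱 := by
        rw [h𝒱, Finset.mem_image]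
        exact ⟨_, hmem𝒮 σ, (AK_eq (conjA A σ) K hl0 hAσ).symm⟩
      have hmV : GV (AK (conjA A σ) K) (m (AK (conjA A σ) K)) := by
        show GV (AK (conjA A σ) K) (if h : ∃ M, GV (AK (conjA A σ) K) M then h.choose else 0)
        rw [dif_pos hex]
        exact hex.choose_spec
      have hle : m (AK (conjA A σ) K) ≤ M₀ := Finset.le_sup hV𝒱
      obtain ⟨w, hw, hwe⟩ := hmono (conjA A σ) _ _ hle hmV
      refine ⟨w, hw, ?_⟩
      rw [← hwe]
      push_cast
      rfl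

/-! ### Brick TD -/

/-- **Adapted trace-dual families from `UnramAt`.** -/
theorem adaptedTD_of_unramAt {l : ℕ} (hl : l.Prime) (K : IntermediateField ℚ Qbar)
    [FiniteDimensional ℚ K] (hnorm : ∀ (σ : GQ) (x : Qbar), x ∈ K → σ x ∈ K) (hunr : UnramAt l K)
    (A : ValuationSubring Qbar) (hA : A.LiesOverPrime l) :
    AdaptedTD (F := ℚ) (A.toSubring ⊓ K.toSubring) K.fixingSubgroup ((l : ℕ) : Qbar) := by
  intro N
  obtain ⟨n, θ, θ', hθK, hθint, h1, h0⟩ := hunr
  obtain ⟨e, hev, he⟩ := exists_approx hl K A hA N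
  set eQ : Qbar := ((e : K) : Qbar) with heQ
  have heK : eQ ∈ K := (e : K).2
  have he0 : eQ ≠ 0 := by
    intro h
    rw [h, map_zero] at hev
    exact zero_ne_one hev
  have heint : IntegralAt l eQ := fun A' _ => coe_int_mem A' K e
  have heinvA : eQ⁻¹ ∈ A := by
    rw [← A.valuation_le_one_iff, map_inv₀, hev, inv_one]
  have hefix : ∀ σ : GQ, σ ∈ K.fixingSubgroup → σ eQ = eQ := fun σ hσ =>
    (IntermediateField.mem_fixingSubgroup_iff K σ).mp hσ _ heK
  have hsum : ∀ σ : GQ, ∑ a, eQ⁻¹ * θ a * σ (eQ * θ' a) =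
      eQ⁻¹ * σ eQ * ∑ a, θ a * σ (θ' a) := by
    intro σ
    rw [Finset.mul_sum]
    refine Finset.sum_congr rfl fun a _ => ?_
    rw [map_mul]
    ring
  refine ⟨n, fun a => eQ⁻¹ * θ a, fun a => eQ * θ' a, ?_, ?_, ?_, ?_, ?_⟩
  · intro a
    rw [mem_inf_iff]
    exact ⟨A.mul_mem _ _ heinvA ((hθint a).1 A hA), K.mul_mem (K.inv_mem heK) (hθK a).1⟩
  · intro a σ
    rw [mem_inf_iff, map_mul]
    exact ⟨A.mul_mem _ _ (integralAt_map σ heint A hA) (integralAt_map σ (hθint a).2 A hA),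
      K.mul_mem (hnorm σ _ heK) (hnorm σ _ (hθK a).2)⟩
  · intro σ
    rcases he σ with h | ⟨w, hw, hwe⟩
    · left
      exact mem_stab_of_AK_eq hnorm σ h
    · right
      intro a
      refine ⟨σ (w : Qbar) * σ (θ' a), ?_, ?_⟩
      · rw [mem_inf_iff]
        exact ⟨A.mul_mem _ _ (mem_conjA.mp ((mem_AK_iff _ K w).mp hw))
            (integralAt_map σ (hθint a).2 A hA),
          K.mul_mem (hnorm σ _ w.2) (hnorm σ _ (hθK a).2)⟩
      · have h2 : eQ = (l : Qbar) ^ N * (w : Qbar) := by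
          rw [heQ, hwe]
          push_cast
          rfl
        rw [map_mul, h2, map_mul, map_pow, map_natCast]
        ring
  · intro σ hσ
    rw [hsum, h1 σ hσ, hefix σ hσ, inv_mul_cancel₀ he0, mul_one]
  · intro σ hσ
    rw [hsum, h0 σ hσ, mul_zero]

end Fermat.Agent.FFJ.Alg.TD92
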