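/-
FFJ / chapter ALG (helper78).  **Brick TD, local form**: adapted trace-dual families from a trace-dual
family which is integral at the ONE place `A` (`SpecLocal78.UnramAtPlace A K`), for `K` finite and
normal over `ℚ`.

Compared with helper92's `TD92.adaptedTD_of_unramAt`: the conjugates `σ(θ'_a)` need not lie in `A` when
`σ ∉ Stab(A ∩ K)`, but `ℓ^{N'}·σ(θ'_a)` does for a uniform `N'` (`exists_pow_mul_integralAt`), and the
approximation element `TD92.exists_approx` is taken for the exponent `N + N'`.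
-/
import Mathlib
import Fermat.Agent.FFJ.Alg.SpecLocal78
import Fermat.Agent.FFJ.Alg.TD92

set_option autoImplicit false

noncomputable section

namespace Fermat.Agent.FFJ.Alg.TDLocal78

open Fermat.Agent.FFJ.Alg.Spec78 Fermat.Agent.FFJ.Alg.SpecLocal78
open Fermat.Agent.TW.FF.FlatModel68 Fermat.Agent.FFJ.Alg.Defs78
open Fermat.Agent.FFJ.Alg.Unram92 Fermat.Agent.FFJ.Alg.TD92
open Fermat.Agent.RED.Interface4 (AK)
open Fermat.Agent.RED.DESC.NumberFieldDVR27
open NumberField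

theorem isGalois_Qbar' : IsGalois ℚ Qbar := by
  have : IsAlgClosure ℚ Qbar := by
    have : (DivisionRing.toRatAlgebra : Algebra ℚ (AlgebraicClosure ℚ))
        = AlgebraicClosure.instAlgebra ℚ := Subsingleton.elim _ _
    rw [this]
    infer_instance
  exact IsAlgClosure.isGalois ℚ Qbar

/-- a power of `ℓ` (independent of the place) makes any element of `ℚ̄` integral at `ℓ`. -/
theorem exists_pow_mul_integralAt {l : ℕ} (hl : l.Prime) (x : Qbar) :
    ∃ N : ℕ, ∀ N' : ℕ, N ≤ N' → IntegralAt l (((l : ℕ) : Qbar) ^ N' * x) := by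
  have hgal := isGalois_Qbar'
  have halg : IsAlgebraic ℤ x :=
    (IsFractionRing.isAlgebraic_iff ℤ ℚ Qbar).mpr (Algebra.IsAlgebraic.isAlgebraic (R := ℚ) x)
  obtain ⟨y, hy0, hy⟩ := halg.exists_integral_multiple
  obtain ⟨e, d, hd, hyd⟩ :=
    Nat.exists_eq_pow_mul_and_not_dvd (Int.natAbs_ne_zero.mpr hy0) l hl.ne_one
  have hd0 : ((d : ℕ) : Qbar) ≠ 0 := by
    intro h0
    have : d = 0 := by exact_mod_cast h0
    exact hd (this ▸ dvd_zero l)
  refine ⟨e, fun N' hN' A hA => ?_⟩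
  have hyA : (y : Qbar) * x ∈ A := by
    have := mem_of_isIntegral A hy
    rwa [zsmul_eq_mul] at this
  have hdinv : ((d : ℕ) : Qbar)⁻¹ ∈ A := integralAt_inv_natCast hl hd A hA
  have habs : ((y.natAbs : ℕ) : Qbar) * x ∈ A := by
    have hcast : ((y.natAbs : ℕ) : Qbar) = (((y.natAbs : ℕ) : ℤ) : Qbar) :=
      (Int.cast_natCast _).symm
    rcases Int.natAbs_eq y with h | h
    · rw [hcast, ← h]
      exact hyA
    · have h' : ((y.natAbs : ℕ) : ℤ) = -y := by omega
      rw [hcast, h', Int.cast_neg, neg_mul]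
      exact A.neg_mem _ hyA
  obtain ⟨k, rfl⟩ := Nat.exists_eq_add_of_le hN'
  have hkey : ((l : ℕ) : Qbar) ^ (e + k) * x =
      ((l : ℕ) : Qbar) ^ k * (((d : ℕ) : Qbar)⁻¹ * (((y.natAbs : ℕ) : Qbar) * x)) := by
    rw [hyd]
    push_cast
    field_simp
    ring
  rw [hkey]
  exact A.mul_mem _ _ (pow_mem (integralAt_natCast l l A hA) k) (A.mul_mem _ _ hdinv habs)

/-- **Adapted trace-dual families from unramifiedness at the one place `A`.** -/
theorem adaptedTD_of_unramAtPlace {l : ℕ} (hl : l.Prime) (K : IntermediateField ℚ Qbar)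
    [FiniteDimensional ℚ K] (hnorm : ∀ (σ : GQ) (x : Qbar), x ∈ K → σ x ∈ K)
    (A : ValuationSubring Qbar) (hA : A.LiesOverPrime l) (hunr : UnramAtPlace A K) :
    AdaptedTD (F := ℚ) (A.toSubring ⊓ K.toSubring) K.fixingSubgroup ((l : ℕ) : Qbar) := by
  intro N
  obtain ⟨n, θ, θ', hθK, hθA, h1, h0⟩ := hunr
  -- uniform exponent for the conjugates of the `θ'`
  have hN' := fun a => exists_pow_mul_integralAt hl (θ' a)
  choose N'a hN'a using hN'
  set N' : ℕ := ∑ a, N'a a with hN'def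
  have hint : ∀ a, IntegralAt l (((l : ℕ) : Qbar) ^ N' * θ' a) := fun a =>
    hN'a a N' (Finset.single_le_sum (fun _ _ => Nat.zero_le _) (Finset.mem_univ a))
  obtain ⟨e, hev, he⟩ := exists_approx hl K A hA (N + N')
  set eQ : Qbar := ((e : K) : Qbar) with heQ
  have heK : eQ ∈ K := (e : K).2
  have he0 : eQ ≠ 0 := by
    intro h
    rw [h, map_zero] at hev
    exact zero_ne_one hev
  have heint : IntegralAt l eQ := fun A' _ => coe_int_mem A' K e
  have heinvA : eQ⁻¹ ∈ A := by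
    rw [← A.valuation_le_one_iff, map_inv₀, hev, inv_one]
  have hefix : ∀ σ : GQ, σ ∈ K.fixingSubgroup → σ eQ = eQ := fun σ hσ =>
    (IntermediateField.mem_fixingSubgroup_iff K σ).mp hσ _ heK
  have hsum : ∀ σ : GQ, ∑ a, eQ⁻¹ * θ a * σ (eQ * θ' a) =
      eQ⁻¹ * σ eQ * ∑ a, θ a * σ (θ' a) := by
    intro σ
    rw [Finset.mul_sum]
    refine Finset.sum_congr rfl fun a _ => ?_
    rw [map_mul]
    ring
  -- the bad conjugates
  have hbad : ∀ (σ : GQ) (w : K), w ∈ AK (conjA A σ) K → (e : K) = (l : K) ^ (N + N') * w →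
      ∀ a, ∃ z ∈ A.toSubring ⊓ K.toSubring, σ (eQ * θ' a) = ((l : ℕ) : Qbar) ^ N * z := by
    intro σ w hw hwe a
    refine ⟨σ (w : Qbar) * σ (((l : ℕ) : Qbar) ^ N' * θ' a), ?_, ?_⟩
    · rw [mem_inf_iff]
      refine ⟨A.mul_mem _ _ (mem_conjA.mp ((mem_AK_iff _ K w).mp hw))
          (integralAt_map σ (hint a) A hA), K.mul_mem (hnorm σ _ w.2) (hnorm σ _ ?_)⟩
      exact K.mul_mem (pow_mem (natCast_mem K l) N') (hθK a).2
    · have h2 : eQ = ((l : ℕ) : Qbar) ^ (N + N') * (w : Qbar) := by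
        rw [heQ, hwe]
        push_cast
        rfl
      rw [map_mul, h2, map_mul, map_mul, map_pow, map_pow, map_natCast]
      ring
  refine ⟨n, fun a => eQ⁻¹ * θ a, fun a => eQ * θ' a, ?_, ?_, ?_, ?_, ?_⟩
  · intro a
    rw [mem_inf_iff]
    exact ⟨A.mul_mem _ _ heinvA (hθA a).1, K.mul_mem (K.inv_mem heK) (hθK a).1⟩
  · intro a σ
    rcases he σ with h | ⟨w, hw, hwe⟩
    · -- `σ` stabilises `A ∩ K`
      have hstab := mem_stab_of_AK_eq hnorm σ h
      have hmem : eQ * θ' a ∈ A.toSubring ⊓ K.toSubring := by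
        rw [mem_inf_iff]
        exact ⟨A.mul_mem _ _ (heint A hA) (hθA a).2, K.mul_mem heK (hθK a).2⟩
      exact ((mem_stab.mp hstab) _).mpr hmem
    · obtain ⟨z, hz, hzeq⟩ := hbad σ w hw hwe a
      rw [hzeq]
      have hlmem : ((l : ℕ) : Qbar) ^ N ∈ A.toSubring ⊓ K.toSubring := by
        rw [mem_inf_iff]
        exact ⟨pow_mem (integralAt_natCast l l A hA) N, pow_mem (natCast_mem K l) N⟩
      exact Subring.mul_mem _ hlmem hz
  · intro σ
    rcases he σ with h | ⟨w, hw, hwe⟩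
    · left
      exact mem_stab_of_AK_eq hnorm σ h
    · right
      exact hbad σ w hw hwe
  · intro σ hσ
    rw [hsum, h1 σ hσ, hefix σ hσ, inv_mul_cancel₀ he0, mul_one]
  · intro σ hσ
    rw [hsum, h0 σ hσ, mul_zero]

end Fermat.Agent.FFJ.Alg.TDLocal78
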