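/-
FFJ / chapter ALG (helper78).  **STAB: the compositum of the conjugates of a function order under the
stabiliser of its coefficient ring is a stable function order.**

`exists_stable_order` : for a function order `H` over `O` (for a normal subgroup `𝒩` of finite index)
there is a function order `H' ⊇ H` over `O` with `σ·H' ⊆ H'` for all `σ ∈ Stab(O)`.
(`H'` is the `O`-subalgebra generated by the conjugates `σ·H`, `σ ∈ Stab(O)`; there are finitely many
of them because `σ·H` only depends on the coset `σ𝒩`.)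
-/
import Mathlib
import Fermat.Agent.FFJ.Alg.Defs78
import Fermat.Agent.FFJ.Alg.Core78

set_option autoImplicit false

noncomputable section

namespace Fermat.Agent.FFJ.Alg.Stab78

open Fermat.Agent.S19.Shell64 Fermat.Agent.FFJ.Alg.Defs78

variable {F L T : Type} [Field F] [Field L] [Algebra F L] [AddCommGroup T]
  [DistribMulAction (L ≃ₐ[F] L) T]

/-! ### The comultiplication predicate -/

/-- `h (m + m') = ∑ a_i(m) b_i(m')` with `a_i, b_i` in the set `S` (any finite index type). -/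
def HasComulIn (S : Set (T → L)) (h : T → L) : Prop :=
  ∃ (ι : Type) (_ : Fintype ι) (a b : ι → T → L), (∀ i, a i ∈ S ∧ b i ∈ S) ∧
    ∀ m m' : T, h (m + m') = ∑ i, a i m * b i m'

theorem HasComulIn.mono {S S' : Set (T → L)} (hS : S ⊆ S') {h : T → L} (hh : HasComulIn S h) :
    HasComulIn S' h := by
  obtain ⟨ι, i1, a, b, hab, hsum⟩ := hh
  exact ⟨ι, i1, a, b, fun i => ⟨hS (hab i).1, hS (hab i).2⟩, hsum⟩

theorem hasComulIn_iff_fin {S : Set (T → L)} {h : T → L} :
    HasComulIn S h ↔ ∃ (n : ℕ) (a b : Fin n → T → L), (∀ i, a i ∈ S ∧ b i ∈ S) ∧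
      ∀ m m' : T, h (m + m') = ∑ i, a i m * b i m' := by
  constructor
  · rintro ⟨ι, i1, a, b, hab, hsum⟩
    let e := Fintype.equivFin ι
    refine ⟨Fintype.card ι, a ∘ e.symm, b ∘ e.symm, fun i => hab _, fun m m' => ?_⟩
    rw [hsum m m', ← Equiv.sum_comp e.symm]
    rfl
  · rintro ⟨n, a, b, hab, hsum⟩
    exact ⟨Fin n, inferInstance, a, b, hab, hsum⟩

theorem HasComulIn.const {S : Set (T → L)} (c : L) (hc : (fun _ : T => c) ∈ S)
    (h1 : (1 : T → L) ∈ S) : HasComulIn S (fun _ : T => c) :=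
  ⟨Unit, inferInstance, fun _ => fun _ => c, fun _ => 1, fun _ => ⟨hc, h1⟩, fun m m' => by simp⟩

theorem HasComulIn.add {S : Set (T → L)} {h h' : T → L} (hh : HasComulIn S h)
    (hh' : HasComulIn S h') : HasComulIn S (h + h') := by
  obtain ⟨ι, i1, a, b, hab, hsum⟩ := hh
  obtain ⟨ι', i2, a', b', hab', hsum'⟩ := hh'
  refine ⟨ι ⊕ ι', inferInstance, Sum.elim a a', Sum.elim b b', ?_, fun m m' => ?_⟩
  · rintro (i | i)
    · exact hab i
    · exact hab' i
  · rw [Pi.add_apply, hsum, hsum', Fintype.sum_sum_type]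
    rfl

theorem HasComulIn.mul {S : Set (T → L)} (hS : ∀ f g, f ∈ S → g ∈ S → f * g ∈ S) {h h' : T → L}
    (hh : HasComulIn S h) (hh' : HasComulIn S h') : HasComulIn S (h * h') := by
  obtain ⟨ι, i1, a, b, hab, hsum⟩ := hh
  obtain ⟨ι', i2, a', b', hab', hsum'⟩ := hh'
  refine ⟨ι × ι', inferInstance, fun p => a p.1 * a' p.2, fun p => b p.1 * b' p.2,
    fun p => ⟨hS _ _ (hab p.1).1 (hab' p.2).1, hS _ _ (hab p.1).2 (hab' p.2).2⟩, fun m m' => ?_⟩
  rw [Pi.mul_apply, hsum, hsum', Finset.sum_mul_sum, Fintype.sum_prod_type]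
  refine Finset.sum_congr rfl fun i _ => Finset.sum_congr rfl fun j _ => ?_
  simp only [Pi.mul_apply]
  ring

/-! ### Bundled orders -/

variable {O : Subring L} {𝒩 : Subgroup (L ≃ₐ[F] L)}

/-- function orders as `O`-subalgebras of `T → L`. -/
structure IsAlgOrder (𝒩 : Subgroup (L ≃ₐ[F] L)) (S : Subalgebra O (T → L)) : Prop where
  finite : Module.Finite O S
  equivariant : ∀ h ∈ S, IsEquivFor 𝒩 h
  separates : ∀ m m' : T, m ≠ m' → ∃ h ∈ S, h m ≠ h m'
  comul : ∀ h ∈ S, HasComulIn (S : Set (T → L)) h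

omit [AddCommGroup T] [DistribMulAction (L ≃ₐ[F] L) T] in
theorem algebraMap_eq_smul_one (c : O) : algebraMap O (T → L) c = (c : L) • (1 : T → L) := by
  funext m
  simp [Algebra.algebraMap_eq_smul_one, Subring.smul_def]

omit [AddCommGroup T] [DistribMulAction (L ≃ₐ[F] L) T] in
theorem subring_smul_eq (c : O) (h : T → L) : c • h = (c : L) • h := by
  funext m
  simp [Subring.smul_def]

/-- the subalgebra attached to an unbundled order. -/
def toAlg (H : Subring (T → L)) (hsm : ∀ c ∈ O, ∀ h ∈ H, c • h ∈ H) : Subalgebra O (T → L) :=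
  { H.toSubsemiring with
    algebraMap_mem' := fun c => by
      rw [algebraMap_eq_smul_one]
      exact hsm _ c.2 _ H.one_mem }

omit [AddCommGroup T] [DistribMulAction (L ≃ₐ[F] L) T] in
theorem mem_toAlg {H : Subring (T → L)} {hsm : ∀ c ∈ O, ∀ h ∈ H, c • h ∈ H} {h : T → L} :
    h ∈ toAlg H hsm ↔ h ∈ H := Iff.rfl

theorem isAlgOrder_toAlg {H : Subring (T → L)} (hH : IsSubOrder O 𝒩 H) :
    IsAlgOrder 𝒩 (toAlg H hH.smul_mem) := by
  refine ⟨?_, fun h hh => hH.equivariant h hh, hH.separates, fun h hh => ?_⟩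
  · obtain ⟨n, g, hgH, hgen⟩ := hH.fg
    refine Module.Finite.of_surjective
      (Fintype.linearCombination O (fun j : Fin n => (⟨g j, hgH j⟩ : toAlg H hH.smul_mem))) ?_
    rintro ⟨h, hh⟩
    obtain ⟨c, hc, hsum⟩ := hgen h hh
    refine ⟨fun j => ⟨c j, hc j⟩, ?_⟩
    apply Subtype.ext
    rw [Fintype.linearCombination_apply]
    simp only [AddSubmonoidClass.coe_finsetSum, SetLike.val_smul]
    rw [hsum]
    exact Finset.sum_congr rfl fun j _ => subring_smul_eq _ _
  · exact hasComulIn_iff_fin.mpr (hH.comul h hh)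

theorem IsAlgOrder.toSub {S : Subalgebra O (T → L)} (hS : IsAlgOrder 𝒩 S) :
    IsSubOrder O 𝒩 S.toSubring := by
  refine ⟨fun c hc h hh => ?_, ?_, fun h hh => hS.equivariant h hh, hS.separates,
    fun h hh => hasComulIn_iff_fin.mp (hS.comul h hh)⟩
  · have := S.smul_mem hh (⟨c, hc⟩ : O)
    rwa [subring_smul_eq] at this
  · have := hS.finite
    obtain ⟨n, g, hg⟩ := Module.Finite.exists_fin (R := O) (M := S)
    refine ⟨n, fun j => (g j : T → L), fun j => (g j).2, fun h hh => ?_⟩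
    have h1 : (⟨h, hh⟩ : S) ∈ Submodule.span O (Set.range g) := by
      rw [hg]
      exact Submodule.mem_top
    obtain ⟨c, hc⟩ := (Submodule.mem_span_range_iff_exists_fun O).mp h1
    refine ⟨fun j => (c j : L), fun j => (c j).2, ?_⟩
    have h2 := congrArg (fun z : S => (z : T → L)) hc
    simp only [AddSubmonoidClass.coe_finsetSum, SetLike.val_smul] at h2
    rw [← h2]
    exact Finset.sum_congr rfl fun j _ => subring_smul_eq _ _

/-! ### Suprema of orders -/

/-- the `O`-subalgebra of `𝒩`-equivariant functions (when `O` is fixed by `𝒩`). -/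
def equivAlg (O : Subring L) (𝒩 : Subgroup (L ≃ₐ[F] L)) (hO : ∀ c ∈ O, ∀ σ ∈ 𝒩, σ c = c) :
    Subalgebra O (T → L) where
  carrier := {h | IsEquivFor 𝒩 h}
  mul_mem' := by
    intro f g hf hg σ hσ m
    simp only [Pi.mul_apply, map_mul, hf σ hσ m, hg σ hσ m]
  one_mem' := by
    intro σ _ m
    simp
  add_mem' := by
    intro f g hf hg σ hσ m
    simp only [Pi.add_apply, map_add, hf σ hσ m, hg σ hσ m]
  zero_mem' := by
    intro σ _ m
    simp
  algebraMap_mem' := by
    intro c σ hσ m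
    rw [algebraMap_eq_smul_one]
    simp [hO c c.2 σ hσ]

/-- the `O`-subalgebra of functions having a comultiplication in `S`. -/
def comulAlg (S : Subalgebra O (T → L)) : Subalgebra O (T → L) where
  carrier := {h | HasComulIn (S : Set (T → L)) h}
  mul_mem' := fun hf hg => HasComulIn.mul (fun _ _ h1 h2 => S.mul_mem h1 h2) hf hg
  one_mem' := HasComulIn.const 1 S.one_mem S.one_mem
  add_mem' := fun hf hg => HasComulIn.add hf hg
  zero_mem' := HasComulIn.const 0 S.zero_mem S.one_mem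
  algebraMap_mem' := by
    intro c
    have h1 : algebraMap O (T → L) c = fun _ : T => (c : L) := by
      rw [algebraMap_eq_smul_one]
      funext m
      simp
    have h2 : (fun _ : T => (c : L)) ∈ S := by
      rw [← h1]
      exact S.algebraMap_mem c
    show HasComulIn (S : Set (T → L)) (algebraMap O (T → L) c)
    rw [h1]
    exact HasComulIn.const _ h2 S.one_mem

theorem IsAlgOrder.fixed {S : Subalgebra O (T → L)} (hS : IsAlgOrder 𝒩 S) :
    ∀ c ∈ O, ∀ σ ∈ 𝒩, σ c = c := fun _ hc _ hσ => hS.toSub.fixed hc hσ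

/-- **the compositum of two orders is an order.** -/
theorem IsAlgOrder.sup {S₁ S₂ : Subalgebra O (T → L)} (h₁ : IsAlgOrder 𝒩 S₁)
    (h₂ : IsAlgOrder 𝒩 S₂) : IsAlgOrder 𝒩 (S₁ ⊔ S₂) := by
  have := h₁.finite
  have := h₂.finite
  refine ⟨Subalgebra.finite_sup S₁ S₂, ?_, ?_, ?_⟩
  · have hle : S₁ ⊔ S₂ ≤ equivAlg O 𝒩 h₁.fixed :=
      sup_le (fun h hh => h₁.equivariant h hh) (fun h hh => h₂.equivariant h hh)
    exact fun h hh => hle hh
  · intro m m' hmm
    obtain ⟨h, hh, hne⟩ := h₁.separates m m' hmm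
    exact ⟨h, (le_sup_left : S₁ ≤ S₁ ⊔ S₂) hh, hne⟩
  · have hle : S₁ ⊔ S₂ ≤ comulAlg (S₁ ⊔ S₂) :=
      sup_le (fun h hh => (h₁.comul h hh).mono (le_sup_left : S₁ ≤ S₁ ⊔ S₂))
        (fun h hh => (h₂.comul h hh).mono (le_sup_right : S₂ ≤ S₁ ⊔ S₂))
    exact fun h hh => hle hh

/-- a finite nonempty supremum of orders is an order. -/
theorem isAlgOrder_finset_sup {J : Type*} (s : Finset J) (S : J → Subalgebra O (T → L))
    (hne : s.Nonempty) (hS : ∀ j ∈ s, IsAlgOrder 𝒩 (S j)) : IsAlgOrder 𝒩 (s.sup S) := by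
  classical
  induction s using Finset.induction_on with
  | empty => exact absurd hne Finset.not_nonempty_empty
  | insert a t hat ih =>
    rw [Finset.sup_insert]
    by_cases ht : t.Nonempty
    · exact (hS a (Finset.mem_insert_self a t)).sup
        (ih ht fun j hj => hS j (Finset.mem_insert_of_mem hj))
    · rw [Finset.not_nonempty_iff_eq_empty] at ht
      rw [ht, Finset.sup_empty, sup_bot_eq]
      exact hS a (Finset.mem_insert_self a t)

/-! ### Conjugates of orders -/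

theorem conjFun_one' (σ : L ≃ₐ[F] L) : conjFun σ (1 : T → L) = 1 := by
  funext m
  simp

theorem conjFun_zero' (σ : L ≃ₐ[F] L) : conjFun σ (0 : T → L) = 0 := by
  funext m
  simp

omit [AddCommGroup T] [DistribMulAction (L ≃ₐ[F] L) T] in
theorem apply_inv_apply (σ : L ≃ₐ[F] L) (c : L) : σ (σ⁻¹ c) = c := by
  simp

/-- the conjugate of an `O`-subalgebra by an element of the stabiliser of `O`. -/
def conjAlg (σ : L ≃ₐ[F] L) (hσ : σ ∈ stab (F := F) O) (S : Subalgebra O (T → L)) :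
    Subalgebra O (T → L) where
  carrier := {h | ∃ h₀ ∈ S, conjFun σ h₀ = h}
  mul_mem' := by
    rintro _ _ ⟨f, hf, rfl⟩ ⟨g, hg, rfl⟩
    exact ⟨f * g, S.mul_mem hf hg, conjFun_mul' σ f g⟩
  one_mem' := ⟨1, S.one_mem, conjFun_one' σ⟩
  add_mem' := by
    rintro _ _ ⟨f, hf, rfl⟩ ⟨g, hg, rfl⟩
    exact ⟨f + g, S.add_mem hf hg, conjFun_add σ f g⟩
  zero_mem' := ⟨0, S.zero_mem, conjFun_zero' σ⟩
  algebraMap_mem' := by
    intro c
    have hc : σ⁻¹ (c : L) ∈ O := by
      rw [← (mem_stab.mp hσ) (σ⁻¹ (c : L)), apply_inv_apply]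
      exact c.2
    refine ⟨algebraMap O (T → L) ⟨σ⁻¹ (c : L), hc⟩, S.algebraMap_mem _, ?_⟩
    rw [algebraMap_eq_smul_one, algebraMap_eq_smul_one, conjFun_smul, conjFun_one',
      apply_inv_apply]

theorem mem_conjAlg {σ : L ≃ₐ[F] L} {hσ : σ ∈ stab (F := F) O} {S : Subalgebra O (T → L)}
    {h : T → L} : h ∈ conjAlg σ hσ S ↔ ∃ h₀ ∈ S, conjFun σ h₀ = h := Iff.rfl

theorem conjFun_mem_conjAlg {σ : L ≃ₐ[F] L} {hσ : σ ∈ stab (F := F) O}
    {S : Subalgebra O (T → L)} {h : T → L} (hh : h ∈ S) : conjFun σ h ∈ conjAlg σ hσ S :=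
  ⟨h, hh, rfl⟩

/-- **conjugates of orders (by the stabiliser of `O`) are orders.** -/
theorem IsAlgOrder.conj [𝒩.Normal] {S : Subalgebra O (T → L)} (hS : IsAlgOrder 𝒩 S)
    (σ : L ≃ₐ[F] L) (hσ : σ ∈ stab (F := F) O) : IsAlgOrder 𝒩 (conjAlg σ hσ S) := by
  have hsub := hS.toSub
  refine (?_ : IsSubOrder O 𝒩 (conjAlg σ hσ S).toSubring) |> fun h =>
    ⟨?_, fun f hf => h.equivariant f hf, h.separates, fun f hf =>
      hasComulIn_iff_fin.mpr (h.comul f hf)⟩
  · refine ⟨?_, ?_, ?_, ?_, ?_⟩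
    · rintro c hc _ ⟨h₀, hh₀, rfl⟩
      have hc' : σ⁻¹ c ∈ O := by
        rw [← (mem_stab.mp hσ) (σ⁻¹ c), apply_inv_apply]
        exact hc
      refine ⟨σ⁻¹ c • h₀, hsub.smul_mem _ hc' _ hh₀, ?_⟩
      show conjFun σ (σ⁻¹ c • h₀) = c • conjFun σ h₀
      rw [conjFun_smul, apply_inv_apply]
    · obtain ⟨n, g, hgH, hgen⟩ := hsub.fg
      refine ⟨n, fun j => conjFun σ (g j), fun j => ⟨g j, hgH j, rfl⟩, ?_⟩
      rintro _ ⟨h₀, hh₀, rfl⟩
      obtain ⟨c, hc, hsum⟩ := hgen h₀ hh₀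
      refine ⟨fun j => σ (c j), fun j => (mem_stab.mp hσ _).mpr (hc j), ?_⟩
      show conjFun σ h₀ = _
      rw [hsum, conjFun_sum]
      exact Finset.sum_congr rfl fun j _ => conjFun_smul σ _ _
    · rintro _ ⟨h₀, hh₀, rfl⟩
      exact (hsub.equivariant h₀ hh₀).conjFun σ
    · intro m m' hmm
      have hne : σ⁻¹ • m ≠ σ⁻¹ • m' := fun h => hmm (smul_left_cancel _ h)
      obtain ⟨h₀, hh₀, hne'⟩ := hsub.separates _ _ hne
      refine ⟨conjFun σ h₀, ⟨h₀, hh₀, rfl⟩, ?_⟩
      simp only [conjFun_apply]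
      exact fun h => hne' (σ.injective h)
    · rintro _ ⟨h₀, hh₀, rfl⟩
      obtain ⟨n, a, b, hab, hsum⟩ := hsub.comul h₀ hh₀
      refine ⟨n, fun i => conjFun σ (a i), fun i => conjFun σ (b i),
        fun i => ⟨⟨a i, (hab i).1, rfl⟩, ⟨b i, (hab i).2, rfl⟩⟩, fun m m' => ?_⟩
      show conjFun σ h₀ (m + m') = _
      simp only [conjFun_apply, smul_add, hsum, map_sum, map_mul]
  · have := h.fg
    obtain ⟨n, g, hgH, hgen⟩ := this
    refine Module.Finite.of_surjective
      (Fintype.linearCombination O (fun j : Fin n => (⟨g j, hgH j⟩ : conjAlg σ hσ S))) ?_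
    rintro ⟨f, hf⟩
    obtain ⟨c, hc, hsum⟩ := hgen f hf
    refine ⟨fun j => ⟨c j, hc j⟩, ?_⟩
    apply Subtype.ext
    rw [Fintype.linearCombination_apply]
    simp only [AddSubmonoidClass.coe_finsetSum, SetLike.val_smul]
    rw [hsum]
    exact Finset.sum_congr rfl fun j _ => subring_smul_eq _ _

/-! ### The stable compositum -/

/-- the pull-back of an `O`-subalgebra under conjugation by an element of the stabiliser. -/
def pullAlg (τ : L ≃ₐ[F] L) (hτ : τ ∈ stab (F := F) O) (S : Subalgebra O (T → L)) :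
    Subalgebra O (T → L) where
  carrier := {h | conjFun τ h ∈ S}
  mul_mem' := by
    intro f g hf hg
    show conjFun τ (f * g) ∈ S
    rw [conjFun_mul']
    exact S.mul_mem hf hg
  one_mem' := by
    show conjFun τ 1 ∈ S
    rw [conjFun_one']
    exact S.one_mem
  add_mem' := by
    intro f g hf hg
    show conjFun τ (f + g) ∈ S
    rw [conjFun_add]
    exact S.add_mem hf hg
  zero_mem' := by
    show conjFun τ 0 ∈ S
    rw [conjFun_zero']
    exact S.zero_mem
  algebraMap_mem' := by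
    intro c
    show conjFun τ (algebraMap O (T → L) c) ∈ S
    have hc : τ (c : L) ∈ O := (mem_stab.mp hτ _).mpr c.2
    have h1 : conjFun τ (algebraMap O (T → L) c) = algebraMap O (T → L) ⟨τ (c : L), hc⟩ := by
      rw [algebraMap_eq_smul_one, algebraMap_eq_smul_one, conjFun_smul, conjFun_one']
    rw [h1]
    exact S.algebraMap_mem _

/-- **STAB**: every function order is contained in a stable one. -/
theorem exists_stable_order [𝒩.Normal] [𝒩.FiniteIndex] {H : Subring (T → L)}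
    (hH : IsSubOrder O 𝒩 H) :
    ∃ H' : Subring (T → L), H ≤ H' ∧ IsSubOrder O 𝒩 H' ∧
      ∀ σ ∈ stab (F := F) O, ∀ h ∈ H', conjFun σ h ∈ H' := by
  classical
  cases nonempty_fintype ((L ≃ₐ[F] L) ⧸ 𝒩)
  set S := toAlg H hH.smul_mem with hSdef
  have hS : IsAlgOrder 𝒩 S := isAlgOrder_toAlg hH
  have h𝒩 : 𝒩 ≤ stab (F := F) O := hH.le_stab
  let Q := (L ≃ₐ[F] L) ⧸ 𝒩
  let J : Finset Q := Finset.univ.filter fun q => q.out ∈ stab (F := F) O
  let Sfam : Q → Subalgebra O (T → L) := fun q =>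
    if hq : q.out ∈ stab (F := F) O then conjAlg q.out hq S else S
  have hSfam : ∀ q (hq : q.out ∈ stab (F := F) O), Sfam q = conjAlg q.out hq S := by
    intro q hq
    simp only [Sfam, dif_pos hq]
  let q₀ : Q := ((1 : L ≃ₐ[F] L) : Q)
  have hq₀ : q₀.out ∈ 𝒩 := by
    have h2 : ((1 : L ≃ₐ[F] L) : Q) = ((q₀.out : L ≃ₐ[F] L) : Q) := by
      rw [QuotientGroup.out_eq']
    simpa using QuotientGroup.eq.mp h2
  have hq₀J : q₀ ∈ J := Finset.mem_filter.mpr ⟨Finset.mem_univ _, h𝒩 hq₀⟩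
  set S' := J.sup Sfam with hS'def
  have hS' : IsAlgOrder 𝒩 S' := by
    refine isAlgOrder_finset_sup J Sfam ⟨q₀, hq₀J⟩ fun q hq => ?_
    have hq' := (Finset.mem_filter.mp hq).2
    rw [hSfam q hq']
    exact hS.conj _ hq'
  have hle : ∀ q ∈ J, Sfam q ≤ S' := fun q hq => Finset.le_sup (f := Sfam) hq
  refine ⟨S'.toSubring, ?_, hS'.toSub, ?_⟩
  · intro h hh
    have h1 : h ∈ Sfam q₀ := by
      rw [hSfam q₀ (h𝒩 hq₀)]
      exact ⟨h, hh, conjFun_eq_self (hH.equivariant h hh) hq₀⟩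
    exact hle q₀ hq₀J h1
  · intro τ hτ h hh
    have hkey : S' ≤ pullAlg τ hτ S' := by
      refine Finset.sup_le fun q hq => ?_
      have hq' := (Finset.mem_filter.mp hq).2
      rw [hSfam q hq']
      rintro _ ⟨h₀, hh₀, rfl⟩
      show conjFun τ (conjFun q.out h₀) ∈ S'
      rw [← conjFun_mul, ← Core78.conjFun_out_smul (hH.equivariant h₀ hh₀)]
      have hmem : (τ • q).out ∈ stab (F := F) O := by
        have h1 : ((τ * q.out : L ≃ₐ[F] L) : Q) = (((τ • q).out : L ≃ₐ[F] L) : Q) := by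
          rw [QuotientGroup.out_eq']
          conv_rhs => rw [← QuotientGroup.out_eq' q]
          rfl
        have h2 : (τ * q.out)⁻¹ * (τ • q).out ∈ 𝒩 := QuotientGroup.eq.mp h1
        have h3 : (τ • q).out = (τ * q.out) * ((τ * q.out)⁻¹ * (τ • q).out) := by group
        rw [h3]
        exact (stab O).mul_mem ((stab O).mul_mem hτ hq') (h𝒩 h2)
      have hJ : τ • q ∈ J := Finset.mem_filter.mpr ⟨Finset.mem_univ _, hmem⟩
      refine hle _ hJ ?_
      rw [hSfam _ hmem]
      exact ⟨h₀, hh₀, rfl⟩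
    exact hkey hh

end Fermat.Agent.FFJ.Alg.Stab78
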