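/-
FFJ / chapter ALG (helper78).  **WIRE: from `GeoInput` to `FlatModel`.**

`algStatement_of_td` : the number-field brick `TDStatement` (adapted trace-dual families for
`(A ∩ K, G_K, ℓ)`, `K` normal, finite and unramified above `ℓ`) implies `Spec78.AlgStatement`.
The proof unbundles the geometric order (`isSubOrder_of_isFunOrder`), makes it stable (`Stab78`),
descends it to `ℤ_(ℓ)` (`Core78`) and applies the shell theorem (`IsFunOrder.exists_model`).
-/
import Mathlib
import Fermat.Agent.FFJ.Alg.Spec78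
import Fermat.Agent.FFJ.Alg.Defs78
import Fermat.Agent.FFJ.Alg.Core78
import Fermat.Agent.FFJ.Alg.Stab78
import Fermat.Agent.FFJ.Alg.Unram92
import Fermat.Agent.IG.VAL.Zl13
import Fermat.Agent.TW.FF.Closure68
import Fermat.Agent.RED.DESC.NumberFieldDVR27

set_option autoImplicit false

noncomputable section

namespace Fermat.Agent.FFJ.Alg.Wire78

open Fermat.Agent.S19.Shell64 Fermat.Agent.TW.FF.FunOrder68 Fermat.Agent.TW.FF.FlatModel68
open Fermat.Agent.FFJ.Alg.Spec78 Fermat.Agent.FFJ.Alg.Defs78 Fermat.Agent.FFJ.Alg.Unram92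

/-- **The number-field brick** (chapter TD): adapted trace-dual families exist. -/
def TDStatement : Prop :=
  ∀ (l : ℕ) (_ : l.Prime) (K : IntermediateField ℚ Qbar) (_ : FiniteDimensional ℚ K)
    (_ : ∀ (σ : GQ) (x : Qbar), x ∈ K → σ x ∈ K) (_ : UnramAt l K)
    (A : ValuationSubring Qbar) (_ : A.LiesOverPrime l),
    AdaptedTD (F := ℚ) (A.toSubring ⊓ K.toSubring) K.fixingSubgroup ((l : ℕ) : Qbar)

/-! ### Facts about `ℚ̄` -/

theorem isGalois_Qbar78 : IsGalois ℚ Qbar := by
  have : IsAlgClosure ℚ Qbar := by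
    have : (DivisionRing.toRatAlgebra : Algebra ℚ (AlgebraicClosure ℚ))
        = AlgebraicClosure.instAlgebra ℚ := Subsingleton.elim _ _
    rw [this]
    infer_instance
  exact IsAlgClosure.isGalois ℚ Qbar

theorem normal_fixingSubgroup (K : IntermediateField ℚ Qbar)
    (hnorm : ∀ (σ : GQ) (x : Qbar), x ∈ K → σ x ∈ K) : (K.fixingSubgroup).Normal := by
  refine ⟨fun ν hν σ => ?_⟩
  rw [IntermediateField.mem_fixingSubgroup_iff] at hν ⊢
  intro x hx
  have h1 : σ⁻¹ x ∈ K := hnorm σ⁻¹ x hx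
  have h2 := hν _ h1
  show σ (ν (σ⁻¹ x)) = x
  rw [h2]
  exact Stab78.apply_inv_apply σ x

theorem finiteIndex_fixingSubgroup (K : IntermediateField ℚ Qbar) [FiniteDimensional ℚ K] :
    (K.fixingSubgroup).FiniteIndex := by
  have := isGalois_Qbar78
  have : Finite (GQ ⧸ K.fixingSubgroup) :=
    Subgroup.quotient_finite_of_isOpen _ K.fixingSubgroup_isOpen
  exact Subgroup.finiteIndex_of_finite_quotient

theorem mem_of_fixed (K : IntermediateField ℚ Qbar) {x : Qbar}
    (hx : ∀ σ ∈ K.fixingSubgroup, σ x = x) : x ∈ K := by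
  have := isGalois_Qbar78
  rw [← InfiniteGalois.fixedField_fixingSubgroup K, IntermediateField.mem_fixedField_iff]
  exact hx

/-- integers of `ℚ̄` lie in every valuation subring. -/
theorem mem_of_isIntegral_int (A : ValuationSubring Qbar) {x : Qbar} (hx : IsIntegral ℤ x) :
    x ∈ A := Fermat.Agent.RED.DESC.NumberFieldDVR27.mem_of_isIntegral A hx

/-- a high power of `ℓ` clears the denominator of any element of `ℚ̄`. -/
theorem exists_pow_mul_mem {l : ℕ} (hl : l.Prime) (A : ValuationSubring Qbar)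
    (hA : A.LiesOverPrime l) (x : Qbar) : ∃ N : ℕ, ((l : ℕ) : Qbar) ^ N * x ∈ A := by
  have hgal := isGalois_Qbar78
  have halg : IsAlgebraic ℤ x :=
    (IsFractionRing.isAlgebraic_iff ℤ ℚ Qbar).mpr (Algebra.IsAlgebraic.isAlgebraic (R := ℚ) x)
  obtain ⟨y, hy0, hy⟩ := halg.exists_integral_multiple
  have hyA : (y : Qbar) * x ∈ A := by
    have := mem_of_isIntegral_int A hy
    rwa [zsmul_eq_mul] at this
  obtain ⟨e, d, hd, hyd⟩ :=
    Nat.exists_eq_pow_mul_and_not_dvd (Int.natAbs_ne_zero.mpr hy0) l hl.ne_one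
  have hdinv : ((d : ℕ) : Qbar)⁻¹ ∈ A := integralAt_inv_natCast hl hd A hA
  have hd0 : ((d : ℕ) : Qbar) ≠ 0 := by
    intro h0
    have : d = 0 := by exact_mod_cast h0
    exact hd (this ▸ dvd_zero l)
  refine ⟨e, ?_⟩
  have habs : ((y.natAbs : ℕ) : Qbar) * x ∈ A := by
    have hcast : ((y.natAbs : ℕ) : Qbar) = (((y.natAbs : ℕ) : ℤ) : Qbar) :=
      (Int.cast_natCast _).symm
    rcases Int.natAbs_eq y with h | h
    · rw [hcast, ← h]
      exact hyA
    · have h' : ((y.natAbs : ℕ) : ℤ) = -y := by omega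
      rw [hcast, h', Int.cast_neg, neg_mul]
      exact A.neg_mem _ hyA
  have hkey : ((l : ℕ) : Qbar) ^ e * x = ((d : ℕ) : Qbar)⁻¹ * (((y.natAbs : ℕ) : Qbar) * x) := by
    rw [hyd]
    push_cast
    field_simp
  rw [hkey]
  exact A.mul_mem _ _ hdinv habs

theorem algebraMap_zloc_mem {l : ℕ} [Fact l.Prime] (A : ValuationSubring Qbar)
    (hA : A.LiesOverPrime l) (r : Zloc l) : algebraMap (Zloc l) Qbar r ∈ A := by
  have hl : l.Prime := Fact.out
  have h1 : algebraMap (Zloc l) Qbar r = algebraMap ℚ Qbar (r : ℚ) := rfl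
  have hcop : (r : ℚ).den.Coprime l := (Fermat.Agent.IG.VAL.Zl13.mem_iff l).mp r.2
  have hnd : ¬ l ∣ (r : ℚ).den := fun h => by
    have := Nat.Coprime.eq_one_of_dvd hcop.symm h
    exact hl.ne_one this
  have h2 : algebraMap ℚ Qbar (r : ℚ) = (((r : ℚ).num : ℤ) : Qbar) * (((r : ℚ).den : ℕ) : Qbar)⁻¹ := by
    conv_lhs => rw [← Rat.num_div_den (r : ℚ)]
    rw [map_div₀, map_intCast, map_natCast, div_eq_mul_inv]
  rw [h1, h2]
  exact A.mul_mem _ _ (integralAt_intCast l _ A hA) (integralAt_inv_natCast hl hnd A hA)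

theorem exists_zloc_of_mem {l : ℕ} [Fact l.Prime] (A : ValuationSubring Qbar)
    (hA : A.LiesOverPrime l) (x : ℚ) (hx : algebraMap ℚ Qbar x ∈ A) :
    ∃ r : Zloc l, algebraMap (Zloc l) Qbar r = algebraMap ℚ Qbar x := by
  have hl : l.Prime := Fact.out
  suffices hcop : x.den.Coprime l from
    ⟨⟨x, (Fermat.Agent.IG.VAL.Zl13.mem_iff l).mpr hcop⟩, rfl⟩
  by_contra hcon
  have hdvd : l ∣ x.den := by
    by_contra h
    exact hcon ((Nat.Prime.coprime_iff_not_dvd hl).mpr h).symm
  obtain ⟨d, hd⟩ := hdvd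
  -- the numerator is a non-unit
  have hnum : ((x.num : ℤ) : Qbar) = algebraMap ℚ Qbar x * ((l : ℕ) : Qbar) * ((d : ℕ) : Qbar) := by
    have h1 : (x.num : ℚ) = x * x.den := (Rat.mul_den_eq_num x).symm
    have h2 := congrArg (algebraMap ℚ Qbar) h1
    rw [map_intCast, map_mul, map_natCast, hd] at h2
    rw [h2]
    push_cast
    ring
  have hv : A.valuation ((x.num : ℤ) : Qbar) < 1 := by
    rw [hnum, map_mul, map_mul]
    have h1 : A.valuation (algebraMap ℚ Qbar x) ≤ 1 := (A.valuation_le_one_iff _).mpr hx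
    have h2 : A.valuation (((l : ℕ) : Qbar)) < 1 := (A.mem_nonunits_iff).mp hA
    have h3 : A.valuation (((d : ℕ) : Qbar)) ≤ 1 :=
      (A.valuation_le_one_iff _).mpr (integralAt_natCast l d A hA)
    calc A.valuation (algebraMap ℚ Qbar x) * A.valuation ((l : ℕ) : Qbar) *
          A.valuation ((d : ℕ) : Qbar)
        ≤ 1 * A.valuation ((l : ℕ) : Qbar) * 1 := by gcongr
      _ < 1 := by rw [one_mul, mul_one]; exact h2
  -- but it is prime to `l`
  have hnl : ¬ (l : ℤ) ∣ x.num := by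
    intro h
    have h1 : l ∣ x.num.natAbs := Int.natCast_dvd.mp h
    have h2 : l ∣ x.den := ⟨d, hd⟩
    have h3 := Nat.dvd_gcd h1 h2
    rw [x.reduced] at h3
    exact hl.one_lt.ne' (Nat.dvd_one.mp h3)
  have hcop : IsCoprime (x.num) (l : ℤ) :=
    (Int.isCoprime_iff_gcd_eq_one.mpr (by
      rw [Int.gcd_comm]
      exact (Nat.Prime.coprime_iff_not_dvd hl).mpr (fun h => hnl (Int.natCast_dvd.mpr h))))
  obtain ⟨a, b, hab⟩ := hcop
  have h1 : (1 : Qbar) = (a : Qbar) * ((x.num : ℤ) : Qbar) + (b : Qbar) * ((l : ℕ) : Qbar) := by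
    have := congrArg (fun z : ℤ => (z : Qbar)) hab
    push_cast at this
    rw [← this]
  have hv1 : A.valuation (1 : Qbar) < 1 := by
    rw [h1]
    refine lt_of_le_of_lt (A.valuation.map_add _ _) (max_lt ?_ ?_)
    · rw [map_mul]
      have := (A.valuation_le_one_iff _).mpr (integralAt_intCast l a A hA)
      calc A.valuation (a : Qbar) * A.valuation ((x.num : ℤ) : Qbar)
          ≤ 1 * A.valuation ((x.num : ℤ) : Qbar) := by gcongr
        _ < 1 := by rw [one_mul]; exact hv
    · rw [map_mul]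
      have := (A.valuation_le_one_iff _).mpr (integralAt_intCast l b A hA)
      have h2 : A.valuation (((l : ℕ) : Qbar)) < 1 := (A.mem_nonunits_iff).mp hA
      calc A.valuation (b : Qbar) * A.valuation ((l : ℕ) : Qbar)
          ≤ 1 * A.valuation ((l : ℕ) : Qbar) := by gcongr
        _ < 1 := by rw [one_mul]; exact h2
  rw [map_one] at hv1
  exact lt_irrefl _ hv1

/-! ### Unbundling the geometric order -/

section Unbundle

variable (K : IntermediateField ℚ Qbar) (A : ValuationSubring Qbar) {M : Type} [AddCommGroup M]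
  [DistribMulAction GQ M]

/-- the geometric order, unbundled inside `Fun(M, ℚ̄)`. -/
theorem isSubOrder_of_isFunOrder (H : Subalgebra (A.comap (algebraMap K Qbar)) (M → Qbar))
    (hH : @IsFunOrder (A.comap (algebraMap K Qbar)) K Qbar M _ _ _ _ _ _ (resMulAction K M) H) :
    IsSubOrder (F := ℚ) (A.toSubring ⊓ K.toSubring) K.fixingSubgroup H.toSubring := by
  let _ := resMulAction K M
  refine ⟨?_, ?_, ?_, hH.separates, ?_⟩
  · rintro c ⟨hcA, hcK⟩ h hh
    have hc' : (⟨c, hcK⟩ : K) ∈ A.comap (algebraMap K Qbar) := ValuationSubring.mem_comap.mpr hcA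
    exact H.smul_mem hh (⟨⟨c, hcK⟩, hc'⟩ : A.comap (algebraMap K Qbar))
  · have := hH.finite
    obtain ⟨n, g, hg⟩ := Module.Finite.exists_fin (R := A.comap (algebraMap K Qbar)) (M := H)
    refine ⟨n, fun j => (g j : M → Qbar), fun j => (g j).2, fun h hh => ?_⟩
    have h1 : (⟨h, hh⟩ : H) ∈ Submodule.span (A.comap (algebraMap K Qbar)) (Set.range g) := by
      rw [hg]
      exact Submodule.mem_top
    obtain ⟨c, hc⟩ := (Submodule.mem_span_range_iff_exists_fun _).mp h1
    refine ⟨fun j => (((c j : A.comap (algebraMap K Qbar)) : K) : Qbar), fun j => ⟨?_, ?_⟩, ?_⟩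
    · exact ValuationSubring.mem_comap.mp (c j).2
    · exact ((c j : A.comap (algebraMap K Qbar)) : K).2
    · have h2 := congrArg (fun z : H => (z : M → Qbar)) hc
      simp only [AddSubmonoidClass.coe_finsetSum, SetLike.val_smul] at h2
      rw [← h2]
      rfl
  · intro h hh σ hσ m
    have h1 := hH.equivariant h hh (IntermediateField.fixingSubgroupEquiv K ⟨σ, hσ⟩) m
    exact h1
  · intro h hh
    obtain ⟨n, a, b, hab⟩ := hH.comul h hh
    exact ⟨n, fun i => (a i : M → Qbar), fun i => (b i : M → Qbar),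
      fun i => ⟨(a i).2, (b i).2⟩, hab⟩

end Unbundle

/-! ### The theorem of chapter ALG, modulo the number-field brick -/

/-- **`TDStatement → AlgStatement`.** -/
theorem algStatement_of_td (hTD : TDStatement) : AlgStatement := by
  intro l _ M _ _ hgeo
  obtain ⟨K, hfd, hnorm, hunr, A, hA, H, hH⟩ := hgeo
  have hl : l.Prime := Fact.out
  have hgal := isGalois_Qbar78
  have hfix : FixedFieldEqBase ℚ Qbar := fixedFieldEqBase_of_isGalois
  have hpid : IsPrincipalIdealRing (A.comap (algebraMap K Qbar)) :=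
    Fermat.Agent.RED.DESC.NumberFieldDVR27.isPrincipalIdealRing_AK A K hl.ne_zero hA
  have hMfin : Finite M :=
    @Fermat.Agent.TW.FF.Closure68.IsFunOrder.finite_carrier (A.comap (algebraMap K Qbar)) K Qbar
      _ _ _ _ _ _ _ _ _ _ M _ (resMulAction K M) H hH
  have hnormal := normal_fixingSubgroup K hnorm
  have hfi := finiteIndex_fixingSubgroup K
  have hsub := isSubOrder_of_isFunOrder K A H hH
  obtain ⟨H', -, hH', hstab⟩ := Stab78.exists_stable_order hsub
  have hRO : ∀ r : Zloc l, algebraMap (Zloc l) Qbar r ∈ A.toSubring ⊓ K.toSubring := by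
    intro r
    refine ⟨algebraMap_zloc_mem A hA r, ?_⟩
    have h1 : algebraMap (Zloc l) Qbar r = algebraMap ℚ Qbar (r : ℚ) := rfl
    rw [h1]
    exact K.algebraMap_mem _
  have hOR : ∀ x : ℚ, algebraMap ℚ Qbar x ∈ A.toSubring ⊓ K.toSubring →
      ∃ r : Zloc l, algebraMap (Zloc l) Qbar r = algebraMap ℚ Qbar x :=
    fun x hx => exists_zloc_of_mem A hA x hx.1
  have hϖeq : algebraMap (Zloc l) Qbar ((l : ℕ) : Zloc l) = ((l : ℕ) : Qbar) := map_natCast _ _
  have hscale : ∀ x : Qbar, (∀ σ ∈ K.fixingSubgroup, σ x = x) →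
      ∃ N : ℕ, algebraMap (Zloc l) Qbar ((l : ℕ) : Zloc l) ^ N * x ∈ A.toSubring ⊓ K.toSubring := by
    intro x hx
    have hxK : x ∈ K := mem_of_fixed K hx
    obtain ⟨N, hN⟩ := exists_pow_mul_mem hl A hA x
    refine ⟨N, ?_, ?_⟩
    · rw [hϖeq]
      exact hN
    · rw [hϖeq]
      exact K.mul_mem (pow_mem (natCast_mem K l) N) hxK
  have hTD' : AdaptedTD (F := ℚ) (A.toSubring ⊓ K.toSubring) K.fixingSubgroup
      (algebraMap (Zloc l) Qbar ((l : ℕ) : Zloc l)) := by
    rw [hϖeq]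
    exact hTD l hl K hfd hnorm hunr A hA
  have hϖ0 : ((l : ℕ) : Zloc l) ≠ 0 := Fermat.Agent.IG.VAL.Zl13.ell_ne_zero l
  have hord := Core78.isFunOrder_descentAlg (R := Zloc l) hfix hH' hstab hRO hOR hscale hTD' hϖ0
  exact hord.exists_model hfix

end Fermat.Agent.FFJ.Alg.Wire78
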