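/-
FFJ / chapter ALG (helper78).  **The key decomposition for a number field `K` which is NOT assumed
normal over `ℚ`.**

`K ⊂ ℚ̄` finite over `ℚ`, unramified at the one place `A` (`SpecLocal78.UnramAtPlace A K`: a trace-dual
family `θ, θ'` of `K/ℚ` inside `A ∩ K`), `N ⊇ K` normal over `ℚ` (its normal closure: it may be
ramified at `A`), `O_N = A ∩ N`.  Let `H` be a function order over `A ∩ K` for `G_K` and `H' ⊇ H` a
function order over `O_N` for `G_N` which is stable under `Stab(O_N)`.  Then every conjugate `σ·h`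
(`σ ∈ Stab(O_N)`, `h ∈ H`) is an `O_N`-combination of `G_ℚ`-equivariant members of `H'`
(`conj_decomp`):

  `h = ∑_a (e⁻¹θ_a) · Tr_{K/ℚ}(e θ'_a h)`,   `Tr_{K/ℚ}(f) = ∑_{τ ∈ G_ℚ/G_K} τ·f`,

where `e` is the approximation element of `TD92.exists_approx` (a unit of `A`, divisible by a high
power of `ℓ` at the conjugate places `τ⁻¹A ∩ K ≠ A ∩ K`).  The summand `τ(e θ'_a)·(τ·h)` lies in `H'`:
if `τ⁻¹A ∩ K = A ∩ K` then `τ ∈ Stab(A)·G_K` (conjugacy of valuation rings over `K`,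
`ValConj75.exists_algEquiv_forall_mem_iff`), so `τ·h = δ·h ∈ H'`; otherwise `τ(e)` absorbs the
denominators of `τ(θ'_a)` and of `τ·h`.
-/
import Mathlib
import Fermat.Agent.FFJ.Alg.TDLocal78
import Fermat.Agent.FFJ.Alg.Wire78
import Fermat.Agent.FFJ.Order.ValConj75

set_option autoImplicit false

noncomputable section

namespace Fermat.Agent.FFJ.Alg.KeyNN78

open Fermat.Agent.S19.Shell64
open Fermat.Agent.FFJ.Alg.Spec78 Fermat.Agent.FFJ.Alg.SpecLocal78
open Fermat.Agent.TW.FF.FlatModel68 Fermat.Agent.FFJ.Alg.Defs78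
open Fermat.Agent.FFJ.Alg.Unram92 Fermat.Agent.FFJ.Alg.TD92 Fermat.Agent.FFJ.Alg.TDLocal78
open Fermat.Agent.FFJ.Alg.Wire78
open Fermat.Agent.RED.Interface4 (AK)
open Fermat.Agent.RED.DESC.NumberFieldDVR27
open NumberField

/-- **conjugacy**: if `τ⁻¹A ∩ K = A ∩ K` then `τ ∈ Stab(A)·G_K`. -/
theorem exists_stab_mul_of_AK_eq (K : IntermediateField ℚ Qbar) (A : ValuationSubring Qbar) (τ : GQ)
    (h : AK (conjA A τ) K = AK A K) :
    ∃ δ ∈ stab (F := ℚ) A.toSubring, ∃ ν ∈ K.fixingSubgroup, τ = δ * ν := by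
  have hgal := isGalois_Qbar78
  have : IsGalois K Qbar := IsGalois.tower_top_of_isGalois ℚ K Qbar
  have hiff : ∀ a : K, algebraMap K Qbar a ∈ conjA A τ ↔ algebraMap K Qbar a ∈ A := by
    intro a
    have h1 : a ∈ AK (conjA A τ) K ↔ a ∈ AK A K := by rw [h]
    rw [mem_AK_iff, mem_AK_iff] at h1
    exact h1
  obtain ⟨σ', hσ'⟩ := Fermat.Agent.FFJ.Order.ValConj75.exists_algEquiv_forall_mem_iff
    (F := K) (Ω := Qbar) (conjA A τ) A hiff
  let ν : GQ := σ'.restrictScalars ℚ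
  have hν : ν ∈ K.fixingSubgroup := by
    rw [IntermediateField.mem_fixingSubgroup_iff]
    intro x hx
    exact σ'.commutes ⟨x, hx⟩
  refine ⟨τ * ν⁻¹, ?_, ν, hν, by group⟩
  rw [mem_stab]
  intro x
  have h1 : (τ * ν⁻¹) x = τ (ν⁻¹ x) := rfl
  have h2 : σ' (ν⁻¹ x) = x := by
    show ν (ν⁻¹ x) = x
    exact Stab78.apply_inv_apply ν x
  rw [h1]
  show τ (ν⁻¹ x) ∈ A ↔ x ∈ A
  rw [← mem_conjA, ← hσ' (ν⁻¹ x), h2]

/-- the stabiliser of `A` stabilises `A ∩ N` for `N` normal. -/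
theorem stab_le_stab_inf (N : IntermediateField ℚ Qbar)
    (hnormN : ∀ (σ : GQ) (x : Qbar), x ∈ N → σ x ∈ N) (A : ValuationSubring Qbar) {δ : GQ}
    (hδ : δ ∈ stab (F := ℚ) A.toSubring) :
    δ ∈ stab (F := ℚ) (A.toSubring ⊓ N.toSubring) := by
  rw [mem_stab] at hδ ⊢
  intro x
  constructor
  · rintro ⟨h1, h2⟩
    refine ⟨(hδ x).mp h1, ?_⟩
    have := hnormN δ⁻¹ (δ x) h2
    rwa [show δ⁻¹ (δ x) = x from δ.symm_apply_apply x] at this
  · rintro ⟨h1, h2⟩
    exact ⟨(hδ x).mpr h1, hnormN δ x h2⟩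

/-- **The key decomposition of the conjugates of `H`.** -/
theorem conj_decomp {l : ℕ} (hl : l.Prime) (K N : IntermediateField ℚ Qbar)
    [FiniteDimensional ℚ K] (hKN : K ≤ N) (hnormN : ∀ (σ : GQ) (x : Qbar), x ∈ N → σ x ∈ N)
    (A : ValuationSubring Qbar) (hA : A.LiesOverPrime l) (hunr : UnramAtPlace A K)
    {M : Type} [AddCommGroup M] [DistribMulAction GQ M] [Finite M]
    {H H' : Subring (M → Qbar)}
    (hH : IsSubOrder (F := ℚ) (A.toSubring ⊓ K.toSubring) K.fixingSubgroup H)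
    (hH' : IsSubOrder (F := ℚ) (A.toSubring ⊓ N.toSubring) N.fixingSubgroup H')
    (hHH' : H ≤ H')
    (hstab : ∀ σ ∈ stab (F := ℚ) (A.toSubring ⊓ N.toSubring), ∀ h ∈ H', conjFun σ h ∈ H')
    {σ : GQ} (hσ : σ ∈ stab (F := ℚ) (A.toSubring ⊓ N.toSubring)) {h : M → Qbar} (hh : h ∈ H) :
    ∃ (n : ℕ) (x : Fin n → Qbar) (u : Fin n → M → Qbar),
      (∀ a, x a ∈ A.toSubring ⊓ N.toSubring) ∧
      (∀ a, u a ∈ H' ∧ IsEquivariantFun ℚ (u a)) ∧ conjFun σ h = ∑ a, x a • u a := by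
  classical
  have hgal := isGalois_Qbar78
  have hfiK := finiteIndex_fixingSubgroup K
  cases nonempty_fintype (GQ ⧸ K.fixingSubgroup)
  have hnormalN := normal_fixingSubgroup N hnormN
  obtain ⟨n, θ, θ', hθK, hθA, h1, h0⟩ := hunr
  have hlN : ((l : ℕ) : Qbar) ∈ A.toSubring ⊓ N.toSubring :=
    ⟨integralAt_natCast l l A hA, natCast_mem N l⟩
  have hscale : ∀ x : Qbar, (∀ σ ∈ N.fixingSubgroup, σ x = x) →
      ∃ k : ℕ, ((l : ℕ) : Qbar) ^ k * x ∈ A.toSubring ⊓ N.toSubring := by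
    intro x hx
    have hxN : x ∈ N := mem_of_fixed N hx
    obtain ⟨k, hk⟩ := exists_pow_mul_mem hl A hA x
    exact ⟨k, hk, N.mul_mem (pow_mem (natCast_mem N l) k) hxN⟩
  have hhK : IsEquivFor K.fixingSubgroup h := hH.equivariant h hh
  have hGNK : N.fixingSubgroup ≤ K.fixingSubgroup := IntermediateField.fixingSubgroup_le hKN
  have hhN : IsEquivFor N.fixingSubgroup h := hhK.mono hGNK
  -- the exponents
  have hN2 := fun q : GQ ⧸ K.fixingSubgroup =>
    Core78.exists_pow_smul_mem hH' hlN hscale (hhN.conjFun q.out)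
  choose N2 hN2 using hN2
  have hN1 := fun a => exists_pow_mul_integralAt hl (θ' a)
  choose N1a hN1a using hN1
  set N1 : ℕ := ∑ a, N1a a with hN1def
  have hint : ∀ a, IntegralAt l (((l : ℕ) : Qbar) ^ N1 * θ' a) := fun a =>
    hN1a a N1 (Finset.single_le_sum (fun _ _ => Nat.zero_le _) (Finset.mem_univ a))
  set N2s : ℕ := ∑ q, N2 q with hN2def
  obtain ⟨e, hev, he⟩ := exists_approx hl K A hA (N1 + N2s)
  set eQ : Qbar := ((e : K) : Qbar) with heQ
  have heK : eQ ∈ K := (e : K).2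
  have he0 : eQ ≠ 0 := by
    intro h
    rw [h, map_zero] at hev
    exact zero_ne_one hev
  have heA : eQ ∈ A := coe_int_mem A K e
  have heinvA : eQ⁻¹ ∈ A := by
    rw [← A.valuation_le_one_iff, map_inv₀, hev, inv_one]
  have hefix : ∀ τ : GQ, τ ∈ K.fixingSubgroup → τ eQ = eQ := fun τ hτ =>
    (IntermediateField.mem_fixingSubgroup_iff K τ).mp hτ _ heK
  have hsum : ∀ τ : GQ, ∑ a, eQ⁻¹ * θ a * τ (eQ * θ' a) =
      eQ⁻¹ * τ eQ * ∑ a, θ a * τ (θ' a) := by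
    intro τ
    rw [Finset.mul_sum]
    refine Finset.sum_congr rfl fun a _ => ?_
    rw [map_mul]
    ring
  have hxA : ∀ a, eQ⁻¹ * θ a ∈ A := fun a => A.mul_mem _ _ heinvA (hθA a).1
  have hxK : ∀ a, eQ⁻¹ * θ a ∈ K := fun a => K.mul_mem (K.inv_mem heK) (hθK a).1
  have hyA : ∀ a, eQ * θ' a ∈ A := fun a => A.mul_mem _ _ heA (hθA a).2
  have hyK : ∀ a, eQ * θ' a ∈ K := fun a => K.mul_mem heK (hθK a).2
  have hdec : h = ∑ a, (eQ⁻¹ * θ a) • Core78.trFun K.fixingSubgroup ((eQ * θ' a) • h) :=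
    Core78.eq_sum_smul_trFun (fun a => eQ⁻¹ * θ a) (fun a => eQ * θ' a)
      (fun τ hτ => by rw [hsum, h1 τ hτ, hefix τ hτ, inv_mul_cancel₀ he0, mul_one])
      (fun τ hτ => by rw [hsum, h0 τ hτ, mul_zero]) hhK
  have hyh : ∀ a, IsEquivFor K.fixingSubgroup ((eQ * θ' a) • h) := fun a =>
    hhK.smul fun τ hτ => (IntermediateField.mem_fixingSubgroup_iff K τ).mp hτ _ (hyK a)
  have hueq : ∀ a, IsEquivariantFun ℚ (Core78.trFun K.fixingSubgroup ((eQ * θ' a) • h)) :=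
    fun a => Core78.trFun_equivariant (hyh a)
  refine ⟨n, fun a => σ (eQ⁻¹ * θ a),
    fun a => Core78.trFun K.fixingSubgroup ((eQ * θ' a) • h), ?_, ?_, ?_⟩
  · intro a
    exact ((mem_stab.mp hσ) _).mpr ⟨hxA a, hKN (hxK a)⟩
  · intro a
    refine ⟨?_, hueq a⟩
    unfold Core78.trFun
    refine H'.sum_mem fun q _ => ?_
    rw [conjFun_smul]
    rcases he q.out with hq | ⟨w, hw, hwe⟩
    · -- `q.out ∈ Stab(A)·G_K`
      obtain ⟨δ, hδ, ν, hν, hqeq⟩ := exists_stab_mul_of_AK_eq K A q.out hq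
      have hδN := stab_le_stab_inf N hnormN A hδ
      have e1 : q.out (eQ * θ' a) = δ (eQ * θ' a) := by
        rw [hqeq, AlgEquiv.mul_apply,
          (IntermediateField.mem_fixingSubgroup_iff K ν).mp hν _ (hyK a)]
      have e2 : conjFun q.out h = conjFun δ h := by
        rw [hqeq, conjFun_mul_of_mem hhK δ hν]
      rw [e1, e2]
      exact hH'.smul_mem _ (((mem_stab.mp hδN) _).mpr ⟨hyA a, hKN (hyK a)⟩) _
        (hstab δ hδN h (hHH' hh))
    · -- the bad conjugates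
      have h2 : eQ = ((l : ℕ) : Qbar) ^ (N1 + N2s) * (w : Qbar) := by
        rw [heQ, hwe]
        push_cast
        rfl
      have e1 : q.out (eQ * θ' a) • conjFun q.out h =
          (q.out (w : Qbar) * q.out (((l : ℕ) : Qbar) ^ N1 * θ' a)) •
            (((l : ℕ) : Qbar) ^ N2s • conjFun q.out h) := by
        rw [smul_smul]
        congr 1
        rw [h2]
        simp only [map_mul, map_pow, map_natCast]
        ring
      rw [e1]
      refine hH'.smul_mem _ ⟨?_, ?_⟩ _ (hN2 q N2s ?_)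
      · exact A.mul_mem _ _ (mem_conjA.mp ((mem_AK_iff _ K w).mp hw))
          (integralAt_map q.out (hint a) A hA)
      · refine N.mul_mem (hnormN _ _ (hKN w.2)) (hnormN _ _ ?_)
        exact N.mul_mem (pow_mem (natCast_mem N l) N1) (hKN (hθK a).2)
      · exact Finset.single_le_sum (fun _ _ => Nat.zero_le _) (Finset.mem_univ q)
  · conv_lhs => rw [hdec]
    rw [conjFun_sum]
    refine Finset.sum_congr rfl fun a _ => ?_
    rw [conjFun_smul, conjFun_eq_self (isEquivFor_top.mpr (hueq a)) (Subgroup.mem_top σ)]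

end Fermat.Agent.FFJ.Alg.KeyNN78
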