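/-
FFJ / chapter ALG, brick UNRAM, second producer (helper92).  **Finite free algebras with unit
discriminant are unramified.**

`R → E` finite free with basis `b` and `IsUnit (Algebra.discr R b)`; `j : R →+* ℚ̄` with image in `K`
and integral at `ℓ`; `ε : E →+* ℚ̄` over `j`.  If `K` is unramified above `ℓ` then so is
`K(ε(E))` (`unramAt_of_isUnit_discr`).

Proof: let `d_j := ∑_i (M⁻¹)_{ij} b_i` (`M` the trace matrix) be the trace-dual family; then
`e = ∑ b_i ⊗ d_i` is the separability idempotent of `E/R`.  Without tensor products: for ring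
homomorphisms `φ ψ : E → Ω` agreeing on `R`, the element `c := ∑_i φ(b_i) ψ(d_i)` satisfies
`φ(x) c = ψ(x) c` for all `x` (`mul_pairing`) and `c = 1` if `φ = ψ` (`sum_mul_dual`).
-/
import Mathlib
import Fermat.Agent.FFJ.Alg.Unram92

set_option autoImplicit false

noncomputable section

namespace Fermat.Agent.FFJ.Alg.UnramEtale92

open Fermat.Agent.FFJ.Alg.Spec78 Fermat.Agent.TW.FF.FlatModel68 Fermat.Agent.FFJ.Alg.Unram92
open Polynomial

section Dual

variable {R E : Type*} [CommRing R] [CommRing E] [Algebra R E]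
  {ι : Type*} [Fintype ι] [DecidableEq ι] (b : Module.Basis ι R E)

/-- The trace-dual family of a basis with unit discriminant. -/
def dual (j : ι) : E := ∑ i, (Algebra.traceMatrix R b)⁻¹ i j • b i

theorem trace_mul_dual (hdisc : IsUnit (Algebra.discr R b)) (k j : ι) :
    Algebra.trace R E (b k * dual b j) = if k = j then 1 else 0 := by
  have hM : Algebra.traceMatrix R b * (Algebra.traceMatrix R b)⁻¹ = 1 :=
    Matrix.mul_nonsing_inv _ hdisc
  have h1 : Algebra.trace R E (b k * dual b j) =
      (Algebra.traceMatrix R b * (Algebra.traceMatrix R b)⁻¹) k j := by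
    rw [dual, Finset.mul_sum, map_sum, Matrix.mul_apply]
    refine Finset.sum_congr rfl fun i _ => ?_
    rw [mul_smul_comm, map_smul, smul_eq_mul, Algebra.traceMatrix_apply, Algebra.traceForm_apply,
      mul_comm]
  rw [h1, hM, Matrix.one_apply]

theorem trace_dual_mul (hdisc : IsUnit (Algebra.discr R b)) (k j : ι) :
    Algebra.trace R E (dual b j * b k) = if k = j then 1 else 0 := by
  rw [mul_comm, trace_mul_dual b hdisc]

/-- Nondegeneracy of the trace form. -/
theorem eq_zero_of_trace_mul_eq_zero (hdisc : IsUnit (Algebra.discr R b)) (y : E)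
    (h : ∀ k, Algebra.trace R E (y * b k) = 0) : y = 0 := by
  have hM : Algebra.traceMatrix R b * (Algebra.traceMatrix R b)⁻¹ = 1 :=
    Matrix.mul_nonsing_inv _ hdisc
  have h1 : Matrix.vecMul (fun i => b.repr y i) (Algebra.traceMatrix R b) = 0 := by
    ext k
    rw [Pi.zero_apply, ← h k]
    conv_rhs => rw [← b.sum_repr y]
    rw [Finset.sum_mul, map_sum]
    simp only [Matrix.vecMul, dotProduct]
    refine Finset.sum_congr rfl fun i _ => ?_
    rw [smul_mul_assoc, map_smul, smul_eq_mul, Algebra.traceMatrix_apply, Algebra.traceForm_apply]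
  have h2 : (fun i => b.repr y i) = 0 := by
    have := congrArg (fun v => Matrix.vecMul v (Algebra.traceMatrix R b)⁻¹) h1
    simp only [Matrix.vecMul_vecMul, hM, Matrix.vecMul_one, Matrix.zero_vecMul] at this
    exact this
  rw [← b.sum_repr y]
  refine Finset.sum_eq_zero fun i _ => ?_
  rw [show b.repr y i = 0 from congrFun h2 i, zero_smul]

/-- Expansion in the trace-dual family. -/
theorem eq_sum_trace_smul_dual (hdisc : IsUnit (Algebra.discr R b)) (y : E) :
    y = ∑ j, Algebra.trace R E (y * b j) • dual b j := by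
  rw [← sub_eq_zero]
  refine eq_zero_of_trace_mul_eq_zero b hdisc _ fun k => ?_
  rw [sub_mul, map_sub, Finset.sum_mul, map_sum, sub_eq_zero]
  rw [Finset.sum_eq_single k]
  · rw [smul_mul_assoc, map_smul, trace_dual_mul b hdisc, if_pos rfl, smul_eq_mul, mul_one]
  · intro j _ hjk
    rw [smul_mul_assoc, map_smul, trace_dual_mul b hdisc, if_neg (Ne.symm hjk), smul_zero]
  · intro hk
    exact absurd (Finset.mem_univ k) hk

theorem mul_basis (x : E) (i : ι) :
    x * b i = ∑ m, Algebra.leftMulMatrix b x m i • b m := by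
  conv_lhs => rw [← b.sum_repr (x * b i)]
  refine Finset.sum_congr rfl fun m _ => ?_
  rw [Algebra.leftMulMatrix_eq_repr_mul]

theorem mul_dual (hdisc : IsUnit (Algebra.discr R b)) (x : E) (k : ι) :
    x * dual b k = ∑ i, Algebra.leftMulMatrix b x k i • dual b i := by
  conv_lhs => rw [eq_sum_trace_smul_dual b hdisc (x * dual b k)]
  refine Finset.sum_congr rfl fun i _ => ?_
  congr 1
  rw [mul_assoc, mul_comm (dual b k), ← mul_assoc, mul_basis b x i, Finset.sum_mul, map_sum]
  rw [Finset.sum_eq_single k]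
  · rw [smul_mul_assoc, map_smul, trace_mul_dual b hdisc, if_pos rfl, smul_eq_mul, mul_one]
  · intro m _ hmk
    rw [smul_mul_assoc, map_smul, trace_mul_dual b hdisc, if_neg hmk, smul_zero]
  · intro hk
    exact absurd (Finset.mem_univ k) hk

/-- `μ(e) = 1` for the separability idempotent `e = ∑ b_i ⊗ d_i`. -/
theorem sum_mul_dual (hdisc : IsUnit (Algebra.discr R b)) : ∑ i, b i * dual b i = 1 := by
  rw [← sub_eq_zero]
  refine eq_zero_of_trace_mul_eq_zero b hdisc _ fun k => ?_
  rw [sub_mul, one_mul, map_sub, sub_eq_zero, Finset.sum_mul, map_sum,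
    Algebra.trace_eq_matrix_trace b (b k), Matrix.trace]
  refine Finset.sum_congr rfl fun i _ => ?_
  rw [Matrix.diag_apply, mul_assoc, mul_comm (dual b i), mul_dual b hdisc (b k) i, Finset.mul_sum,
    map_sum]
  rw [Finset.sum_eq_single i]
  · rw [mul_smul_comm, map_smul, trace_mul_dual b hdisc, if_pos rfl, smul_eq_mul, mul_one]
  · intro m _ hmi
    rw [mul_smul_comm, map_smul, trace_mul_dual b hdisc, if_neg (Ne.symm hmi), smul_zero]
  · intro hi
    exact absurd (Finset.mem_univ i) hi

/-- `(x ⊗ 1) e = (1 ⊗ x) e`, evaluated at a pair of ring homomorphisms agreeing on `R`. -/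
theorem mul_pairing (hdisc : IsUnit (Algebra.discr R b)) {Ω : Type*} [CommRing Ω]
    (φ ψ : E →+* Ω) (hφψ : ∀ r, φ (algebraMap R E r) = ψ (algebraMap R E r)) (x : E) :
    φ x * ∑ i, φ (b i) * ψ (dual b i) = ψ x * ∑ i, φ (b i) * ψ (dual b i) := by
  have hL : φ x * ∑ i, φ (b i) * ψ (dual b i) =
      ∑ i, ∑ m, φ (algebraMap R E (Algebra.leftMulMatrix b x m i)) * (φ (b m) * ψ (dual b i)) := by
    rw [Finset.mul_sum]
    refine Finset.sum_congr rfl fun i _ => ?_
    rw [← mul_assoc, ← map_mul, mul_basis b x i, map_sum, Finset.sum_mul]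
    refine Finset.sum_congr rfl fun m _ => ?_
    rw [Algebra.smul_def, map_mul, mul_assoc]
  have hR : ψ x * ∑ m, φ (b m) * ψ (dual b m) =
      ∑ m, ∑ i, φ (algebraMap R E (Algebra.leftMulMatrix b x m i)) * (φ (b m) * ψ (dual b i)) := by
    rw [Finset.mul_sum]
    refine Finset.sum_congr rfl fun m _ => ?_
    rw [mul_left_comm, ← map_mul, mul_dual b hdisc x m, map_sum, Finset.mul_sum]
    refine Finset.sum_congr rfl fun i _ => ?_
    rw [Algebra.smul_def, map_mul, ← hφψ]
    ring
  rw [hL, hR, Finset.sum_comm]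

end Dual

/-! ### The producer -/

theorem mem_fixingSubgroup_adjoin_range_iff {E : Type*} (ε : E → Qbar) (σ : GQ) :
    σ ∈ (IntermediateField.adjoin ℚ (Set.range ε)).fixingSubgroup ↔ ∀ x, σ (ε x) = ε x := by
  rw [IntermediateField.mem_fixingSubgroup_iff]
  constructor
  · intro h x
    exact h _ (IntermediateField.subset_adjoin ℚ _ ⟨x, rfl⟩)
  · intro h y hy
    have hle : IntermediateField.adjoin ℚ (Set.range ε) ≤ fixedBy σ := by
      rw [IntermediateField.adjoin_le_iff]
      rintro _ ⟨x, rfl⟩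
      exact h x
    exact hle hy

/-- **Finite free with unit discriminant ⟹ unramified.** -/
theorem unramAt_of_isUnit_discr {l : ℕ} {K : IntermediateField ℚ Qbar} (hK : UnramAt l K)
    {R E : Type*} [CommRing R] [CommRing E] [Algebra R E] {ι : Type*} [Fintype ι] [DecidableEq ι]
    (b : Module.Basis ι R E) (hdisc : IsUnit (Algebra.discr R b))
    (j : R →+* Qbar) (hjK : ∀ r, j r ∈ K) (hjint : ∀ r, IntegralAt l (j r))
    (ε : E →+* Qbar) (hε : ∀ r, ε (algebraMap R E r) = j r) :
    UnramAt l (K ⊔ IntermediateField.adjoin ℚ (Set.range ε)) := by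
  obtain ⟨n, θ, θ', hθK, hint, h1, h0⟩ := hK
  set L : IntermediateField ℚ Qbar := K ⊔ IntermediateField.adjoin ℚ (Set.range ε) with hL
  have hKL : K ≤ L := le_sup_left
  have hεL : ∀ x, ε x ∈ L := fun x =>
    (le_sup_right : IntermediateField.adjoin ℚ (Set.range ε) ≤ L)
      (IntermediateField.subset_adjoin ℚ _ ⟨x, rfl⟩)
  -- `ε(E)` is integral at `ℓ`
  have hfin : Module.Finite R E := Module.Finite.of_basis b
  have hεint : ∀ x, IntegralAt l (ε x) := by
    intro x
    obtain ⟨p, hp, hpx⟩ := IsIntegral.of_finite R x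
    refine integralAt_of_root (f := p.map j) (hp.map j) (fun i => ?_) ?_
    · rw [Polynomial.coeff_map]
      exact hjint _
    · have h2 := congrArg ε hpx
      rw [Polynomial.hom_eval₂, map_zero] at h2
      rw [Polynomial.eval_map]
      have hcomp : ε.comp (algebraMap R E) = j := RingHom.ext hε
      rw [hcomp] at h2
      exact h2
  -- the sum splits
  have hsum : ∀ σ : GQ, ∑ c : ι × Fin n,
      (ε (b c.1) * θ c.2) * σ (ε (dual b c.1) * θ' c.2) =
      (∑ i, ε (b i) * σ (ε (dual b i))) * ∑ a, θ a * σ (θ' a) := by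
    intro σ
    rw [Finset.sum_mul_sum, Fintype.sum_prod_type]
    refine Finset.sum_congr rfl fun i _ => Finset.sum_congr rfl fun a _ => ?_
    rw [map_mul]
    ring
  refine unramAt_of_fintype (ι := ι × Fin n) (fun c => ε (b c.1) * θ c.2)
    (fun c => ε (dual b c.1) * θ' c.2) ?_ ?_ ?_ ?_
  · intro c
    exact ⟨mul_mem (hεL _) (hKL (hθK c.2).1), mul_mem (hεL _) (hKL (hθK c.2).2)⟩
  · intro c
    exact ⟨integralAt_mul (hεint _) (hint c.2).1, integralAt_mul (hεint _) (hint c.2).2⟩
  · intro σ hσ
    rw [hL, IntermediateField.fixingSubgroup_sup, Subgroup.mem_inf,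
      mem_fixingSubgroup_adjoin_range_iff] at hσ
    rw [hsum, h1 σ hσ.1, mul_one]
    have h3 : ∑ i, ε (b i) * σ (ε (dual b i)) = ε (∑ i, b i * dual b i) := by
      rw [map_sum]
      refine Finset.sum_congr rfl fun i _ => ?_
      rw [map_mul, hσ.2]
    rw [h3, sum_mul_dual b hdisc, map_one]
  · intro σ hσ
    rw [hL, IntermediateField.fixingSubgroup_sup, Subgroup.mem_inf,
      mem_fixingSubgroup_adjoin_range_iff, not_and_or] at hσ
    rw [hsum]
    by_cases hσK : σ ∈ K.fixingSubgroup
    · have hne : ¬ ∀ x, σ (ε x) = ε x := hσ.resolve_left (not_not.mpr hσK)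
      obtain ⟨x, hx⟩ := not_forall.mp hne
      rw [IntermediateField.mem_fixingSubgroup_iff] at hσK
      have hpair := mul_pairing b hdisc ε (((σ : Qbar ≃+* Qbar) : Qbar →+* Qbar).comp ε)
        (fun r => by
          rw [RingHom.comp_apply, hε]
          exact (hσK _ (hjK r)).symm) x
      have h4 : (ε x - σ (ε x)) * ∑ i, ε (b i) * σ (ε (dual b i)) = 0 := by
        rw [sub_mul, sub_eq_zero]
        exact hpair
      rcases mul_eq_zero.mp h4 with h5 | h5
      · exact absurd (sub_eq_zero.mp h5).symm hx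
      · rw [h5, zero_mul]
    · rw [h0 σ hσK, mul_zero]

end Fermat.Agent.FFJ.Alg.UnramEtale92
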