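/-
FFJ / chapter ALG, brick UNRAM, local form (helper92).  **Trace-dual families with coefficients in a
subring `S ⊂ ℚ̄`.**

`TDIn S K`: the separability idempotent of `K/ℚ` is `∑ θ_a ⊗ θ'_a` with `θ_a, θ'_a ∈ K ∩ S`.
`Spec78.UnramAt ℓ K` is `TDIn (integralAtSubring ℓ) K` (integral at EVERY place over `ℓ`);
`TDIn A.toSubring K` for ONE valuation subring `A` over `ℓ` is the LOCAL condition "unramified at the
place `A ∩ K`".  The local condition is what a finite free algebra with unit discriminant over the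
LOCAL ring `A ∩ K₁` gives (`tdIn_of_isUnit_discr`); `Patch92` shows that the local conditions at all
places over `ℓ` give `UnramAt`.
-/
import Mathlib
import Fermat.Agent.FFJ.Alg.UnramEtale92

set_option autoImplicit false

noncomputable section

namespace Fermat.Agent.FFJ.Alg.TDIn92

open Fermat.Agent.FFJ.Alg.Spec78 Fermat.Agent.TW.FF.FlatModel68 Fermat.Agent.FFJ.Alg.Unram92
open Fermat.Agent.FFJ.Alg.UnramEtale92
open Polynomial

/-- a trace-dual family of `K/ℚ` with members in the subring `S`. -/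
def TDIn (S : Subring Qbar) (K : IntermediateField ℚ Qbar) : Prop :=
  ∃ (n : ℕ) (θ θ' : Fin n → Qbar), (∀ a, θ a ∈ K ∧ θ' a ∈ K) ∧ (∀ a, θ a ∈ S ∧ θ' a ∈ S) ∧
    (∀ σ : GQ, σ ∈ K.fixingSubgroup → ∑ a, θ a * σ (θ' a) = 1) ∧
    ∀ σ : GQ, σ ∉ K.fixingSubgroup → ∑ a, θ a * σ (θ' a) = 0

theorem unramAt_iff_tdIn {l : ℕ} {K : IntermediateField ℚ Qbar} :
    UnramAt l K ↔ TDIn (integralAtSubring l) K := Iff.rfl

theorem TDIn.mono {S S' : Subring Qbar} (h : S ≤ S') {K : IntermediateField ℚ Qbar}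
    (hK : TDIn S K) : TDIn S' K := by
  obtain ⟨n, θ, θ', h1, h2, h3, h4⟩ := hK
  exact ⟨n, θ, θ', h1, fun a => ⟨h (h2 a).1, h (h2 a).2⟩, h3, h4⟩

/-- `UnramAt` gives the local condition at every place over `ℓ`. -/
theorem tdIn_of_unramAt {l : ℕ} {K : IntermediateField ℚ Qbar} (hK : UnramAt l K)
    {A : ValuationSubring Qbar} (hA : A.LiesOverPrime l) : TDIn A.toSubring K :=
  TDIn.mono (S := integralAtSubring l) (S' := A.toSubring)
    (fun x (hx : x ∈ integralAtSubring l) => (mem_integralAtSubring.mp hx) A hA)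
    (unramAt_iff_tdIn.mp hK)

/-- `TDIn` from a family indexed by an arbitrary finite type. -/
theorem tdIn_of_fintype {S : Subring Qbar} {K : IntermediateField ℚ Qbar} {ι : Type*} [Fintype ι]
    (θ θ' : ι → Qbar) (hK : ∀ a, θ a ∈ K ∧ θ' a ∈ K) (hS : ∀ a, θ a ∈ S ∧ θ' a ∈ S)
    (h1 : ∀ σ : GQ, σ ∈ K.fixingSubgroup → ∑ a, θ a * σ (θ' a) = 1)
    (h0 : ∀ σ : GQ, σ ∉ K.fixingSubgroup → ∑ a, θ a * σ (θ' a) = 0) : TDIn S K := by
  classical
  let e := Fintype.equivFin ι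
  refine ⟨Fintype.card ι, θ ∘ e.symm, θ' ∘ e.symm, fun a => hK _, fun a => hS _, ?_, ?_⟩
  · intro σ hσ
    rw [← h1 σ hσ]
    exact Equiv.sum_comp e.symm (fun a => θ a * σ (θ' a))
  · intro σ hσ
    rw [← h0 σ hσ]
    exact Equiv.sum_comp e.symm (fun a => θ a * σ (θ' a))

theorem tdIn_bot (S : Subring Qbar) : TDIn S ⊥ := by
  refine tdIn_of_fintype (ι := Unit) (fun _ => 1) (fun _ => 1) (fun _ => ⟨one_mem _, one_mem _⟩)
    (fun _ => ⟨one_mem _, one_mem _⟩) ?_ ?_
  · intro σ _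
    simp
  · intro σ hσ
    exact absurd (by rw [IntermediateField.fixingSubgroup_bot]; exact Subgroup.mem_top σ) hσ

theorem tdIn_sup {S : Subring Qbar} {K₁ K₂ : IntermediateField ℚ Qbar} (h₁ : TDIn S K₁)
    (h₂ : TDIn S K₂) : TDIn S (K₁ ⊔ K₂) := by
  obtain ⟨n₁, θ, θ', hK, hint, h1, h0⟩ := h₁
  obtain ⟨n₂, η, η', hK', hint', h1', h0'⟩ := h₂
  have hprod : ∀ σ : GQ, ∑ c : Fin n₁ × Fin n₂, (θ c.1 * η c.2) * σ (θ' c.1 * η' c.2) =
      (∑ a, θ a * σ (θ' a)) * ∑ b, η b * σ (η' b) := by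
    intro σ
    rw [Finset.sum_mul_sum, Fintype.sum_prod_type]
    refine Finset.sum_congr rfl fun a _ => Finset.sum_congr rfl fun b _ => ?_
    rw [map_mul]
    ring
  refine tdIn_of_fintype (ι := Fin n₁ × Fin n₂) (fun c => θ c.1 * η c.2)
    (fun c => θ' c.1 * η' c.2) ?_ ?_ ?_ ?_
  · intro c
    exact ⟨mul_mem ((le_sup_left : K₁ ≤ K₁ ⊔ K₂) (hK c.1).1)
        ((le_sup_right : K₂ ≤ K₁ ⊔ K₂) (hK' c.2).1),
      mul_mem ((le_sup_left : K₁ ≤ K₁ ⊔ K₂) (hK c.1).2)
        ((le_sup_right : K₂ ≤ K₁ ⊔ K₂) (hK' c.2).2)⟩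
  · intro c
    exact ⟨S.mul_mem (hint c.1).1 (hint' c.2).1, S.mul_mem (hint c.1).2 (hint' c.2).2⟩
  · intro σ hσ
    rw [IntermediateField.fixingSubgroup_sup, Subgroup.mem_inf] at hσ
    rw [hprod, h1 σ hσ.1, h1' σ hσ.2, one_mul]
  · intro σ hσ
    rw [IntermediateField.fixingSubgroup_sup, Subgroup.mem_inf, not_and_or] at hσ
    rw [hprod]
    rcases hσ with hσ | hσ
    · rw [h0 σ hσ, zero_mul]
    · rw [h0' σ hσ, mul_zero]

/-- transport by `σ ∈ G_ℚ`: a family for `K` in `S` gives a family for `σ K` in any `S'` containing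
`σ S`. -/
theorem tdIn_map {S S' : Subring Qbar} {K : IntermediateField ℚ Qbar} (σ : GQ)
    (hSS' : ∀ x ∈ S, σ x ∈ S') (hK : TDIn S K) : TDIn S' (K.map (σ : Qbar →ₐ[ℚ] Qbar)) := by
  obtain ⟨n, θ, θ', hθK, hint, h1, h0⟩ := hK
  have hconj : ∀ τ : GQ, ∑ a, σ (θ a) * τ (σ (θ' a)) =
      σ (∑ a, θ a * (σ⁻¹ * τ * σ) (θ' a)) := by
    intro τ
    rw [map_sum]
    refine Finset.sum_congr rfl fun a _ => ?_
    rw [map_mul]
    simp only [AlgEquiv.mul_apply]
    rw [show σ (σ⁻¹ (τ (σ (θ' a)))) = τ (σ (θ' a)) from σ.apply_symm_apply _]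
  refine ⟨n, fun a => σ (θ a), fun a => σ (θ' a), ?_, ?_, ?_, ?_⟩
  · intro a
    exact ⟨(IntermediateField.mem_map _).mpr ⟨θ a, (hθK a).1, rfl⟩,
      (IntermediateField.mem_map _).mpr ⟨θ' a, (hθK a).2, rfl⟩⟩
  · intro a
    exact ⟨hSS' _ (hint a).1, hSS' _ (hint a).2⟩
  · intro τ hτ
    rw [mem_fixingSubgroup_map_iff] at hτ
    rw [hconj, h1 _ hτ, map_one]
  · intro τ hτ
    rw [mem_fixingSubgroup_map_iff] at hτ
    rw [hconj, h0 _ hτ, map_zero]

/-! ### The local étale producer -/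

/-- **Finite free with unit discriminant, general coefficient subring**: if `ε(E) ⊂ S`. -/
theorem tdIn_of_isUnit_discr_of_range {S : Subring Qbar} {K : IntermediateField ℚ Qbar}
    (hK : TDIn S K) {R E : Type*} [CommRing R] [CommRing E] [Algebra R E] {ι : Type*} [Fintype ι]
    [DecidableEq ι] (b : Module.Basis ι R E) (hdisc : IsUnit (Algebra.discr R b))
    (j : R →+* Qbar) (hjK : ∀ r, j r ∈ K)
    (ε : E →+* Qbar) (hε : ∀ r, ε (algebraMap R E r) = j r) (hεS : ∀ x, ε x ∈ S) :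
    TDIn S (K ⊔ IntermediateField.adjoin ℚ (Set.range ε)) := by
  obtain ⟨n, θ, θ', hθK, hint, h1, h0⟩ := hK
  set L : IntermediateField ℚ Qbar := K ⊔ IntermediateField.adjoin ℚ (Set.range ε) with hL
  have hKL : K ≤ L := le_sup_left
  have hεL : ∀ x, ε x ∈ L := fun x =>
    (le_sup_right : IntermediateField.adjoin ℚ (Set.range ε) ≤ L)
      (IntermediateField.subset_adjoin ℚ _ ⟨x, rfl⟩)
  have hsum : ∀ σ : GQ, ∑ c : ι × Fin n,
      (ε (b c.1) * θ c.2) * σ (ε (dual b c.1) * θ' c.2) =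
      (∑ i, ε (b i) * σ (ε (dual b i))) * ∑ a, θ a * σ (θ' a) := by
    intro σ
    rw [Finset.sum_mul_sum, Fintype.sum_prod_type]
    refine Finset.sum_congr rfl fun i _ => Finset.sum_congr rfl fun a _ => ?_
    rw [map_mul]
    ring
  refine tdIn_of_fintype (ι := ι × Fin n) (fun c => ε (b c.1) * θ c.2)
    (fun c => ε (dual b c.1) * θ' c.2) ?_ ?_ ?_ ?_
  · intro c
    exact ⟨mul_mem (hεL _) (hKL (hθK c.2).1), mul_mem (hεL _) (hKL (hθK c.2).2)⟩
  · intro c
    exact ⟨S.mul_mem (hεS _) (hint c.2).1, S.mul_mem (hεS _) (hint c.2).2⟩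
  · intro σ hσ
    rw [hL, IntermediateField.fixingSubgroup_sup, Subgroup.mem_inf,
      mem_fixingSubgroup_adjoin_range_iff] at hσ
    rw [hsum, h1 σ hσ.1, mul_one]
    have h3 : ∑ i, ε (b i) * σ (ε (dual b i)) = ε (∑ i, b i * dual b i) := by
      rw [map_sum]
      refine Finset.sum_congr rfl fun i _ => ?_
      rw [map_mul, hσ.2]
    rw [h3, sum_mul_dual b hdisc, map_one]
  · intro σ hσ
    rw [hL, IntermediateField.fixingSubgroup_sup, Subgroup.mem_inf,
      mem_fixingSubgroup_adjoin_range_iff, not_and_or] at hσ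
    rw [hsum]
    by_cases hσK : σ ∈ K.fixingSubgroup
    · have hne : ¬ ∀ x, σ (ε x) = ε x := hσ.resolve_left (not_not.mpr hσK)
      obtain ⟨x, hx⟩ := not_forall.mp hne
      rw [IntermediateField.mem_fixingSubgroup_iff] at hσK
      have hpair := mul_pairing b hdisc ε (((σ : Qbar ≃+* Qbar) : Qbar →+* Qbar).comp ε)
        (fun r => by
          rw [RingHom.comp_apply, hε]
          exact (hσK _ (hjK r)).symm) x
      have h4 : (ε x - σ (ε x)) * ∑ i, ε (b i) * σ (ε (dual b i)) = 0 := by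
        rw [sub_mul, sub_eq_zero]
        exact hpair
      rcases mul_eq_zero.mp h4 with h5 | h5
      · exact absurd (sub_eq_zero.mp h5).symm hx
      · rw [h5, zero_mul]
    · rw [h0 σ hσK, mul_zero]

/-- a root of a monic polynomial with coefficients in a valuation subring lies in it. -/
theorem mem_of_root (A : ValuationSubring Qbar) {f : Qbar[X]} (hf : f.Monic)
    (hc : ∀ i, f.coeff i ∈ A) {α : Qbar} (hα : f.eval α = 0) : α ∈ A := by
  have hsub : (↑f.coeffs : Set Qbar) ⊆ A.toSubring := by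
    intro c hc'
    obtain ⟨n, -, rfl⟩ := Polynomial.mem_coeffs_iff.mp hc'
    exact hc n
  have hint : IsIntegral A α := by
    refine ⟨f.toSubring A.toSubring hsub, (Polynomial.monic_toSubring f A.toSubring hsub).mpr hf, ?_⟩
    have : (f.toSubring A.toSubring hsub).map (algebraMap A Qbar) = f :=
      Polynomial.map_toSubring f A.toSubring hsub
    rw [← Polynomial.eval_map, this, hα]
  obtain ⟨y, hy⟩ := IsIntegrallyClosed.isIntegral_iff.mp hint
  rw [← hy]
  exact y.2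

/-- **The local étale producer**: `E` finite free with unit discriminant over `R`, `j(R) ⊂ K ∩ A`
(e.g. `R = A ∩ K₁`, `K₁ ≤ K`); if `K` is unramified at the place `A` then so is `K(ε(E))`. -/
theorem tdIn_of_isUnit_discr (A : ValuationSubring Qbar) {K : IntermediateField ℚ Qbar}
    (hK : TDIn A.toSubring K) {R E : Type*} [CommRing R] [CommRing E] [Algebra R E] {ι : Type*}
    [Fintype ι] [DecidableEq ι] (b : Module.Basis ι R E) (hdisc : IsUnit (Algebra.discr R b))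
    (j : R →+* Qbar) (hjK : ∀ r, j r ∈ K) (hjA : ∀ r, j r ∈ A)
    (ε : E →+* Qbar) (hε : ∀ r, ε (algebraMap R E r) = j r) :
    TDIn A.toSubring (K ⊔ IntermediateField.adjoin ℚ (Set.range ε)) := by
  refine tdIn_of_isUnit_discr_of_range hK b hdisc j hjK ε hε fun x => ?_
  have hfin : Module.Finite R E := Module.Finite.of_basis b
  obtain ⟨p, hp, hpx⟩ := IsIntegral.of_finite R x
  refine mem_of_root A (f := p.map j) (hp.map j) (fun i => ?_) ?_
  · rw [Polynomial.coeff_map]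
    exact hjA _
  · have h2 := congrArg ε hpx
    rw [Polynomial.hom_eval₂, map_zero] at h2
    rw [Polynomial.eval_map]
    have hcomp : ε.comp (algebraMap R E) = j := RingHom.ext hε
    rw [hcomp] at h2
    exact h2

end Fermat.Agent.FFJ.Alg.TDIn92
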