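/-
FFJ / chapter ALG, brick UNRAM, local-to-global (helper92).  **Unramified is local.**

`K ⊂ ℚ̄` a number field.  If for EVERY valuation subring `A'` of `ℚ̄` over `ℓ` there is a trace-dual
family of `K/ℚ` with members in `A'` (`TDIn92.TDIn A'.toSubring K`: "`K` is unramified at the place
`A' ∩ K`"), then `Spec78.UnramAt ℓ K` (`unramAt_of_forall_tdIn`).

Proof: the places `A' ∩ K` are finitely many (primes `P_i` of `𝓞 K` over `ℓ`); choose `A_i` over `P_i`,
a family `(θ^i, θ'^i)` in `A_i`, `N` with `ℓ^N θ^i_a, ℓ^N θ'^i_a` integral at `ℓ`, approximation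
elements `e_i ∈ 𝓞 K` (unit at `P_i`, in `ℓ^N` at the other places), `s := ∑ e_i²` (a unit at every
place over `ℓ`); the family `e_i θ^i_a`, `(e_i / s) θ'^i_a` is trace-dual and integral at `ℓ`.
-/
import Mathlib
import Fermat.Agent.FFJ.Alg.TDIn92
import Fermat.Agent.FFJ.Alg.IntegralBot92
import Fermat.Agent.FFJ.Alg.TD92
import Fermat.Agent.S13.UnramVal

set_option autoImplicit false

noncomputable section

namespace Fermat.Agent.FFJ.Alg.Patch92

open Fermat.Agent.FFJ.Alg.Spec78 Fermat.Agent.TW.FF.FlatModel68 Fermat.Agent.FFJ.Alg.Unram92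
open Fermat.Agent.FFJ.Alg.TDIn92 Fermat.Agent.FFJ.Alg.IntegralBot92 Fermat.Agent.FFJ.Alg.TD92
open Fermat.Agent.RED.Interface4 (AK)
open Fermat.Agent.RED.DESC.NumberFieldDVR27
open NumberField IsDedekindDomain IsDedekindDomain.HeightOneSpectrum

/-! ### Clearing denominators at `ℓ` -/

/-- every element of `ℚ̄` becomes integral at `ℓ` after multiplication by a power of `ℓ`. -/
theorem exists_pow_mul_integralAt {l : ℕ} (hl : l.Prime) (x : Qbar) :
    ∃ N : ℕ, IntegralAt l ((l : Qbar) ^ N * x) := by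
  have halg : IsAlgebraic ℤ x :=
    (IsFractionRing.isAlgebraic_iff ℤ ℚ Qbar).mpr (Algebra.IsAlgebraic.isAlgebraic x)
  obtain ⟨d, hd0, hdx⟩ := halg.exists_integral_multiple
  obtain ⟨k, d', hd', hdk⟩ :=
    Nat.exists_eq_pow_mul_and_not_dvd (Int.natAbs_ne_zero.mpr hd0) l hl.ne_one
  refine ⟨k, ?_⟩
  -- `d • x` integral, `d = ± ℓ^k d'`
  have hdx' : IntegralAt l ((d : Qbar) * x) := by
    intro A _
    have : (d : Qbar) * x = d • x := by rw [zsmul_eq_mul]
    rw [this]
    exact mem_of_isIntegral A hdx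
  have hd'inv : IntegralAt l ((d' : Qbar))⁻¹ := integralAt_inv_natCast hl hd'
  have hd'0 : (d' : Qbar) ≠ 0 := by
    intro h0
    have : d' = 0 := by exact_mod_cast h0
    rw [this] at hd'
    exact hd' (dvd_zero l)
  have habs : (d.natAbs : Qbar) = (l : Qbar) ^ k * (d' : Qbar) := by
    rw [hdk]
    push_cast
    ring
  have hkey : (l : Qbar) ^ k * x = (d.natAbs : Qbar) * x * ((d' : Qbar))⁻¹ := by
    rw [habs]
    field_simp
  rw [hkey]
  refine integralAt_mul ?_ hd'inv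
  rcases Int.natAbs_eq d with h | h
  · have h2 : (d : Qbar) = (d.natAbs : Qbar) := by
      have h3 := congrArg (Int.cast : ℤ → Qbar) h
      rw [Int.cast_natCast] at h3
      exact h3
    rw [← h2]
    exact hdx'
  · have h2 : (d : Qbar) = -(d.natAbs : Qbar) := by
      have h3 := congrArg (Int.cast : ℤ → Qbar) h
      rw [Int.cast_neg, Int.cast_natCast] at h3
      exact h3
    have h4 : (d.natAbs : Qbar) * x = -((d : Qbar) * x) := by
      rw [h2]
      ring
    rw [h4]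
    exact integralAt_neg hdx'

theorem integralAt_pow_mul_of_le {l : ℕ} {x : Qbar} {N N' : ℕ} (hNN : N ≤ N')
    (h : IntegralAt l ((l : Qbar) ^ N * x)) : IntegralAt l ((l : Qbar) ^ N' * x) := by
  obtain ⟨j, rfl⟩ := Nat.exists_eq_add_of_le hNN
  have : (l : Qbar) ^ (N + j) * x = (l : Qbar) ^ j * ((l : Qbar) ^ N * x) := by
    rw [pow_add]
    ring
  rw [this]
  exact integralAt_mul (integralAt_pow (integralAt_natCast l l) j) h

/-! ### The approximation element, for all places over `ℓ` -/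

theorem AK_eq_of_primeOf_eq {l : ℕ} (hl0 : l ≠ 0) (K : IntermediateField ℚ Qbar)
    [FiniteDimensional ℚ K] {A A' : ValuationSubring Qbar} (hA : A.LiesOverPrime l)
    (hA' : A'.LiesOverPrime l) (h : primeOf A' K hl0 hA' = primeOf A K hl0 hA) :
    AK A' K = AK A K := by
  rw [AK_eq A' K hl0 hA', AK_eq A K hl0 hA, h]

/-- **The approximation element**: `e ∈ 𝓞 K`, a unit at `A`, and divisible by `ℓ^N` at every place
over `ℓ` other than `A ∩ K`. -/
theorem exists_approx_all {l : ℕ} (hl : l.Prime) (K : IntermediateField ℚ Qbar)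
    [FiniteDimensional ℚ K] (A : ValuationSubring Qbar) (hA : A.LiesOverPrime l) (N : ℕ) :
    ∃ e : 𝓞 K, A.valuation (((e : K) : Qbar)) = 1 ∧
      ∀ (A' : ValuationSubring Qbar) (hA' : A'.LiesOverPrime l),
        primeOf A' K hl.ne_zero hA' ≠ primeOf A K hl.ne_zero hA →
        ∃ w : K, w ∈ AK A' K ∧ (e : K) = (l : K) ^ N * w := by
  classical
  have hl0 : l ≠ 0 := hl.ne_zero
  set v₁ : HeightOneSpectrum (𝓞 K) := primeOf A K hl0 hA with hv₁
  have hspan : Ideal.span {(l : 𝓞 K)} ≠ 0 := by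
    rw [Ne, Ideal.zero_eq_bot, Ideal.span_singleton_eq_bot]
    exact Nat.cast_ne_zero.mpr hl0
  have h𝒮 := Ideal.finite_factors hspan
  have hmem𝒮 : ∀ (A' : ValuationSubring Qbar) (hA' : A'.LiesOverPrime l),
      primeOf A' K hl0 hA' ∈ h𝒮.toFinset := by
    intro A' hA'
    rw [Set.Finite.mem_toFinset]
    show (primeOf A' K hl0 hA').asIdeal ∣ Ideal.span {(l : 𝓞 K)}
    rw [Ideal.dvd_span_singleton]
    exact natCast_mem_primeIdeal A' K hA'
  have hu : ∃ u : 𝓞 K, u ∉ v₁.asIdeal ∧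
      ∀ v ∈ h𝒮.toFinset, v ≠ v₁ → u ∈ v.asIdeal := by
    have hnle : ¬ (∏ v ∈ h𝒮.toFinset.erase v₁, v.asIdeal) ≤ v₁.asIdeal := by
      intro hle
      obtain ⟨v, hv, hvle⟩ := (Ideal.IsPrime.prod_le v₁.isPrime).mp hle
      have heq : v.asIdeal = v₁.asIdeal :=
        (v.isMaximal).eq_of_le v₁.isPrime.ne_top hvle
      exact (Finset.ne_of_mem_erase hv) (HeightOneSpectrum.ext heq)
    obtain ⟨u, huI, hu1⟩ := SetLike.not_le_iff_exists.mp hnle
    refine ⟨u, hu1, fun v hv hne => ?_⟩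
    have h1 : (∏ v ∈ h𝒮.toFinset.erase v₁, v.asIdeal) ≤ v.asIdeal :=
      Ideal.prod_le_inf.trans (Finset.inf_le (Finset.mem_erase.mpr ⟨hne, hv⟩))
    exact h1 huI
  obtain ⟨u, hu1, hu2⟩ := hu
  have hvalu : A.valuation (((u : K) : Qbar)) = 1 := by
    have h1 : ¬ A.valuation (((u : K) : Qbar)) < 1 := hu1
    exact le_antisymm (val_int_le_one A K u) (not_lt.mp h1)
  let GV : ValuationSubring K → ℕ → Prop := fun V M =>
    ∃ w : K, w ∈ V ∧ (u : K) ^ M = (l : K) ^ N * w
  have hmono : ∀ (A' : ValuationSubring Qbar) (M M' : ℕ), M ≤ M' → GV (AK A' K) M →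
      GV (AK A' K) M' := by
    rintro A' M M' hMM ⟨w, hw, hwe⟩
    obtain ⟨j, rfl⟩ := Nat.exists_eq_add_of_le hMM
    refine ⟨w * (u : K) ^ j, (AK A' K).mul_mem _ _ hw (pow_mem ?_ j), ?_⟩
    · rw [mem_AK_iff]
      exact coe_int_mem A' K u
    · rw [pow_add, hwe, mul_assoc]
  have hper : ∀ (A' : ValuationSubring Qbar) (hA' : A'.LiesOverPrime l),
      primeOf A' K hl0 hA' ≠ v₁ → ∃ M, GV (AK A' K) M := by
    intro A' hA' hne
    have huσ : A'.valuation (((u : K) : Qbar)) < 1 := hu2 _ (hmem𝒮 A' hA') hne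
    have hdvr : IsDiscreteValuationRing (AK A' K) := isDiscreteValuationRing_AK A' K hl0 hA'
    have huV : (u : K) ∈ AK A' K := by
      rw [mem_AK_iff]
      exact coe_int_mem A' K u
    have humax : (⟨(u : K), huV⟩ : AK A' K) ∈ IsLocalRing.maximalIdeal (AK A' K) := by
      rw [mem_maximalIdeal_iff, ValuationSubring.valuation_lt_one_iff]
      exact huσ
    have hlV : (l : K) ∈ AK A' K := natCast_mem _ l
    have hc : ((⟨(l : K), hlV⟩ : AK A' K)) ^ N ≠ 0 := by
      apply pow_ne_zero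
      intro h0
      have h1 : (l : K) = 0 := congrArg Subtype.val h0
      exact (Nat.cast_ne_zero.mpr hl0) h1
    obtain ⟨M, w, hw⟩ := exists_pow_eq_mul humax hc
    refine ⟨M, (w : K), w.2, ?_⟩
    have := congrArg Subtype.val hw
    simpa using this
  let m : ValuationSubring K → ℕ := fun V => if h : ∃ M, GV V M then h.choose else 0
  set 𝒱 : Finset (ValuationSubring K) := h𝒮.toFinset.image (valuationSubringAtPrime K) with h𝒱
  set M₀ : ℕ := 𝒱.sup m with hM₀
  refine ⟨u ^ M₀, ?_, ?_⟩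
  · have : (((u ^ M₀ : 𝓞 K) : K) : Qbar) = (((u : K) : Qbar)) ^ M₀ := by
      push_cast
      rfl
    rw [this, map_pow, hvalu, one_pow]
  · intro A' hA' hne
    have hex := hper A' hA' hne
    have hV𝒱 : AK A' K ∈ 𝒱 := by
      rw [h𝒱, Finset.mem_image]
      exact ⟨_, hmem𝒮 A' hA', (AK_eq A' K hl0 hA').symm⟩
    have hmV : GV (AK A' K) (m (AK A' K)) := by
      show GV (AK A' K) (if h : ∃ M, GV (AK A' K) M then h.choose else 0)
      rw [dif_pos hex]
      exact hex.choose_spec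
    have hle : m (AK A' K) ≤ M₀ := Finset.le_sup hV𝒱
    obtain ⟨w, hw, hwe⟩ := hmono A' _ _ hle hmV
    refine ⟨w, hw, ?_⟩
    rw [← hwe]
    push_cast
    rfl

/-! ### Patching -/

theorem mem_of_AK_eq {K : IntermediateField ℚ Qbar} {A A' : ValuationSubring Qbar}
    (h : AK A' K = AK A K) {x : Qbar} (hxK : x ∈ K) (hxA : x ∈ A) : x ∈ A' := by
  have h1 : (⟨x, hxK⟩ : K) ∈ AK A K := (mem_AK_iff A K _).mpr hxA
  rw [← h] at h1
  exact (mem_AK_iff A' K _).mp h1

theorem valuation_eq_one_of_mem (A : ValuationSubring Qbar) {x : Qbar} (hx : x ≠ 0)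
    (h1 : x ∈ A) (h2 : x⁻¹ ∈ A) : A.valuation x = 1 := by
  have h1' : A.valuation x ≤ 1 := (A.valuation_le_one_iff x).mpr h1
  have h2' : A.valuation x⁻¹ ≤ 1 := (A.valuation_le_one_iff _).mpr h2
  refine le_antisymm h1' ?_
  have h3 : A.valuation x * A.valuation x⁻¹ = 1 := by
    rw [← map_mul, mul_inv_cancel₀ hx, map_one]
  calc (1 : _) = A.valuation x * A.valuation x⁻¹ := h3.symm
    _ ≤ A.valuation x * 1 := mul_le_mul_right h2' _
    _ = A.valuation x := mul_one _

theorem mem_and_inv_mem_of_valuation_eq_one (A : ValuationSubring Qbar) {x : Qbar}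
    (h : A.valuation x = 1) : x ∈ A ∧ x⁻¹ ∈ A := by
  constructor
  · rw [← A.valuation_le_one_iff, h]
  · rw [← A.valuation_le_one_iff, map_inv₀, h, inv_one]

/-- **Unramified is local**: trace-dual families in each valuation subring over `ℓ` patch to a
trace-dual family integral at `ℓ`. -/
theorem unramAt_of_forall_tdIn {l : ℕ} (hl : l.Prime) (K : IntermediateField ℚ Qbar)
    [FiniteDimensional ℚ K]
    (h : ∀ A' : ValuationSubring Qbar, A'.LiesOverPrime l → TDIn A'.toSubring K) :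
    UnramAt l K := by
  classical
  have hl0 : l ≠ 0 := hl.ne_zero
  have hspan : Ideal.span {(l : 𝓞 K)} ≠ 0 := by
    rw [Ne, Ideal.zero_eq_bot, Ideal.span_singleton_eq_bot]
    exact Nat.cast_ne_zero.mpr hl0
  have h𝒮 := Ideal.finite_factors hspan
  have hmem𝒮 : ∀ (A' : ValuationSubring Qbar) (hA' : A'.LiesOverPrime l),
      primeOf A' K hl0 hA' ∈ h𝒮.toFinset := by
    intro A' hA'
    rw [Set.Finite.mem_toFinset]
    show (primeOf A' K hl0 hA').asIdeal ∣ Ideal.span {(l : 𝓞 K)}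
    rw [Ideal.dvd_span_singleton]
    exact natCast_mem_primeIdeal A' K hA'
  -- the places that occur
  let Pl : Finset (HeightOneSpectrum (𝓞 K)) := h𝒮.toFinset.filter (fun v =>
    ∃ (A' : ValuationSubring Qbar) (hA' : A'.LiesOverPrime l), primeOf A' K hl0 hA' = v)
  have hex : ∀ i : Pl, ∃ (A' : ValuationSubring Qbar) (hA' : A'.LiesOverPrime l),
      primeOf A' K hl0 hA' = i.1 := fun i => (Finset.mem_filter.mp i.2).2
  choose Ai hAi hprime using hex
  have hfam : ∀ i : Pl, TDIn (Ai i).toSubring K := fun i => h (Ai i) (hAi i)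
  choose n θ θ' hθK hθA h1 h0 using hfam
  -- clearing denominators
  choose Nf hNf using exists_pow_mul_integralAt hl
  let N₀ : ℕ := (Finset.univ : Finset (Σ i : Pl, Fin (n i))).sup
    (fun p => max (Nf (θ p.1 p.2)) (Nf (θ' p.1 p.2))) + 1
  have hN₀pos : N₀ ≠ 0 := Nat.succ_ne_zero _
  have hN₀ : ∀ (i : Pl) (a : Fin (n i)), IntegralAt l ((l : Qbar) ^ N₀ * θ i a) ∧
      IntegralAt l ((l : Qbar) ^ N₀ * θ' i a) := by
    intro i a
    have hle : max (Nf (θ i a)) (Nf (θ' i a)) ≤ N₀ :=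
      (Finset.le_sup (f := fun p : (Σ i : Pl, Fin (n i)) => max (Nf (θ p.1 p.2)) (Nf (θ' p.1 p.2)))
        (Finset.mem_univ (⟨i, a⟩ : Σ i : Pl, Fin (n i)))).trans (Nat.le_succ _)
    exact ⟨integralAt_pow_mul_of_le ((le_max_left _ _).trans hle) (hNf _),
      integralAt_pow_mul_of_le ((le_max_right _ _).trans hle) (hNf _)⟩
  -- approximation elements
  choose e hev he using fun i : Pl => exists_approx_all hl K (Ai i) (hAi i) N₀
  let eQ : Pl → Qbar := fun i => (((e i : 𝓞 K) : K) : Qbar)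
  have heK : ∀ i, eQ i ∈ K := fun i => ((e i : 𝓞 K) : K).2
  have heint : ∀ i, IntegralAt l (eQ i) := fun i A' _ => coe_int_mem A' K (e i)
  have he0 : ∀ i, eQ i ≠ 0 := by
    intro i h0'
    have := hev i
    rw [show (((e i : 𝓞 K) : K) : Qbar) = eQ i from rfl, h0', map_zero] at this
    exact zero_ne_one this
  -- the place of `A'`
  have hidx : ∀ (A' : ValuationSubring Qbar) (hA' : A'.LiesOverPrime l),
      ∃ i₀ : Pl, primeOf A' K hl0 hA' = i₀.1 := fun A' hA' =>
    ⟨⟨primeOf A' K hl0 hA', Finset.mem_filter.mpr ⟨hmem𝒮 A' hA', A', hA', rfl⟩⟩, rfl⟩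
  have hAKeq : ∀ (A' : ValuationSubring Qbar) (hA' : A'.LiesOverPrime l) (i : Pl),
      primeOf A' K hl0 hA' = i.1 → AK A' K = AK (Ai i) K := fun A' hA' i hi =>
    AK_eq_of_primeOf_eq hl0 K (hAi i) hA' (hi.trans (hprime i).symm)
  have hval_eq : ∀ (A' : ValuationSubring Qbar) (hA' : A'.LiesOverPrime l) (i : Pl),
      primeOf A' K hl0 hA' = i.1 → A'.valuation (eQ i) = 1 := by
    intro A' hA' i hi
    obtain ⟨h2, h3⟩ := mem_and_inv_mem_of_valuation_eq_one (Ai i) (hev i)
    exact valuation_eq_one_of_mem A' (he0 i) (mem_of_AK_eq (hAKeq A' hA' i hi) (heK i) h2)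
      (mem_of_AK_eq (hAKeq A' hA' i hi) (K.inv_mem (heK i)) h3)
  have hdiv : ∀ (A' : ValuationSubring Qbar) (hA' : A'.LiesOverPrime l) (i : Pl),
      primeOf A' K hl0 hA' ≠ i.1 → ∃ w : Qbar, w ∈ A' ∧ eQ i = (l : Qbar) ^ N₀ * w := by
    intro A' hA' i hi
    obtain ⟨w, hw, hwe⟩ := he i A' hA' (by rw [hprime i]; exact hi)
    refine ⟨(w : Qbar), (mem_AK_iff A' K w).mp hw, ?_⟩
    show (((e i : 𝓞 K) : K) : Qbar) = _
    rw [hwe]
    push_cast
    rfl
  have hval_lt : ∀ (A' : ValuationSubring Qbar) (hA' : A'.LiesOverPrime l) (i : Pl),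
      primeOf A' K hl0 hA' ≠ i.1 → A'.valuation (eQ i ^ 2) < 1 := by
    intro A' hA' i hi
    obtain ⟨w, hw, hwe⟩ := hdiv A' hA' i hi
    have hlv : A'.valuation (l : Qbar) < 1 := (A'.mem_nonunits_iff).mp hA'
    have h2 : A'.valuation (eQ i) < 1 := by
      rw [hwe, map_mul, map_pow]
      refine lt_of_le_of_lt (mul_le_of_le_one_right' ((A'.valuation_le_one_iff _).mpr hw)) ?_
      exact pow_lt_one₀ zero_le hlv hN₀pos
    rw [map_pow]
    exact pow_lt_one₀ zero_le h2 two_ne_zero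
  -- the unit `s`
  let s : Qbar := ∑ i, eQ i ^ 2
  have hsK : s ∈ K := sum_mem fun i _ => pow_mem (heK i) 2
  have hsval : ∀ (A' : ValuationSubring Qbar), A'.LiesOverPrime l → A'.valuation s = 1 := by
    intro A' hA'
    obtain ⟨i₀, hi₀⟩ := hidx A' hA'
    have hsplit : s = eQ i₀ ^ 2 + ∑ i ∈ Finset.univ.erase i₀, eQ i ^ 2 :=
      (Finset.add_sum_erase Finset.univ (fun i => eQ i ^ 2) (Finset.mem_univ i₀)).symm
    have h2 : A'.valuation (eQ i₀ ^ 2) = 1 := by
      rw [map_pow, hval_eq A' hA' i₀ hi₀, one_pow]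
    have h3 : A'.valuation (∑ i ∈ Finset.univ.erase i₀, eQ i ^ 2) < 1 := by
      refine Valuation.map_sum_lt _ one_ne_zero fun i hi => ?_
      refine hval_lt A' hA' i fun hcon => ?_
      exact (Finset.ne_of_mem_erase hi) (Subtype.ext (hcon.symm.trans hi₀))
    rw [hsplit, Valuation.map_add_eq_of_lt_left _ (h3.trans_eq h2.symm), h2]
  have hs0 : s ≠ 0 := by
    obtain ⟨A₀, hA₀⟩ := Fermat.Agent.S13.UnramVal.exists_liesOverPrime (L := Qbar) hl
    intro hs
    have := hsval A₀ hA₀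
    rw [hs, map_zero] at this
    exact zero_ne_one this
  have hsinv : IntegralAt l s⁻¹ := fun A' hA' =>
    (mem_and_inv_mem_of_valuation_eq_one A' (hsval A' hA')).2
  -- the patched family
  have hsum : ∀ σ : GQ, ∑ p : (Σ i : Pl, Fin (n i)),
      (eQ p.1 * θ p.1 p.2) * σ (eQ p.1 * s⁻¹ * θ' p.1 p.2) =
      ∑ i, eQ i * σ (eQ i * s⁻¹) * ∑ a, θ i a * σ (θ' i a) := by
    intro σ
    rw [Fintype.sum_sigma]
    refine Finset.sum_congr rfl fun i _ => ?_
    rw [Finset.mul_sum]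
    refine Finset.sum_congr rfl fun a _ => ?_
    rw [map_mul σ (eQ i * s⁻¹)]
    ring
  refine unramAt_of_fintype (ι := Σ i : Pl, Fin (n i)) (fun p => eQ p.1 * θ p.1 p.2)
    (fun p => eQ p.1 * s⁻¹ * θ' p.1 p.2) ?_ ?_ ?_ ?_
  · intro p
    exact ⟨K.mul_mem (heK _) (hθK p.1 p.2).1,
      K.mul_mem (K.mul_mem (heK _) (K.inv_mem hsK)) (hθK p.1 p.2).2⟩
  · rintro ⟨i, a⟩
    constructor
    · intro A' hA'
      by_cases hi : primeOf A' K hl0 hA' = i.1
      · exact A'.mul_mem _ _ (heint i A' hA')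
          (mem_of_AK_eq (hAKeq A' hA' i hi) (hθK i a).1 (hθA i a).1)
      · obtain ⟨w, hw, hwe⟩ := hdiv A' hA' i hi
        have : eQ i * θ i a = w * ((l : Qbar) ^ N₀ * θ i a) := by
          rw [hwe]
          ring
        show eQ i * θ i a ∈ A'
        rw [this]
        exact A'.mul_mem _ _ hw ((hN₀ i a).1 A' hA')
    · intro A' hA'
      by_cases hi : primeOf A' K hl0 hA' = i.1
      · exact A'.mul_mem _ _ (A'.mul_mem _ _ (heint i A' hA') (hsinv A' hA'))
          (mem_of_AK_eq (hAKeq A' hA' i hi) (hθK i a).2 (hθA i a).2)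
      · obtain ⟨w, hw, hwe⟩ := hdiv A' hA' i hi
        have : eQ i * s⁻¹ * θ' i a = w * s⁻¹ * ((l : Qbar) ^ N₀ * θ' i a) := by
          rw [hwe]
          ring
        show eQ i * s⁻¹ * θ' i a ∈ A'
        rw [this]
        exact A'.mul_mem _ _ (A'.mul_mem _ _ hw (hsinv A' hA')) ((hN₀ i a).2 A' hA')
  · intro σ hσ
    rw [hsum]
    have hfix : ∀ x ∈ K, σ x = x := (IntermediateField.mem_fixingSubgroup_iff K σ).mp hσ
    have h2 : ∀ i : Pl, eQ i * σ (eQ i * s⁻¹) * ∑ a, θ i a * σ (θ' i a) = eQ i ^ 2 * s⁻¹ := by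
      intro i
      rw [h1 i σ hσ, mul_one, hfix _ (K.mul_mem (heK i) (K.inv_mem hsK))]
      ring
    rw [Finset.sum_congr rfl fun i _ => h2 i, ← Finset.sum_mul]
    exact mul_inv_cancel₀ hs0
  · intro σ hσ
    rw [hsum]
    refine Finset.sum_eq_zero fun i _ => ?_
    rw [h0 i σ hσ, mul_zero]

/-! ### Corollaries for consumers -/

/-- **one place + conjugacy**: if `K` is normal over `ℚ`, every valuation subring over `ℓ` contains a
conjugate `σ(A)` of `A`, and `K` is unramified at `A`, then `UnramAt ℓ K`. -/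
theorem unramAt_of_tdIn_of_conj {l : ℕ} (hl : l.Prime) (K : IntermediateField ℚ Qbar)
    [FiniteDimensional ℚ K] (hnorm : ∀ (σ : GQ) (x : Qbar), x ∈ K → σ x ∈ K)
    (A : ValuationSubring Qbar)
    (hconj : ∀ A' : ValuationSubring Qbar, A'.LiesOverPrime l → ∃ σ : GQ, ∀ x ∈ A, σ x ∈ A')
    (hA : TDIn A.toSubring K) : UnramAt l K := by
  refine unramAt_of_forall_tdIn hl K fun A' hA' => ?_
  obtain ⟨σ, hσ⟩ := hconj A' hA'
  have h1 : TDIn A'.toSubring (K.map (σ : Qbar →ₐ[ℚ] Qbar)) :=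
    tdIn_map (S := A.toSubring) (S' := A'.toSubring) σ hσ hA
  have h2 : K.map (σ : Qbar →ₐ[ℚ] Qbar) = K := by
    apply le_antisymm
    · intro y hy
      obtain ⟨x, hx, rfl⟩ := (IntermediateField.mem_map _).mp hy
      exact hnorm σ x hx
    · intro y hy
      refine (IntermediateField.mem_map _).mpr ⟨σ⁻¹ y, hnorm σ⁻¹ y hy, ?_⟩
      exact σ.apply_symm_apply y
  rw [h2] at h1
  exact h1

/-- the field generated over a number field `K` by the image of a finite free algebra is a number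
field. -/
theorem finiteDimensional_sup_adjoin_range (K : IntermediateField ℚ Qbar) [FiniteDimensional ℚ K]
    {R E : Type*} [CommRing R] [CommRing E] [Algebra R E] {ι : Type*} [Finite ι]
    (b : Module.Basis ι R E) (j : R →+* Qbar) (hjK : ∀ r, j r ∈ K)
    (ε : E →+* Qbar) (hε : ∀ r, ε (algebraMap R E r) = j r) :
    FiniteDimensional ℚ ↥(K ⊔ IntermediateField.adjoin ℚ (Set.range ε)) := by
  classical
  have := Fintype.ofFinite ι
  have hfin : FiniteDimensional ℚ ↥(IntermediateField.adjoin ℚ (Set.range fun i => ε (b i))) :=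
    IntermediateField.finiteDimensional_adjoin fun x _ =>
      (Algebra.IsAlgebraic.isAlgebraic (R := ℚ) x).isIntegral
  have heq : K ⊔ IntermediateField.adjoin ℚ (Set.range ε) =
      K ⊔ IntermediateField.adjoin ℚ (Set.range fun i => ε (b i)) := by
    apply le_antisymm
    · refine sup_le le_sup_left ?_
      rw [IntermediateField.adjoin_le_iff]
      rintro _ ⟨x, rfl⟩
      rw [← b.sum_repr x, map_sum]
      refine sum_mem fun i _ => ?_
      rw [Algebra.smul_def, map_mul, hε]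
      exact mul_mem
        ((le_sup_left : K ≤ K ⊔ IntermediateField.adjoin ℚ (Set.range fun i => ε (b i)))
          (hjK _))
        ((le_sup_right : IntermediateField.adjoin ℚ (Set.range fun i => ε (b i)) ≤
          K ⊔ IntermediateField.adjoin ℚ (Set.range fun i => ε (b i)))
          (IntermediateField.subset_adjoin ℚ _ ⟨i, rfl⟩))
    · refine sup_le le_sup_left (le_trans ?_ le_sup_right)
      apply IntermediateField.adjoin.mono
      rintro _ ⟨i, rfl⟩
      exact ⟨b i, rfl⟩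
  rw [heq]
  exact IntermediateField.finiteDimensional_sup K _

end Fermat.Agent.FFJ.Alg.Patch92
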