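/-
FFJ / chapter ALG, brick UNRAM, normal closures (helper92).

`UnramAt ℓ K`, `K` a number field  ⟹  the normal closure `K'` of `K` in `ℚ̄` is a number field, is
`G_ℚ`-stable, contains `K` and `UnramAt ℓ K'` (`exists_normal_unramAt`): `K'` is the compositum of the
finitely many conjugates `σ(K)`, and `UnramAt` is stable under conjugates (`Unram92.unramMap`) and
composita (`Unram92.unramSup`).
-/
import Mathlib
import Fermat.Agent.FFJ.Alg.Unram92

set_option autoImplicit false

noncomputable section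

namespace Fermat.Agent.FFJ.Alg.UnramNormal92

open Fermat.Agent.FFJ.Alg.Spec78 Fermat.Agent.TW.FF.FlatModel68 Fermat.Agent.FFJ.Alg.Unram92

theorem isAlgClosure_Qbar : IsAlgClosure ℚ Qbar := by
  have h : (DivisionRing.toRatAlgebra : Algebra ℚ Qbar) = AlgebraicClosure.instAlgebra ℚ :=
    Subsingleton.elim _ _
  rw [h]
  infer_instance

theorem normal_Qbar : Normal ℚ Qbar :=
  haveI := isAlgClosure_Qbar
  IsAlgClosure.normal ℚ Qbar

/-- finite suprema of unramified fields are unramified. -/
theorem unramAt_iSup {l : ℕ} {ι : Type*} [Finite ι] (K : ι → IntermediateField ℚ Qbar)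
    (hK : ∀ i, UnramAt l (K i)) : UnramAt l (⨆ i, K i) := by
  classical
  have := Fintype.ofFinite ι
  rw [← Finset.sup_univ_eq_iSup]
  exact Finset.sup_induction (p := UnramAt l) (unramBot l)
    (fun K₁ h₁ K₂ h₂ => unramSup l K₁ K₂ h₁ h₂) fun i _ => hK i

/-- every embedding of a subfield of `ℚ̄` is the restriction of an element of `G_ℚ`. -/
theorem exists_gq_extending (K : IntermediateField ℚ Qbar) (f : ↥K →ₐ[ℚ] Qbar) :
    ∃ σ : GQ, ∀ x : ↥K, σ (x : Qbar) = f x := by
  have := normal_Qbar
  have hbij : Function.Bijective (f.liftNormal Qbar) :=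
    Algebra.IsAlgebraic.algHom_bijective _
  refine ⟨AlgEquiv.ofBijective (f.liftNormal Qbar) hbij, fun x => ?_⟩
  have := f.liftNormal_commutes Qbar x
  simpa using this

theorem fieldRange_eq_map (K : IntermediateField ℚ Qbar) (f : ↥K →ₐ[ℚ] Qbar) (σ : GQ)
    (hσ : ∀ x : ↥K, σ (x : Qbar) = f x) : f.fieldRange = K.map (σ : Qbar →ₐ[ℚ] Qbar) := by
  ext y
  rw [AlgHom.mem_fieldRange, IntermediateField.mem_map]
  constructor
  · rintro ⟨x, rfl⟩
    exact ⟨x, x.2, hσ x⟩
  · rintro ⟨x, hx, rfl⟩
    exact ⟨⟨x, hx⟩, (hσ ⟨x, hx⟩).symm⟩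

/-- **The normal closure of an unramified number field is unramified.** -/
theorem unramAt_normalClosure {l : ℕ} (K : IntermediateField ℚ Qbar) [FiniteDimensional ℚ K]
    (hK : UnramAt l K) : UnramAt l (IntermediateField.normalClosure ℚ K Qbar) := by
  rw [normalClosure_def]
  refine unramAt_iSup _ fun f => ?_
  obtain ⟨σ, hσ⟩ := exists_gq_extending K f
  rw [fieldRange_eq_map K f σ hσ]
  exact unramMap l K σ hK

/-- the `G_ℚ`-stability of the normal closure. -/
theorem stable_normalClosure (K : IntermediateField ℚ Qbar) (σ : GQ) (x : Qbar)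
    (hx : x ∈ IntermediateField.normalClosure ℚ K Qbar) :
    σ x ∈ IntermediateField.normalClosure ℚ K Qbar := by
  have := normal_Qbar
  have hn : Normal ℚ ↥(IntermediateField.normalClosure ℚ K Qbar) := normalClosure.normal ℚ (↥K) Qbar
  have hle := IntermediateField.normal_iff_forall_map_le'.mp hn σ
  exact hle ((IntermediateField.mem_map _).mpr ⟨x, hx, rfl⟩)

/-- **normal unramified enlargement.** -/
theorem exists_normal_unramAt {l : ℕ} (K : IntermediateField ℚ Qbar) [FiniteDimensional ℚ K]
    (hK : UnramAt l K) :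
    ∃ K' : IntermediateField ℚ Qbar, K ≤ K' ∧ FiniteDimensional ℚ K' ∧
      (∀ (σ : GQ) (x : Qbar), x ∈ K' → σ x ∈ K') ∧ UnramAt l K' :=
  ⟨IntermediateField.normalClosure ℚ K Qbar, IntermediateField.le_normalClosure K,
    inferInstance, stable_normalClosure K, unramAt_normalClosure K hK⟩

end Fermat.Agent.FFJ.Alg.UnramNormal92
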