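/-
FFJ / chapter ALG, brick UNRAM (helper92).  **A normal number field unramified at ONE place over `ℓ` is
unramified above `ℓ`.**

`unramAt_of_unramAtPlace`: `K` finite and normal over `ℚ`, `A` a valuation subring of `ℚ̄` over `ℓ`,
`SpecLocal78.UnramAtPlace A K` (a trace-dual family in `A ∩ K`)  ⟹  `Spec78.UnramAt ℓ K`.

Proof: all valuation subrings of `ℚ̄` over `ℓ` are conjugate under `G_ℚ` (`exists_conj`: they have the
same trace `ℤ_(ℓ)` on `ℚ` by `IntegralBot92`, then `ValConj75.exists_algEquiv_forall_mem_iff`), the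
conjugate family is a trace-dual family of `σ K = K` in `σ A`, and the local families patch
(`Patch92.unramAt_of_tdIn_of_conj`).
-/
import Mathlib
import Fermat.Agent.FFJ.Alg.Patch92
import Fermat.Agent.FFJ.Alg.SpecLocal78
import Fermat.Agent.FFJ.Alg.UnramNormal92
import Fermat.Agent.FFJ.Order.ValConj75

set_option autoImplicit false

noncomputable section

namespace Fermat.Agent.FFJ.Alg.LocalUnram92

open Fermat.Agent.FFJ.Alg.Spec78 Fermat.Agent.TW.FF.FlatModel68 Fermat.Agent.FFJ.Alg.Unram92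
open Fermat.Agent.FFJ.Alg.TDIn92 Fermat.Agent.FFJ.Alg.IntegralBot92 Fermat.Agent.FFJ.Alg.SpecLocal78

theorem isGalois_Qbar : IsGalois ℚ Qbar :=
  haveI := UnramNormal92.isAlgClosure_Qbar
  IsAlgClosure.isGalois ℚ Qbar

/-- two valuation subrings of `ℚ̄` over `ℓ` have the same rational elements. -/
theorem algebraMap_mem_iff {l : ℕ} (hl : l.Prime) {A A' : ValuationSubring Qbar}
    (hA : A.LiesOverPrime l) (hA' : A'.LiesOverPrime l) (q : ℚ) :
    algebraMap ℚ Qbar q ∈ A ↔ algebraMap ℚ Qbar q ∈ A' := by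
  have hbot : algebraMap ℚ Qbar q ∈ (⊥ : IntermediateField ℚ Qbar) :=
    IntermediateField.mem_bot.mpr ⟨q, rfl⟩
  exact ⟨fun h => integralAt_of_mem_bot hl hA hbot h A' hA',
    fun h => integralAt_of_mem_bot hl hA' hbot h A hA⟩

/-- **the valuation subrings of `ℚ̄` over `ℓ` are conjugate.** -/
theorem exists_conj {l : ℕ} (hl : l.Prime) {A A' : ValuationSubring Qbar}
    (hA : A.LiesOverPrime l) (hA' : A'.LiesOverPrime l) :
    ∃ σ : GQ, ∀ x, σ x ∈ A' ↔ x ∈ A := by
  have := isGalois_Qbar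
  exact Fermat.Agent.FFJ.Order.ValConj75.exists_algEquiv_forall_mem_iff (F := ℚ) (Ω := Qbar) A A'
    (algebraMap_mem_iff hl hA hA')

/-- **A normal number field unramified at one place over `ℓ` is unramified above `ℓ`.** -/
theorem unramAt_of_unramAtPlace {l : ℕ} (hl : l.Prime) (K : IntermediateField ℚ Qbar)
    [FiniteDimensional ℚ K] (hnorm : ∀ (σ : GQ) (x : Qbar), x ∈ K → σ x ∈ K)
    (A : ValuationSubring Qbar) (hA : A.LiesOverPrime l) (h : UnramAtPlace A K) : UnramAt l K := by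
  refine Patch92.unramAt_of_tdIn_of_conj hl K hnorm A (fun A' hA' => ?_) h
  obtain ⟨σ, hσ⟩ := exists_conj hl hA hA'
  exact ⟨σ, fun x hx => (hσ x).mpr hx⟩

/-- for a normal number field, `UnramAt ℓ K ↔ UnramAtPlace A K` (any `A` over `ℓ`). -/
theorem unramAt_iff_unramAtPlace {l : ℕ} (hl : l.Prime) (K : IntermediateField ℚ Qbar)
    [FiniteDimensional ℚ K] (hnorm : ∀ (σ : GQ) (x : Qbar), x ∈ K → σ x ∈ K)
    (A : ValuationSubring Qbar) (hA : A.LiesOverPrime l) : UnramAt l K ↔ UnramAtPlace A K :=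
  ⟨fun h => unramAtPlace_of_unramAt h hA, unramAt_of_unramAtPlace hl K hnorm A hA⟩

end Fermat.Agent.FFJ.Alg.LocalUnram92
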