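/-
FFJ / chapter ALG (helper78).  **The theorem of chapter ALG**: `Spec78.AlgStatement`, unconditionally.

`GeoInput ℓ M → FlatModel ℓ M (σ • ·)`: a function order for the finite `G_ℚ`-module `M` at one place of
one number field `K` (normal over `ℚ`, unramified above `ℓ` in the trace-dual sense `UnramAt`) descends to
a finite flat cocommutative Hopf algebra over `ℤ_(ℓ)` with `ℚ̄`-points `M`.

Assembly: `Wire78.algStatement_of_td` (Stab78 + Core78 + shell theorem) applied to helper92's
number-field brick `TD92.adaptedTD_of_unramAt`.
-/
import Fermat.Agent.FFJ.Alg.Wire78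
import Fermat.Agent.FFJ.Alg.TD92

set_option autoImplicit false

namespace Fermat.Agent.FFJ.Alg.Main78

open Fermat.Agent.FFJ.Alg.Spec78 Fermat.Agent.FFJ.Alg.Wire78

/-- the number-field brick holds (helper92). -/
theorem tdStatement : TDStatement := fun _ hl K hfd hnorm hunr A hA =>
  haveI := hfd
  Fermat.Agent.FFJ.Alg.TD92.adaptedTD_of_unramAt hl K hnorm hunr A hA

/-- **Chapter ALG.** -/
theorem algStatement : AlgStatement := algStatement_of_td tdStatement

end Fermat.Agent.FFJ.Alg.Main78
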