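/-
FFJ / chapter ALG (helper78).  **The theorem of chapter ALG, local form**: `SpecLocal78.AlgStatementLocal`.

`GeoInputLocal ℓ M → FlatModel ℓ M (σ • ·)`: as `Main78.algStatement`, but the number field `K` (finite and
normal over `ℚ`) is only required to be unramified AT THE ONE PLACE `A` which carries the function order
(`UnramAtPlace A K`).  `flatModel_of_adaptedTD` is the assembly for an arbitrary source of adapted
trace-dual families.
-/
import Fermat.Agent.FFJ.Alg.Wire78
import Fermat.Agent.FFJ.Alg.TDLocal78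

set_option autoImplicit false

noncomputable section

namespace Fermat.Agent.FFJ.Alg.MainLocal78

open Fermat.Agent.S19.Shell64 Fermat.Agent.TW.FF.FunOrder68 Fermat.Agent.TW.FF.FlatModel68
open Fermat.Agent.FFJ.Alg.Spec78 Fermat.Agent.FFJ.Alg.SpecLocal78 Fermat.Agent.FFJ.Alg.Defs78
open Fermat.Agent.FFJ.Alg.Wire78

/-- **Assembly**: a function order at the place `A ∩ K` of a finite normal `K`, together with adapted
trace-dual families for `(A ∩ K, G_K, ℓ)`, gives a flat model over `ℤ_(ℓ)`. -/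
theorem flatModel_of_adaptedTD {l : ℕ} [Fact l.Prime] {M : Type} [AddCommGroup M]
    [DistribMulAction GQ M] (K : IntermediateField ℚ Qbar) [FiniteDimensional ℚ K]
    (hnorm : ∀ (σ : GQ) (x : Qbar), x ∈ K → σ x ∈ K) (A : ValuationSubring Qbar)
    (hA : A.LiesOverPrime l)
    (hTD : AdaptedTD (F := ℚ) (A.toSubring ⊓ K.toSubring) K.fixingSubgroup ((l : ℕ) : Qbar))
    (H : Subalgebra (A.comap (algebraMap K Qbar)) (M → Qbar))
    (hH : @IsFunOrder (A.comap (algebraMap K Qbar)) K Qbar M _ _ _ _ _ _ (resMulAction K M) H) :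
    FlatModel l M (fun σ m => σ • m) := by
  have hl : l.Prime := Fact.out
  have hgal := isGalois_Qbar78
  have hfix : FixedFieldEqBase ℚ Qbar := fixedFieldEqBase_of_isGalois
  have hpid : IsPrincipalIdealRing (A.comap (algebraMap K Qbar)) :=
    Fermat.Agent.RED.DESC.NumberFieldDVR27.isPrincipalIdealRing_AK A K hl.ne_zero hA
  have hMfin : Finite M :=
    @Fermat.Agent.TW.FF.Closure68.IsFunOrder.finite_carrier (A.comap (algebraMap K Qbar)) K Qbar
      _ _ _ _ _ _ _ _ _ _ M _ (resMulAction K M) H hH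
  have hnormal := normal_fixingSubgroup K hnorm
  have hfi := finiteIndex_fixingSubgroup K
  have hsub := isSubOrder_of_isFunOrder K A H hH
  obtain ⟨H', -, hH', hstab⟩ := Stab78.exists_stable_order hsub
  have hRO : ∀ r : Zloc l, algebraMap (Zloc l) Qbar r ∈ A.toSubring ⊓ K.toSubring := by
    intro r
    refine ⟨algebraMap_zloc_mem A hA r, ?_⟩
    have h1 : algebraMap (Zloc l) Qbar r = algebraMap ℚ Qbar (r : ℚ) := rfl
    rw [h1]
    exact K.algebraMap_mem _
  have hOR : ∀ x : ℚ, algebraMap ℚ Qbar x ∈ A.toSubring ⊓ K.toSubring →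
      ∃ r : Zloc l, algebraMap (Zloc l) Qbar r = algebraMap ℚ Qbar x :=
    fun x hx => exists_zloc_of_mem A hA x hx.1
  have hϖeq : algebraMap (Zloc l) Qbar ((l : ℕ) : Zloc l) = ((l : ℕ) : Qbar) := map_natCast _ _
  have hscale : ∀ x : Qbar, (∀ σ ∈ K.fixingSubgroup, σ x = x) →
      ∃ N : ℕ, algebraMap (Zloc l) Qbar ((l : ℕ) : Zloc l) ^ N * x ∈ A.toSubring ⊓ K.toSubring := by
    intro x hx
    have hxK : x ∈ K := mem_of_fixed K hx
    obtain ⟨N, hN⟩ := exists_pow_mul_mem hl A hA x
    refine ⟨N, ?_, ?_⟩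
    · rw [hϖeq]
      exact hN
    · rw [hϖeq]
      exact K.mul_mem (pow_mem (natCast_mem K l) N) hxK
  have hTD' : AdaptedTD (F := ℚ) (A.toSubring ⊓ K.toSubring) K.fixingSubgroup
      (algebraMap (Zloc l) Qbar ((l : ℕ) : Zloc l)) := by
    rw [hϖeq]
    exact hTD
  have hϖ0 : ((l : ℕ) : Zloc l) ≠ 0 := Fermat.Agent.IG.VAL.Zl13.ell_ne_zero l
  have hord := Core78.isFunOrder_descentAlg (R := Zloc l) hfix hH' hstab hRO hOR hscale hTD' hϖ0
  exact hord.exists_model hfix

/-- **Chapter ALG, local form.** -/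
theorem algStatementLocal : AlgStatementLocal := by
  intro l _ M _ _ hgeo
  obtain ⟨K, hfd, hnorm, A, hA, hunr, H, hH⟩ := hgeo
  have hl : l.Prime := Fact.out
  exact flatModel_of_adaptedTD K hnorm A hA
    (TDLocal78.adaptedTD_of_unramAtPlace hl K hnorm A hA hunr) H hH

end Fermat.Agent.FFJ.Alg.MainLocal78
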