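/-
FFJ / chapter ALG (helper78).  **Spec addendum: ALG WITHOUT normality of the number field.**

`GeoInputNN ℓ M` = `SpecLocal78.GeoInputLocal ℓ M` without the clause "`K` is normal over `ℚ`":
`K ⊂ ℚ̄` is ANY finite extension of `ℚ`, unramified at the one place `A ∩ K` which carries the function
order (`SpecLocal78.UnramAtPlace A K`: the separability idempotent of `K/ℚ` is `∑ θ_a ⊗ θ'_a` with
`θ_a, θ'_a ∈ A ∩ K`; nothing is required at the other places of `K` over `ℓ`, nor of the normal closure
of `K`).  `AlgStatementNN : GeoInputNN ℓ M → FlatModel ℓ M (σ • ·)` is proved in `MainNN78`.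
-/
import Mathlib
import Fermat.Agent.FFJ.Alg.SpecLocal78

set_option autoImplicit false

noncomputable section

namespace Fermat.Agent.FFJ.Alg.SpecNN78

open Fermat.Agent.S19.Shell64 Fermat.Agent.TW.FF.FunOrder68 Fermat.Agent.TW.FF.FlatModel68
open Fermat.Agent.FFJ.Alg.Spec78 Fermat.Agent.FFJ.Alg.SpecLocal78

/-- **What GEO delivers, without normality**: a function order for `M` at one place `A ∩ K` of a
number field `K` which is unramified at that place. -/
def GeoInputNN (l : ℕ) (M : Type) [AddCommGroup M] [DistribMulAction GQ M] : Prop :=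
  ∃ (K : IntermediateField ℚ Qbar) (_ : FiniteDimensional ℚ K)
    (A : ValuationSubring Qbar) (_ : A.LiesOverPrime l) (_ : UnramAtPlace A K)
    (H : Subalgebra (A.comap (algebraMap K Qbar)) (M → Qbar)),
    @IsFunOrder (A.comap (algebraMap K Qbar)) K Qbar M _ _ _ _ _ _ (resMulAction K M) H

theorem geoInputNN_of_geoInputLocal {l : ℕ} {M : Type} [AddCommGroup M] [DistribMulAction GQ M]
    (h : GeoInputLocal l M) : GeoInputNN l M := by
  obtain ⟨K, hfd, -, A, hA, hunr, H, hH⟩ := h
  exact ⟨K, hfd, A, hA, hunr, H, hH⟩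

theorem geoInputNN_of_geoInput {l : ℕ} {M : Type} [AddCommGroup M] [DistribMulAction GQ M]
    (h : GeoInput l M) : GeoInputNN l M :=
  geoInputNN_of_geoInputLocal (geoInputLocal_of_geoInput h)

/-- **The theorem of chapter ALG, without normality.** -/
def AlgStatementNN : Prop :=
  ∀ (l : ℕ) [Fact l.Prime] (M : Type) [AddCommGroup M] [DistribMulAction GQ M],
    GeoInputNN l M → FlatModel l M (fun σ m => σ • m)

end Fermat.Agent.FFJ.Alg.SpecNN78
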