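/-
FFJ / chapter ALG (helper78).  **Extension of the coefficient ring of an order, and the stable
compositum with its minimality property.**

* `exists_extend_order` : an order over `O` for `𝒩` generates an order over any `O' ≥ O` for any
  `𝒩' ≤ 𝒩` fixing `O'` (the `O'`-algebra generated by it), and that algebra is minimal.
* `exists_stable_order_min` : `Stab78.exists_stable_order` together with the minimality of the stable
  order: it is contained in every `O`-subalgebra containing the conjugates `σ·h`, `σ ∈ Stab(O)`,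
  `h ∈ H`.
-/
import Mathlib
import Fermat.Agent.FFJ.Alg.Stab78

set_option autoImplicit false

noncomputable section

namespace Fermat.Agent.FFJ.Alg.StabMin78

open Fermat.Agent.S19.Shell64 Fermat.Agent.FFJ.Alg.Defs78 Fermat.Agent.FFJ.Alg.Stab78

variable {F L T : Type} [Field F] [Field L] [Algebra F L] [AddCommGroup T]
  [DistribMulAction (L ≃ₐ[F] L) T]

/-- **extension of the coefficient ring.** -/
theorem exists_extend_order {O O' : Subring L} {𝒩 𝒩' : Subgroup (L ≃ₐ[F] L)}
    {H : Subring (T → L)} (hH : IsSubOrder O 𝒩 H) (hOO' : O ≤ O') (h𝒩 : 𝒩' ≤ 𝒩)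
    (hfix : ∀ c ∈ O', ∀ σ ∈ 𝒩', σ c = c) :
    ∃ S : Subalgebra O' (T → L), IsAlgOrder 𝒩' S ∧ (∀ h ∈ H, h ∈ S) ∧
      ∀ P : Subalgebra O' (T → L), (∀ h ∈ H, h ∈ P) → S ≤ P := by
  classical
  set S : Subalgebra O' (T → L) := Algebra.adjoin O' (H : Set (T → L)) with hS
  have hHS : ∀ h ∈ H, h ∈ S := fun h hh => Algebra.subset_adjoin hh
  refine ⟨S, ⟨?_, ?_, ?_, ?_⟩, hHS, fun P hP => Algebra.adjoin_le hP⟩
  · -- finiteness
    obtain ⟨n, g, hgH, hgen⟩ := hH.fg
    have h1 : Subalgebra.toSubmodule S = Submodule.span O' (Set.range g) := by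
      rw [hS, Algebra.adjoin_eq_span]
      have h2 : Submonoid.closure (H : Set (T → L)) = H.toSubmonoid :=
        Submonoid.closure_eq H.toSubmonoid
      rw [h2]
      apply le_antisymm
      · refine Submodule.span_le.mpr ?_
        intro h hh
        obtain ⟨c, hc, hsum⟩ := hgen h hh
        rw [hsum]
        refine Submodule.sum_mem _ fun j _ => ?_
        have h3 : c j • g j = (⟨c j, hOO' (hc j)⟩ : O') • g j :=
          (subring_smul_eq (O := O') ⟨c j, hOO' (hc j)⟩ (g j)).symm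
        rw [h3]
        exact Submodule.smul_mem _ _ (Submodule.subset_span (Set.mem_range_self j))
      · refine Submodule.span_mono ?_
        rintro _ ⟨j, rfl⟩
        exact hgH j
    have h2 : (Subalgebra.toSubmodule S).FG := by
      rw [h1]
      exact Submodule.fg_span (Set.finite_range g)
    exact Module.Finite.iff_fg.mpr h2
  · have hle : S ≤ equivAlg O' 𝒩' hfix :=
      Algebra.adjoin_le fun h hh => (hH.equivariant h hh).mono h𝒩
    exact fun h hh => hle hh
  · intro m m' hmm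
    obtain ⟨h, hh, hne⟩ := hH.separates m m' hmm
    exact ⟨h, hHS h hh, hne⟩
  · have hle : S ≤ comulAlg S := by
      refine Algebra.adjoin_le fun h hh => ?_
      have h1 : HasComulIn (H : Set (T → L)) h := hasComulIn_iff_fin.mpr (hH.comul h hh)
      exact h1.mono fun f hf => hHS f hf
    exact fun h hh => hle hh

/-- **STAB with minimality**: every function order is contained in a stable one, which is generated
by the conjugates of the given order. -/
theorem exists_stable_order_min {O : Subring L} {𝒩 : Subgroup (L ≃ₐ[F] L)} [𝒩.Normal]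
    [𝒩.FiniteIndex] {H : Subring (T → L)} (hH : IsSubOrder O 𝒩 H) :
    ∃ H' : Subalgebra O (T → L), H ≤ H'.toSubring ∧ IsSubOrder O 𝒩 H'.toSubring ∧
      (∀ σ ∈ stab (F := F) O, ∀ h ∈ H', conjFun σ h ∈ H') ∧
      ∀ P : Subalgebra O (T → L), (∀ σ ∈ stab (F := F) O, ∀ h ∈ H, conjFun σ h ∈ P) → H' ≤ P := by
  classical
  cases nonempty_fintype ((L ≃ₐ[F] L) ⧸ 𝒩)
  set S := toAlg H hH.smul_mem with hSdef
  have hS : IsAlgOrder 𝒩 S := isAlgOrder_toAlg hH
  have h𝒩 : 𝒩 ≤ stab (F := F) O := hH.le_stab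
  let Q := (L ≃ₐ[F] L) ⧸ 𝒩
  let J : Finset Q := Finset.univ.filter fun q => q.out ∈ stab (F := F) O
  let Sfam : Q → Subalgebra O (T → L) := fun q =>
    if hq : q.out ∈ stab (F := F) O then conjAlg q.out hq S else S
  have hSfam : ∀ q (hq : q.out ∈ stab (F := F) O), Sfam q = conjAlg q.out hq S := by
    intro q hq
    simp only [Sfam, dif_pos hq]
  let q₀ : Q := ((1 : L ≃ₐ[F] L) : Q)
  have hq₀ : q₀.out ∈ 𝒩 := by
    have h2 : ((1 : L ≃ₐ[F] L) : Q) = ((q₀.out : L ≃ₐ[F] L) : Q) := by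
      rw [QuotientGroup.out_eq']
    simpa using QuotientGroup.eq.mp h2
  have hq₀J : q₀ ∈ J := Finset.mem_filter.mpr ⟨Finset.mem_univ _, h𝒩 hq₀⟩
  set S' := J.sup Sfam with hS'def
  have hS' : IsAlgOrder 𝒩 S' := by
    refine isAlgOrder_finset_sup J Sfam ⟨q₀, hq₀J⟩ fun q hq => ?_
    have hq' := (Finset.mem_filter.mp hq).2
    rw [hSfam q hq']
    exact hS.conj _ hq'
  have hle : ∀ q ∈ J, Sfam q ≤ S' := fun q hq => Finset.le_sup (f := Sfam) hq
  refine ⟨S', ?_, hS'.toSub, ?_, ?_⟩
  · intro h hh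
    have h1 : h ∈ Sfam q₀ := by
      rw [hSfam q₀ (h𝒩 hq₀)]
      exact ⟨h, hh, conjFun_eq_self (hH.equivariant h hh) hq₀⟩
    exact hle q₀ hq₀J h1
  · intro τ hτ h hh
    have hkey : S' ≤ pullAlg τ hτ S' := by
      refine Finset.sup_le fun q hq => ?_
      have hq' := (Finset.mem_filter.mp hq).2
      rw [hSfam q hq']
      rintro _ ⟨h₀, hh₀, rfl⟩
      show conjFun τ (conjFun q.out h₀) ∈ S'
      rw [← conjFun_mul, ← Core78.conjFun_out_smul (hH.equivariant h₀ hh₀)]
      have hmem : (τ • q).out ∈ stab (F := F) O := by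
        have h1 : ((τ * q.out : L ≃ₐ[F] L) : Q) = (((τ • q).out : L ≃ₐ[F] L) : Q) := by
          rw [QuotientGroup.out_eq']
          conv_rhs => rw [← QuotientGroup.out_eq' q]
          rfl
        have h2 : (τ * q.out)⁻¹ * (τ • q).out ∈ 𝒩 := QuotientGroup.eq.mp h1
        have h3 : (τ • q).out = (τ * q.out) * ((τ * q.out)⁻¹ * (τ • q).out) := by group
        rw [h3]
        exact (stab O).mul_mem ((stab O).mul_mem hτ hq') (h𝒩 h2)
      have hJ : τ • q ∈ J := Finset.mem_filter.mpr ⟨Finset.mem_univ _, hmem⟩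
      refine hle _ hJ ?_
      rw [hSfam _ hmem]
      exact ⟨h₀, hh₀, rfl⟩
    exact hkey hh
  · intro P hP
    refine Finset.sup_le fun q hq => ?_
    have hq' := (Finset.mem_filter.mp hq).2
    rw [hSfam q hq']
    rintro _ ⟨h₀, hh₀, rfl⟩
    exact hP _ hq' h₀ hh₀

end Fermat.Agent.FFJ.Alg.StabMin78
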