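/-
FFJ / chapter ALG (helper78).  **The theorem of chapter ALG without normality of `K`**:
`SpecNN78.AlgStatementNN`.

`K ⊂ ℚ̄` any finite extension of `ℚ`, unramified at the place `A ∩ K` (`UnramAtPlace A K`), `H` a
function order over `A ∩ K` for `G_K`.  Let `N` be the normal closure of `K` (it may be ramified at
`A`).  `H` is extended to `O_N = A ∩ N` (`StabMin78.exists_extend_order`), made stable under
`Stab(O_N)` (`StabMin78.exists_stable_order_min`), the key decomposition holds for the conjugates of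
`H` (`KeyNN78.conj_decomp`), hence for the whole stable order (minimality), and
`CoreKey78.isFunOrder_descentAlg_of_key` descends it to `ℤ_(ℓ)`.
-/
import Fermat.Agent.FFJ.Alg.SpecNN78
import Fermat.Agent.FFJ.Alg.CoreKey78
import Fermat.Agent.FFJ.Alg.StabMin78
import Fermat.Agent.FFJ.Alg.KeyNN78

set_option autoImplicit false

noncomputable section

namespace Fermat.Agent.FFJ.Alg.MainNN78

open Fermat.Agent.S19.Shell64 Fermat.Agent.TW.FF.FunOrder68 Fermat.Agent.TW.FF.FlatModel68
open Fermat.Agent.FFJ.Alg.Spec78 Fermat.Agent.FFJ.Alg.SpecLocal78 Fermat.Agent.FFJ.Alg.SpecNN78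
open Fermat.Agent.FFJ.Alg.Defs78 Fermat.Agent.FFJ.Alg.Wire78 Fermat.Agent.FFJ.Alg.Stab78
open Fermat.Agent.FFJ.Descent.EquivBasis78

/-- **Assembly**: a function order at the place `A ∩ K` of a finite extension `K` of `ℚ` which is
unramified at that place gives a flat model over `ℤ_(ℓ)`. -/
theorem flatModel_of_unramAtPlace {l : ℕ} [Fact l.Prime] {M : Type} [AddCommGroup M]
    [DistribMulAction GQ M] (K : IntermediateField ℚ Qbar) [FiniteDimensional ℚ K]
    (A : ValuationSubring Qbar) (hA : A.LiesOverPrime l) (hunr : UnramAtPlace A K)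
    (H : Subalgebra (A.comap (algebraMap K Qbar)) (M → Qbar))
    (hH : @IsFunOrder (A.comap (algebraMap K Qbar)) K Qbar M _ _ _ _ _ _ (resMulAction K M) H) :
    FlatModel l M (fun σ m => σ • m) := by
  classical
  have hl : l.Prime := Fact.out
  have hgal := isGalois_Qbar78
  have hfix : FixedFieldEqBase ℚ Qbar := fixedFieldEqBase_of_isGalois
  have hpid : IsPrincipalIdealRing (A.comap (algebraMap K Qbar)) :=
    Fermat.Agent.RED.DESC.NumberFieldDVR27.isPrincipalIdealRing_AK A K hl.ne_zero hA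
  have hMfin : Finite M :=
    @Fermat.Agent.TW.FF.Closure68.IsFunOrder.finite_carrier (A.comap (algebraMap K Qbar)) K Qbar
      _ _ _ _ _ _ _ _ _ _ M _ (resMulAction K M) H hH
  -- the normal closure
  have hnormalQ : Normal ℚ Qbar := hgal.to_normal
  set N : IntermediateField ℚ Qbar := IntermediateField.normalClosure ℚ K Qbar with hNdef
  have hKN : K ≤ N := K.le_normalClosure
  have hNfd : FiniteDimensional ℚ N := normalClosure.is_finiteDimensional ℚ K Qbar
  have hNnormal : Normal ℚ N := normalClosure.normal ℚ K Qbar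
  have hnormN : ∀ (σ : GQ) (x : Qbar), x ∈ N → σ x ∈ N := by
    intro σ x hx
    have h1 := (IntermediateField.normal_iff_forall_map_le' (K := N)).mp hNnormal σ
    exact h1 ⟨x, hx, rfl⟩
  have hnormal := normal_fixingSubgroup N hnormN
  have hfi := finiteIndex_fixingSubgroup N
  have hsub := isSubOrder_of_isFunOrder K A H hH
  -- extension to `O_N`
  have hOO' : A.toSubring ⊓ K.toSubring ≤ A.toSubring ⊓ N.toSubring :=
    fun x hx => ⟨hx.1, hKN hx.2⟩
  obtain ⟨S, hS, hHS, hSmin⟩ := StabMin78.exists_extend_order (O' := A.toSubring ⊓ N.toSubring)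
    (𝒩' := N.fixingSubgroup) hsub hOO' (IntermediateField.fixingSubgroup_le hKN)
    (fun c hc σ hσ => (IntermediateField.mem_fixingSubgroup_iff N σ).mp hσ _ hc.2)
  -- the stable order
  obtain ⟨H', hSH', hH', hstab, hmin⟩ := StabMin78.exists_stable_order_min hS.toSub
  have hHH' : H.toSubring ≤ H'.toSubring := fun h hh => hSH' (hHS h hh)
  -- the subalgebra spanned by the equivariant members of `H'`
  set E : Subring (M → Qbar) := H'.toSubring ⊓ (equivariantSubalgebra ℚ Qbar M).toSubring with hE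
  have hEmem : ∀ g : M → Qbar, g ∈ E ↔ g ∈ H' ∧ IsEquivariantFun ℚ g := fun g => Iff.rfl
  set P : Subalgebra (A.toSubring ⊓ N.toSubring : Subring Qbar) (M → Qbar) :=
    Algebra.adjoin _ (E : Set (M → Qbar)) with hP
  have hPspan : Subalgebra.toSubmodule P = Submodule.span _ (E : Set (M → Qbar)) := by
    rw [hP, Algebra.adjoin_eq_span]
    have h2 : Submonoid.closure (E : Set (M → Qbar)) = E.toSubmonoid :=
      Submonoid.closure_eq E.toSubmonoid
    rw [h2]
    rfl
  have hconjP : ∀ σ ∈ stab (F := ℚ) (A.toSubring ⊓ N.toSubring), ∀ h ∈ H.toSubring,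
      conjFun σ h ∈ P := by
    intro σ hσ h hh
    obtain ⟨n, x, u, hx, hu, hdec⟩ := KeyNN78.conj_decomp hl K N hKN hnormN A hA hunr hsub hH'
      hHH' hstab hσ hh
    rw [hdec]
    refine P.sum_mem fun a _ => ?_
    have h1 : x a • u a = (⟨x a, hx a⟩ : (A.toSubring ⊓ N.toSubring : Subring Qbar)) • u a :=
      (subring_smul_eq (O := A.toSubring ⊓ N.toSubring) ⟨x a, hx a⟩ (u a)).symm
    rw [h1]
    exact P.smul_mem (Algebra.subset_adjoin ((hEmem _).mpr (hu a))) _
  have hH'P : H' ≤ P := by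
    refine hmin P fun σ hσ h hh => ?_
    have h1 : S ≤ pullAlg σ hσ P := hSmin _ fun h₀ hh₀ => hconjP σ hσ h₀ hh₀
    exact h1 hh
  have key : ∀ g ∈ H'.toSubring, ∃ (n : ℕ) (x : Fin n → Qbar) (u : Fin n → M → Qbar),
      (∀ a, x a ∈ A.toSubring ⊓ N.toSubring) ∧
      (∀ a, u a ∈ H'.toSubring ∧ IsEquivariantFun ℚ (u a)) ∧ g = ∑ a, x a • u a := by
    intro g hg
    have h1 : g ∈ Subalgebra.toSubmodule P := hH'P hg
    rw [hPspan] at h1
    obtain ⟨n, f, u, hsum⟩ := Submodule.mem_span_set'.mp h1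
    refine ⟨n, fun a => ((f a : (A.toSubring ⊓ N.toSubring : Subring Qbar)) : Qbar),
      fun a => (u a : M → Qbar), fun a => (f a).2, fun a => (hEmem _).mp (u a).2, ?_⟩
    rw [← hsum]
    exact Finset.sum_congr rfl fun a _ => subring_smul_eq _ _
  -- the hypotheses of the descent theorem
  have hRO : ∀ r : Zloc l, algebraMap (Zloc l) Qbar r ∈ A.toSubring ⊓ N.toSubring := by
    intro r
    refine ⟨algebraMap_zloc_mem A hA r, ?_⟩
    have h1 : algebraMap (Zloc l) Qbar r = algebraMap ℚ Qbar (r : ℚ) := rfl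
    rw [h1]
    exact N.algebraMap_mem _
  have hOR : ∀ x : ℚ, algebraMap ℚ Qbar x ∈ A.toSubring ⊓ N.toSubring →
      ∃ r : Zloc l, algebraMap (Zloc l) Qbar r = algebraMap ℚ Qbar x :=
    fun x hx => exists_zloc_of_mem A hA x hx.1
  have hϖeq : algebraMap (Zloc l) Qbar ((l : ℕ) : Zloc l) = ((l : ℕ) : Qbar) := map_natCast _ _
  have hscale : ∀ x : Qbar, (∀ σ ∈ N.fixingSubgroup, σ x = x) →
      ∃ k : ℕ, algebraMap (Zloc l) Qbar ((l : ℕ) : Zloc l) ^ k * x ∈ A.toSubring ⊓ N.toSubring := by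
    intro x hx
    have hxN : x ∈ N := mem_of_fixed N hx
    obtain ⟨k, hk⟩ := exists_pow_mul_mem hl A hA x
    refine ⟨k, ?_, ?_⟩
    · rw [hϖeq]
      exact hk
    · rw [hϖeq]
      exact N.mul_mem (pow_mem (natCast_mem N l) k) hxN
  have hϖ0 : ((l : ℕ) : Zloc l) ≠ 0 := Fermat.Agent.IG.VAL.Zl13.ell_ne_zero l
  have hord := CoreKey78.isFunOrder_descentAlg_of_key (R := Zloc l) hfix hH' hRO hOR hscale key hϖ0
  exact hord.exists_model hfix

/-- **Chapter ALG, without normality.** -/
theorem algStatementNN : AlgStatementNN := by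
  intro l _ M _ _ hgeo
  obtain ⟨K, hfd, A, hA, hunr, H, hH⟩ := hgeo
  exact flatModel_of_unramAtPlace K A hA hunr H hH

end Fermat.Agent.FFJ.Alg.MainNN78
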