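/-
FFJ / chapter ALG, export for programme MAZ (marks at the prime `2`).  Owner: helper37.

**The congruences of the points of the descended order.**

`MainNN78.flatModel_of_unramAtPlace` turns a function order `H` over `A ∩ K` (equivariant for `G_K`
only) into the order `D` over `ℤ_(ℓ)` of the `G_ℚ`-equivariant members of the stable order `H'`
generated by the conjugates of `H`.  The congruences of the points modulo the maximal ideal of `A`
change in a controlled way:

  `m ≡ m'  (D)`   iff   `ρ⁻¹ m ≡ ρ⁻¹ m'  (H)` for every `ρ` in the decomposition group of `A`,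

so the kernel of reduction of `D` is the largest subgroup of the kernel of reduction of `H` which
is stable under the decomposition group.  `exists_descentOrder_cong` is
`MainNN78.flatModel_of_unramAtPlace` with this extra conjunct (the flat model is
`IsFunOrder.exists_model` of the order `D`).
-/
import Mathlib
import Fermat.Agent.FFJ.Alg.MainNN78

set_option autoImplicit false
set_option linter.style.haveILetI false

noncomputable section

namespace Fermat.Agent.FFJ.Alg.MainNNCong37

open Fermat.Agent.S19.Shell64 Fermat.Agent.TW.FF.FunOrder68 Fermat.Agent.TW.FF.FlatModel68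
open Fermat.Agent.FFJ.Alg.Spec78 Fermat.Agent.FFJ.Alg.SpecLocal78 Fermat.Agent.FFJ.Alg.SpecNN78
open Fermat.Agent.FFJ.Alg.Defs78 Fermat.Agent.FFJ.Alg.Wire78 Fermat.Agent.FFJ.Alg.Stab78
open Fermat.Agent.FFJ.Descent.EquivBasis78

/-! ### Non-units of a valuation subring -/

section Nonunits

variable {Ω : Type} [Field Ω] (A : ValuationSubring Ω)

theorem mul_mem_nonunits {a x : Ω} (ha : a ∈ A) (hx : x ∈ A.nonunits) : a * x ∈ A.nonunits := by
  rw [A.mem_nonunits_iff] at hx ⊢
  have h1 : A.valuation a ≤ 1 := (A.valuation_le_one_iff a).mpr ha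
  calc A.valuation (a * x) = A.valuation a * A.valuation x := map_mul _ _ _
    _ ≤ 1 * A.valuation x := mul_le_mul_left h1 _
    _ = A.valuation x := one_mul _
    _ < 1 := hx

theorem mul_mem_nonunits' {a x : Ω} (hx : x ∈ A.nonunits) (ha : a ∈ A) : x * a ∈ A.nonunits := by
  rw [mul_comm]
  exact mul_mem_nonunits A ha hx

/-- an automorphism stabilising `A` stabilises its non-units. -/
theorem map_mem_nonunits_iff {F : Type} [Field F] [Algebra F Ω] (ρ : Ω ≃ₐ[F] Ω)
    (hρ : ∀ x : Ω, ρ x ∈ A ↔ x ∈ A) (z : Ω) : ρ z ∈ A.nonunits ↔ z ∈ A.nonunits := by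
  rw [A.mem_nonunits_iff_or, A.mem_nonunits_iff_or, ← map_inv₀, hρ,
    map_eq_zero_iff ρ ρ.injective]

end Nonunits

/-! ### The functions congruent at two points -/

section CongAlg

variable (A : ValuationSubring Qbar) (O : Subring Qbar) (hO : O ≤ A.toSubring) {M : Type}

/-- the functions with values in `A` at `m` and `m'`, congruent modulo the maximal ideal. -/
def congAlg (m m' : M) : Subalgebra O (M → Qbar) where
  carrier := {g | g m ∈ A ∧ g m' ∈ A ∧ g m - g m' ∈ A.nonunits}
  mul_mem' := by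
    rintro g g' ⟨h1, h2, h3⟩ ⟨h1', h2', h3'⟩
    refine ⟨A.mul_mem _ _ h1 h1', A.mul_mem _ _ h2 h2', ?_⟩
    have e : (g * g') m - (g * g') m' = g m * (g' m - g' m') + (g m - g m') * g' m' := by
      simp only [Pi.mul_apply]
      ring
    rw [e]
    exact A.nonunits.add_mem (mul_mem_nonunits A h1 h3') (mul_mem_nonunits' A h3 h2')
  add_mem' := by
    rintro g g' ⟨h1, h2, h3⟩ ⟨h1', h2', h3'⟩
    refine ⟨A.add_mem _ _ h1 h1', A.add_mem _ _ h2 h2', ?_⟩
    have e : (g + g') m - (g + g') m' = (g m - g m') + (g' m - g' m') := by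
      simp only [Pi.add_apply]
      ring
    rw [e]
    exact A.nonunits.add_mem h3 h3'
  algebraMap_mem' := by
    intro c
    have h1 : ∀ x : M, (algebraMap O (M → Qbar) c) x = (c : Qbar) := fun x => rfl
    refine ⟨?_, ?_, ?_⟩
    · rw [h1]
      exact hO c.2
    · rw [h1]
      exact hO c.2
    · rw [h1, h1, sub_self]
      exact A.nonunits.zero_mem

variable {A O hO}

theorem mem_congAlg {m m' : M} {g : M → Qbar} :
    g ∈ congAlg A O hO m m' ↔ g m ∈ A ∧ g m' ∈ A ∧ g m - g m' ∈ A.nonunits := Iff.rfl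

end CongAlg

/-! ### The descended order and its congruences -/

section Values

variable {K : IntermediateField ℚ Qbar} {A : ValuationSubring Qbar} {M : Type} [AddCommGroup M]
  [DistribMulAction GQ M]

/-- the values of the functions of a function order over `A ∩ K` lie in `A`. -/
theorem apply_mem_of_isFunOrder (H : Subalgebra (A.comap (algebraMap K Qbar)) (M → Qbar))
    (hH : @IsFunOrder (A.comap (algebraMap K Qbar)) K Qbar M _ _ _ _ _ _ (resMulAction K M) H)
    {h : M → Qbar} (hh : h ∈ H) (x : M) : h x ∈ A := by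
  letI := resMulAction K M
  have hfin : Module.Finite (A.comap (algebraMap K Qbar)) H := hH.finite
  have hint : IsIntegral (A.comap (algebraMap K Qbar)) (⟨h, hh⟩ : H) :=
    Algebra.IsIntegral.isIntegral _
  have hint0 : IsIntegral (A.comap (algebraMap K Qbar)) (h x) :=
    hint.map ((Pi.evalAlgHom (A.comap (algebraMap K Qbar)) (fun _ : M => Qbar) x).comp H.val)
  refine Fermat.Agent.FFJ.Order.ValConj75.mem_valuationSubring_of_isIntegral A (fun a => ?_) hint0
  exact ValuationSubring.mem_comap.mp a.2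

end Values

/-- **The descended order with its congruences.**  `MainNN78.flatModel_of_unramAtPlace` with the
order `D` over `ℤ_(ℓ)` kept, together with the description of the congruences of its points modulo
the maximal ideal of `A` in terms of those of the given order `H` over `A ∩ K`. -/
theorem exists_descentOrder_cong {l : ℕ} [Fact l.Prime] {M : Type} [AddCommGroup M]
    [DistribMulAction GQ M] (K : IntermediateField ℚ Qbar) [FiniteDimensional ℚ K]
    (A : ValuationSubring Qbar) (hA : A.LiesOverPrime l) (hunr : UnramAtPlace A K)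
    (H : Subalgebra (A.comap (algebraMap K Qbar)) (M → Qbar))
    (hH : @IsFunOrder (A.comap (algebraMap K Qbar)) K Qbar M _ _ _ _ _ _ (resMulAction K M) H) :
    ∃ D : Subalgebra (Zloc l) (M → Qbar), IsFunOrder (Zloc l) ℚ D ∧
      ∀ m m' : M, (∀ g ∈ D, g m - g m' ∈ A.nonunits) ↔
        ∀ ρ ∈ stab (F := ℚ) A.toSubring, ∀ h ∈ H,
          h (ρ⁻¹ • m) - h (ρ⁻¹ • m') ∈ A.nonunits := by
  classical
  have hl : l.Prime := Fact.out
  have hgal := isGalois_Qbar78
  have hfix : FixedFieldEqBase ℚ Qbar := fixedFieldEqBase_of_isGalois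
  have hpid : IsPrincipalIdealRing (A.comap (algebraMap K Qbar)) :=
    Fermat.Agent.RED.DESC.NumberFieldDVR27.isPrincipalIdealRing_AK A K hl.ne_zero hA
  have hMfin : Finite M :=
    @Fermat.Agent.TW.FF.Closure68.IsFunOrder.finite_carrier (A.comap (algebraMap K Qbar)) K Qbar
      _ _ _ _ _ _ _ _ _ _ M _ (resMulAction K M) H hH
  -- the normal closure
  have hnormalQ : Normal ℚ Qbar := hgal.to_normal
  set N : IntermediateField ℚ Qbar := IntermediateField.normalClosure ℚ K Qbar with hNdef
  have hKN : K ≤ N := K.le_normalClosure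
  have hNfd : FiniteDimensional ℚ N := normalClosure.is_finiteDimensional ℚ K Qbar
  have hNnormal : Normal ℚ N := normalClosure.normal ℚ K Qbar
  have hnormN : ∀ (σ : GQ) (x : Qbar), x ∈ N → σ x ∈ N := by
    intro σ x hx
    have h1 := (IntermediateField.normal_iff_forall_map_le' (K := N)).mp hNnormal σ
    exact h1 ⟨x, hx, rfl⟩
  have hnormal := normal_fixingSubgroup N hnormN
  have hfi := finiteIndex_fixingSubgroup N
  have hsub := isSubOrder_of_isFunOrder K A H hH
  -- extension to `O_N`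
  have hOO' : A.toSubring ⊓ K.toSubring ≤ A.toSubring ⊓ N.toSubring :=
    fun x hx => ⟨hx.1, hKN hx.2⟩
  obtain ⟨S, hS, hHS, hSmin⟩ := StabMin78.exists_extend_order (O' := A.toSubring ⊓ N.toSubring)
    (𝒩' := N.fixingSubgroup) hsub hOO' (IntermediateField.fixingSubgroup_le hKN)
    (fun c hc σ hσ => (IntermediateField.mem_fixingSubgroup_iff N σ).mp hσ _ hc.2)
  -- the stable order
  obtain ⟨H', hSH', hH', hstab, hmin⟩ := StabMin78.exists_stable_order_min hS.toSub
  have hHH' : H.toSubring ≤ H'.toSubring := fun h hh => hSH' (hHS h hh)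
  -- the subalgebra spanned by the equivariant members of `H'`
  set E : Subring (M → Qbar) := H'.toSubring ⊓ (equivariantSubalgebra ℚ Qbar M).toSubring with hE
  have hEmem : ∀ g : M → Qbar, g ∈ E ↔ g ∈ H' ∧ IsEquivariantFun ℚ g := fun g => Iff.rfl
  set P : Subalgebra (A.toSubring ⊓ N.toSubring : Subring Qbar) (M → Qbar) :=
    Algebra.adjoin _ (E : Set (M → Qbar)) with hP
  have hPspan : Subalgebra.toSubmodule P = Submodule.span _ (E : Set (M → Qbar)) := by
    rw [hP, Algebra.adjoin_eq_span]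
    have h2 : Submonoid.closure (E : Set (M → Qbar)) = E.toSubmonoid :=
      Submonoid.closure_eq E.toSubmonoid
    rw [h2]
    rfl
  have hconjP : ∀ σ ∈ stab (F := ℚ) (A.toSubring ⊓ N.toSubring), ∀ h ∈ H.toSubring,
      conjFun σ h ∈ P := by
    intro σ hσ h hh
    obtain ⟨n, x, u, hx, hu, hdec⟩ := KeyNN78.conj_decomp hl K N hKN hnormN A hA hunr hsub hH'
      hHH' hstab hσ hh
    rw [hdec]
    refine P.sum_mem fun a _ => ?_
    have h1 : x a • u a = (⟨x a, hx a⟩ : (A.toSubring ⊓ N.toSubring : Subring Qbar)) • u a :=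
      (subring_smul_eq (O := A.toSubring ⊓ N.toSubring) ⟨x a, hx a⟩ (u a)).symm
    rw [h1]
    exact P.smul_mem (Algebra.subset_adjoin ((hEmem _).mpr (hu a))) _
  have hH'P : H' ≤ P := by
    refine hmin P fun σ hσ h hh => ?_
    have h1 : S ≤ pullAlg σ hσ P := hSmin _ fun h₀ hh₀ => hconjP σ hσ h₀ hh₀
    exact h1 hh
  have key : ∀ g ∈ H'.toSubring, ∃ (n : ℕ) (x : Fin n → Qbar) (u : Fin n → M → Qbar),
      (∀ a, x a ∈ A.toSubring ⊓ N.toSubring) ∧
      (∀ a, u a ∈ H'.toSubring ∧ IsEquivariantFun ℚ (u a)) ∧ g = ∑ a, x a • u a := by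
    intro g hg
    have h1 : g ∈ Subalgebra.toSubmodule P := hH'P hg
    rw [hPspan] at h1
    obtain ⟨n, f, u, hsum⟩ := Submodule.mem_span_set'.mp h1
    refine ⟨n, fun a => ((f a : (A.toSubring ⊓ N.toSubring : Subring Qbar)) : Qbar),
      fun a => (u a : M → Qbar), fun a => (f a).2, fun a => (hEmem _).mp (u a).2, ?_⟩
    rw [← hsum]
    exact Finset.sum_congr rfl fun a _ => subring_smul_eq _ _
  -- the hypotheses of the descent theorem
  have hRO : ∀ r : Zloc l, algebraMap (Zloc l) Qbar r ∈ A.toSubring ⊓ N.toSubring := by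
    intro r
    refine ⟨algebraMap_zloc_mem A hA r, ?_⟩
    have h1 : algebraMap (Zloc l) Qbar r = algebraMap ℚ Qbar (r : ℚ) := rfl
    rw [h1]
    exact N.algebraMap_mem _
  have hOR : ∀ x : ℚ, algebraMap ℚ Qbar x ∈ A.toSubring ⊓ N.toSubring →
      ∃ r : Zloc l, algebraMap (Zloc l) Qbar r = algebraMap ℚ Qbar x :=
    fun x hx => exists_zloc_of_mem A hA x hx.1
  have hϖeq : algebraMap (Zloc l) Qbar ((l : ℕ) : Zloc l) = ((l : ℕ) : Qbar) := map_natCast _ _
  have hscale : ∀ x : Qbar, (∀ σ ∈ N.fixingSubgroup, σ x = x) →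
      ∃ k : ℕ, algebraMap (Zloc l) Qbar ((l : ℕ) : Zloc l) ^ k * x ∈ A.toSubring ⊓ N.toSubring := by
    intro x hx
    have hxN : x ∈ N := mem_of_fixed N hx
    obtain ⟨k, hk⟩ := exists_pow_mul_mem hl A hA x
    refine ⟨k, ?_, ?_⟩
    · rw [hϖeq]
      exact hk
    · rw [hϖeq]
      exact N.mul_mem (pow_mem (natCast_mem N l) k) hxN
  have hϖ0 : ((l : ℕ) : Zloc l) ≠ 0 := Fermat.Agent.IG.VAL.Zl13.ell_ne_zero l
  have hord := CoreKey78.isFunOrder_descentAlg_of_key (R := Zloc l) hfix hH' hRO hOR hscale key hϖ0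
  refine ⟨_, hord, fun m m' => ⟨fun hD ρ hρ h hh => ?_, fun hRel g hg => ?_⟩⟩
  · -- the conjugate `ρ·h` lies in `H'`, hence is an `O_N`-combination of members of `D`
    have hρN := KeyNN78.stab_le_stab_inf N hnormN A hρ
    have h1 : conjFun ρ h ∈ H'.toSubring := hstab ρ hρN h (hHH' hh)
    obtain ⟨n, x, u, hx, hu, hdec⟩ := key _ h1
    have h2 : conjFun ρ h m - conjFun ρ h m' ∈ A.nonunits := by
      rw [hdec]
      simp only [Finset.sum_apply, Pi.smul_apply, smul_eq_mul]
      rw [← Finset.sum_sub_distrib]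
      refine A.nonunits.sum_mem fun a _ => ?_
      rw [← mul_sub]
      exact mul_mem_nonunits A (hx a).1 (hD (u a) (Core78.mem_descentAlg.mpr (hu a)))
    rw [conjFun_apply, conjFun_apply, ← map_sub] at h2
    exact (map_mem_nonunits_iff A ρ (mem_stab.mp hρ) _).mp h2
  · -- every member of `H'` respects the relation
    have hON : (A.toSubring ⊓ N.toSubring : Subring Qbar) ≤ A.toSubring := inf_le_left
    -- the members of `S` respect it after every `ρ⁻¹`
    have hS2 : ∀ ρ ∈ stab (F := ℚ) A.toSubring, ∀ s ∈ S,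
        s ∈ congAlg A _ hON (ρ⁻¹ • m) (ρ⁻¹ • m') := by
      intro ρ hρ s hs
      have h1 : S ≤ congAlg A _ hON (ρ⁻¹ • m) (ρ⁻¹ • m') := by
        refine hSmin _ fun h hh => ?_
        exact ⟨apply_mem_of_isFunOrder H hH hh _, apply_mem_of_isFunOrder H hH hh _,
          hRel ρ hρ h hh⟩
      exact h1 hs
    have h3 : H' ≤ congAlg A _ hON m m' := by
      refine hmin _ fun σ hσ s hs => ?_
      -- `σ = δ ν` with `δ` stabilising `A` and `ν` fixing `N`
      have hAK : Fermat.Agent.RED.Interface4.AK (Fermat.Agent.FFJ.Alg.TD92.conjA A σ) N = Fermat.Agent.RED.Interface4.AK A N := by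
        ext a
        rw [Fermat.Agent.RED.DESC.NumberFieldDVR27.mem_AK_iff,
          Fermat.Agent.RED.DESC.NumberFieldDVR27.mem_AK_iff, Fermat.Agent.FFJ.Alg.TD92.mem_conjA]
        have h4 := mem_stab.mp hσ (a : Qbar)
        constructor
        · intro h5
          exact (h4.mp ⟨h5, hnormN σ _ a.2⟩).1
        · intro h5
          exact (h4.mpr ⟨h5, a.2⟩).1
      obtain ⟨δ, hδ, ν, hν, hσeq⟩ := KeyNN78.exists_stab_mul_of_AK_eq N A σ hAK
      have hsN : IsEquivFor N.fixingSubgroup s := hS.toSub.equivariant s hs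
      have e1 : conjFun σ s = conjFun δ s := by
        rw [hσeq, conjFun_mul_of_mem hsN δ hν]
      rw [e1]
      obtain ⟨h5, h6, h7⟩ := hS2 δ hδ s hs
      refine ⟨?_, ?_, ?_⟩
      · rw [conjFun_apply]
        exact (mem_stab.mp hδ _).mpr h5
      · rw [conjFun_apply]
        exact (mem_stab.mp hδ _).mpr h6
      · rw [conjFun_apply, conjFun_apply, ← map_sub]
        exact (map_mem_nonunits_iff A δ (mem_stab.mp hδ) _).mpr h7
    exact (h3 (Core78.mem_descentAlg.mp hg).1).2.2


/-- the same for the kernel of reduction (`m' = 0`). -/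
theorem exists_descentOrder_cong_zero {l : ℕ} [Fact l.Prime] {M : Type} [AddCommGroup M]
    [DistribMulAction GQ M] (K : IntermediateField ℚ Qbar) [FiniteDimensional ℚ K]
    (A : ValuationSubring Qbar) (hA : A.LiesOverPrime l) (hunr : UnramAtPlace A K)
    (H : Subalgebra (A.comap (algebraMap K Qbar)) (M → Qbar))
    (hH : @IsFunOrder (A.comap (algebraMap K Qbar)) K Qbar M _ _ _ _ _ _ (resMulAction K M) H) :
    ∃ D : Subalgebra (Zloc l) (M → Qbar), IsFunOrder (Zloc l) ℚ D ∧
      (∀ m m' : M, (∀ g ∈ D, g m - g m' ∈ A.nonunits) ↔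
        ∀ ρ ∈ stab (F := ℚ) A.toSubring, ∀ h ∈ H,
          h (ρ⁻¹ • m) - h (ρ⁻¹ • m') ∈ A.nonunits) ∧
      ∀ m : M, (∀ g ∈ D, g m - g 0 ∈ A.nonunits) ↔
        ∀ ρ ∈ stab (F := ℚ) A.toSubring, ∀ h ∈ H, h (ρ⁻¹ • m) - h 0 ∈ A.nonunits := by
  obtain ⟨D, hD, hcong⟩ := exists_descentOrder_cong K A hA hunr H hH
  refine ⟨D, hD, hcong, fun m => ?_⟩
  rw [hcong m 0]
  constructor
  · intro h ρ hρ f hf
    have := h ρ hρ f hf
    rwa [smul_zero] at this
  · intro h ρ hρ f hf
    rw [smul_zero]
    exact h ρ hρ f hf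

/-- the flat model of `MainNN78.flatModel_of_unramAtPlace` is the model of the order `D`. -/
theorem flatModel_of_descentOrder {l : ℕ} [Fact l.Prime] {M : Type} [AddCommGroup M]
    [DistribMulAction GQ M] {D : Subalgebra (Zloc l) (M → Qbar)} (hD : IsFunOrder (Zloc l) ℚ D) :
    FlatModel l M (fun σ m => σ • m) :=
  hD.exists_model (@fixedFieldEqBase_of_isGalois _ _ _ _ _ isGalois_Qbar78)

end Fermat.Agent.FFJ.Alg.MainNNCong37
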