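/-
FFJ / chapter ALG, brick RESFIELD (helper82; assignment COORD #2b (8) of helper35).

* `exists_normal_unram` : a finite extension `K ⊂ ℚ̄` of `ℚ` which is unramified above `ℓ`
  (`Spec78.UnramAt`) is contained in a finite extension which is moreover stable under `G_ℚ`
  (its normal closure: `unramMap` + `unramSup`).
* `exists_unram_large_resField` : for `A` over `ℓ`, `K₁` finite and unramified above `ℓ`, and any
  `N`, there is a finite `K' ⊇ K₁`, unramified above `ℓ`, (stable under `G_ℚ` if `K₁` is), such that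
  the residue field of `A ∩ K'` has more than `N` elements.  (`K' = K₁(ζ_m)`, `m > N` a prime `≠ ℓ`:
  the `m` powers of `ζ_m` are pairwise distinct modulo the maximal ideal because
  `∏_{0<k<m} (1 - ζ^k) = m` is a unit of `A`.)
* `exists_unram_normal_large_resField` : both at once, no stability hypothesis on `K₁`.
-/
import Mathlib
import Fermat.Agent.FFJ.Alg.Spec78
import Fermat.Agent.FFJ.Alg.Unram92
import Fermat.Agent.RED.DESC.NumberFieldDVR27

set_option autoImplicit false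
set_option linter.unusedSectionVars false
set_option linter.style.haveILetI false

noncomputable section

namespace Fermat.Agent.FFJ.Alg.ResField82

open Fermat.Agent.FFJ.Alg.Spec78 Fermat.Agent.FFJ.Alg.Unram92 Fermat.Agent.TW.FF.FlatModel68
open Polynomial IntermediateField

/-! ### Instances for the default `ℚ`-algebra structure of `ℚ̄` -/

/-- `ℚ̄` is an algebraic closure of `ℚ` for the default `ℚ`-algebra structure
(`DivisionRing.toRatAlgebra`, the one found by instance search). -/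
theorem isAlgClosure_Qbar : IsAlgClosure ℚ Qbar := by
  have : (DivisionRing.toRatAlgebra : Algebra ℚ (AlgebraicClosure ℚ))
      = AlgebraicClosure.instAlgebra ℚ := Subsingleton.elim _ _
  rw [this]
  infer_instance

theorem normal_Qbar : Normal ℚ Qbar :=
  haveI := isAlgClosure_Qbar
  IsAlgClosure.normal ℚ Qbar

theorem isAlgebraic_Qbar : Algebra.IsAlgebraic ℚ Qbar :=
  haveI := isAlgClosure_Qbar
  IsAlgClosure.isAlgebraic

attribute [local instance] isAlgClosure_Qbar normal_Qbar isAlgebraic_Qbar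

/-! ### Finite composita and the normal closure -/

theorem unramAt_biSup {ι : Type*} (l : ℕ) (s : Finset ι) (F : ι → IntermediateField ℚ Qbar)
    (h : ∀ i ∈ s, UnramAt l (F i)) : UnramAt l (⨆ i ∈ s, F i) := by
  classical
  induction s using Finset.induction_on with
  | empty =>
    simp only [Finset.notMem_empty, iSup_false, iSup_bot]
    exact unramBot l
  | insert a s ha ih =>
    rw [Finset.iSup_insert]
    exact unramSup l _ _ (h a (Finset.mem_insert_self a s))
      (ih fun i hi => h i (Finset.mem_insert_of_mem hi))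

/-- every embedding of `K` in `ℚ̄` is the restriction of an element of `G_ℚ`. -/
theorem exists_gal_map_eq (K : IntermediateField ℚ Qbar) (f : K →ₐ[ℚ] Qbar) :
    ∃ σ : GQ, f.fieldRange = K.map (σ : Qbar →ₐ[ℚ] Qbar) := by
  let σ₀ : Qbar →ₐ[ℚ] Qbar := f.liftNormal Qbar
  let σ : GQ := AlgEquiv.ofBijective σ₀ (Algebra.IsAlgebraic.algHom_bijective σ₀)
  refine ⟨σ, ?_⟩
  ext y
  constructor
  · rintro ⟨x, rfl⟩
    refine ⟨(x : Qbar), x.2, ?_⟩
    exact f.liftNormal_commutes Qbar x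
  · rintro ⟨x, hx, rfl⟩
    refine ⟨⟨x, hx⟩, ?_⟩
    exact (f.liftNormal_commutes Qbar ⟨x, hx⟩).symm

theorem unramAt_fieldRange {l : ℕ} {K : IntermediateField ℚ Qbar} (h : UnramAt l K)
    (f : K →ₐ[ℚ] Qbar) : UnramAt l f.fieldRange := by
  obtain ⟨σ, hσ⟩ := exists_gal_map_eq K f
  rw [hσ]
  exact unramMap l K σ h

/-- **normal closure**: a finite extension unramified above `ℓ` lies in a finite `G_ℚ`-stable
extension unramified above `ℓ`. -/
theorem exists_normal_unram (l : ℕ) (K : IntermediateField ℚ Qbar) [FiniteDimensional ℚ K]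
    (h : UnramAt l K) :
    ∃ K' : IntermediateField ℚ Qbar, FiniteDimensional ℚ K' ∧ UnramAt l K' ∧ K ≤ K' ∧
      ∀ (σ : GQ) (x : Qbar), x ∈ K' → σ x ∈ K' := by
  classical
  refine ⟨normalClosure ℚ K Qbar, inferInstance, ?_, K.le_normalClosure, ?_⟩
  · rw [normalClosure_def]
    have : (⨆ f : K →ₐ[ℚ] Qbar, f.fieldRange) =
        ⨆ f ∈ (Finset.univ : Finset (K →ₐ[ℚ] Qbar)), f.fieldRange := by
      simp
    rw [this]
    exact unramAt_biSup l _ _ fun f _ => unramAt_fieldRange h f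
  · intro σ x hx
    have hn : Normal ℚ (normalClosure ℚ K Qbar) := normalClosure.normal ℚ K Qbar
    have := IntermediateField.normal_iff_forall_map_le'.mp hn σ
    exact this ⟨x, hx, rfl⟩

/-! ### Roots of unity are distinct modulo the maximal ideal -/

section Roots

variable {l : ℕ} (hl : l.Prime) {A : ValuationSubring Qbar} (hA : A.LiesOverPrime l)
  {m : ℕ} (hm : ¬ l ∣ m) {ζ : Qbar} (hζ : IsPrimitiveRoot ζ m)

include hl hA hm hζ

theorem zeta_mem : ζ ∈ A := by
  have hm0 : m ≠ 0 := fun h => hm (h ▸ dvd_zero l)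
  have hint : IsIntegral A ζ := by
    refine ⟨X ^ m - C 1, monic_X_pow_sub_C 1 hm0, ?_⟩
    simp [hζ.pow_eq_one]
  obtain ⟨y, hy⟩ := IsIntegrallyClosed.isIntegral_iff.mp hint
  rw [← hy]
  exact y.2

theorem one_sub_pow_inv_mem {k : ℕ} (hk0 : 0 < k) (hkm : k < m) : (1 - ζ ^ k)⁻¹ ∈ A := by
  classical
  obtain ⟨n, rfl⟩ : ∃ n, m = n + 1 := ⟨m - 1, by omega⟩
  have hprod := hζ.prod_one_sub_pow_eq_order
  have hk : k - 1 ∈ Finset.range n := by rw [Finset.mem_range]; omega
  rw [← Finset.mul_prod_erase _ _ hk] at hprod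
  have hk' : k - 1 + 1 = k := by omega
  rw [hk'] at hprod
  have hz := zeta_mem hl hA hm hζ
  have hrest : (∏ x ∈ (Finset.range n).erase (k - 1), (1 - ζ ^ (x + 1))) ∈ A :=
    Subring.prod_mem A.toSubring fun x _ => sub_mem A.one_mem (pow_mem hz _)
  have hminv : ((n : Qbar) + 1)⁻¹ ∈ A := by
    have := integralAt_inv_natCast hl hm A hA
    push_cast at this
    exact this
  have hne : (n : Qbar) + 1 ≠ 0 := by
    exact_mod_cast Nat.succ_ne_zero n
  have : (1 - ζ ^ k)⁻¹ = ((n : Qbar) + 1)⁻¹ *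
      ∏ x ∈ (Finset.range n).erase (k - 1), (1 - ζ ^ (x + 1)) := by
    apply inv_eq_of_mul_eq_one_right
    rw [mul_left_comm, hprod, inv_mul_cancel₀ hne]
  rw [this]
  exact mul_mem hminv hrest

theorem pow_sub_pow_inv_mem {i j : ℕ} (hij : i < j) (hjm : j < m) : (ζ ^ i - ζ ^ j)⁻¹ ∈ A := by
  have hz := zeta_mem hl hA hm hζ
  have h1 : ζ ^ i - ζ ^ j = ζ ^ i * (1 - ζ ^ (j - i)) := by
    rw [mul_sub, mul_one, ← pow_add]
    congr 2
    omega
  have h2 : (ζ ^ i)⁻¹ = ζ ^ (m - i) := by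
    have h3 : ζ ^ i * ζ ^ (m - i) = 1 := by
      rw [← pow_add, show i + (m - i) = m by omega, hζ.pow_eq_one]
    exact inv_eq_of_mul_eq_one_right h3
  rw [h1, mul_inv, h2]
  exact mul_mem (pow_mem hz _)
    (one_sub_pow_inv_mem hl hA hm hζ (by omega) (by omega))

theorem pow_sub_pow_inv_mem' {i j : ℕ} (hij : i ≠ j) (him : i < m) (hjm : j < m) :
    (ζ ^ i - ζ ^ j)⁻¹ ∈ A := by
  rcases lt_or_gt_of_ne hij with h | h
  · exact pow_sub_pow_inv_mem hl hA hm hζ h hjm
  · have := pow_sub_pow_inv_mem hl hA hm hζ h him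
    have e : (ζ ^ i - ζ ^ j)⁻¹ = -(ζ ^ j - ζ ^ i)⁻¹ := by
      rw [← neg_sub (ζ ^ j) (ζ ^ i), inv_neg]
    rw [e]
    exact neg_mem this

/-- the residue field of `A ∩ K'` has at least `m` elements as soon as `ζ ∈ K'`. -/
theorem le_card_residueField (K' : IntermediateField ℚ Qbar) (hζK : ζ ∈ K')
    [Finite (IsLocalRing.ResidueField ↥(A.comap (algebraMap ↥K' Qbar)))] :
    m ≤ Nat.card (IsLocalRing.ResidueField ↥(A.comap (algebraMap ↥K' Qbar))) := by
  have hz := zeta_mem hl hA hm hζ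
  let z : Fin m → ↥(A.comap (algebraMap ↥K' Qbar)) := fun i =>
    ⟨⟨ζ ^ (i : ℕ), pow_mem hζK _⟩, ValuationSubring.mem_comap.mpr (pow_mem hz _)⟩
  have hzval : ∀ i, algebraMap ↥K' Qbar ((z i : ↥(A.comap (algebraMap ↥K' Qbar))) : ↥K') =
      ζ ^ (i : ℕ) := fun i => rfl
  let f : Fin m → IsLocalRing.ResidueField ↥(A.comap (algebraMap ↥K' Qbar)) :=
    fun i => IsLocalRing.residue _ (z i)
  have hf : Function.Injective f := by
    intro i j hij
    by_contra hne
    have hne' : (i : ℕ) ≠ j := fun h => hne (Fin.ext h)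
    have h0 : IsLocalRing.residue ↥(A.comap (algebraMap ↥K' Qbar)) (z i - z j) = 0 := by
      rw [map_sub]; exact sub_eq_zero.mpr hij
    rw [IsLocalRing.residue_eq_zero_iff, IsLocalRing.mem_maximalIdeal, mem_nonunits_iff] at h0
    apply h0
    have hinv := pow_sub_pow_inv_mem' hl hA hm hζ hne' i.2 j.2
    have hval : algebraMap ↥K' Qbar ((z i - z j : ↥(A.comap (algebraMap ↥K' Qbar))) : ↥K') =
        ζ ^ (i : ℕ) - ζ ^ (j : ℕ) := by
      rw [show ((z i - z j : ↥(A.comap (algebraMap ↥K' Qbar))) : ↥K') =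
        ((z i : ↥(A.comap (algebraMap ↥K' Qbar))) : ↥K') - (z j : ↥(A.comap (algebraMap ↥K' Qbar))) from rfl,
        map_sub, hzval, hzval]
    have hd : ((z i - z j : ↥(A.comap (algebraMap ↥K' Qbar))) : ↥K') ≠ 0 := by
      intro h
      rw [h, map_zero] at hval
      exact hne' (hζ.pow_inj i.2 j.2 (sub_eq_zero.mp hval.symm))
    have hw : ((z i - z j : ↥(A.comap (algebraMap ↥K' Qbar))) : ↥K')⁻¹ ∈
        A.comap (algebraMap ↥K' Qbar) := by
      rw [ValuationSubring.mem_comap, map_inv₀, hval]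
      exact hinv
    refine IsUnit.of_mul_eq_one ⟨_, hw⟩ ?_
    apply Subtype.ext
    exact mul_inv_cancel₀ hd
  have := Nat.card_le_card_of_injective f hf
  rwa [Nat.card_fin] at this

end Roots

/-! ### The main statements -/

/-- the residue field of `A ∩ K` is finite (`NumberFieldDVR27`, restated without `AK`). -/
theorem finite_residueField_comap {l : ℕ} (hl : l.Prime) {A : ValuationSubring Qbar}
    (hA : A.LiesOverPrime l) (K : IntermediateField ℚ Qbar) [FiniteDimensional ℚ K] :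
    Finite (IsLocalRing.ResidueField ↥(A.comap (algebraMap ↥K Qbar))) :=
  Fermat.Agent.RED.DESC.NumberFieldDVR27.finite_residueField_AK A K hl.ne_zero hA

/-- a field generated by `K₁` and a root of unity is `G_ℚ`-stable if `K₁` is. -/
theorem stable_sup_adjoin_root {K₁ : IntermediateField ℚ Qbar} {m : ℕ} [NeZero m] {ζ : Qbar}
    (hζ : IsPrimitiveRoot ζ m) (h₁ : ∀ (σ : GQ) (x : Qbar), x ∈ K₁ → σ x ∈ K₁)
    (σ : GQ) (x : Qbar) (hx : x ∈ K₁ ⊔ ℚ⟮ζ⟯) : σ x ∈ K₁ ⊔ ℚ⟮ζ⟯ := by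
  have hle : (K₁ ⊔ ℚ⟮ζ⟯).map (σ : Qbar →ₐ[ℚ] Qbar) ≤ K₁ ⊔ ℚ⟮ζ⟯ := by
    rw [IntermediateField.map_sup]
    refine sup_le ?_ ?_
    · refine le_trans ?_ le_sup_left
      rintro _ ⟨y, hy, rfl⟩
      exact h₁ σ y hy
    · refine le_trans ?_ le_sup_right
      rw [IntermediateField.adjoin_map, Set.image_singleton, IntermediateField.adjoin_le_iff,
        Set.singleton_subset_iff]
      have hσζ : (σ ζ) ^ m = 1 := by
        rw [← map_pow, hζ.pow_eq_one, map_one]
      obtain ⟨i, -, hi⟩ := hζ.eq_pow_of_pow_eq_one hσζ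
      show σ ζ ∈ ℚ⟮ζ⟯
      rw [← hi]
      exact pow_mem (IntermediateField.mem_adjoin_simple_self ℚ ζ) i
  exact hle ⟨x, hx, rfl⟩

/-- **(RESFIELD)** enlarging an unramified field so that the residue field at `A` is large. -/
theorem exists_unram_large_resField (l : ℕ) (hl : l.Prime) (A : ValuationSubring Qbar)
    (hA : A.LiesOverPrime l) (K₁ : IntermediateField ℚ Qbar) [FiniteDimensional ℚ K₁]
    (h₁ : UnramAt l K₁) (N : ℕ) :
    ∃ K' : IntermediateField ℚ Qbar, FiniteDimensional ℚ K' ∧ UnramAt l K' ∧ K₁ ≤ K' ∧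
      ((∀ (σ : GQ) (x : Qbar), x ∈ K₁ → σ x ∈ K₁) →
        ∀ (σ : GQ) (x : Qbar), x ∈ K' → σ x ∈ K') ∧
      Finite (IsLocalRing.ResidueField ↥(A.comap (algebraMap ↥K' Qbar))) ∧
      N < Nat.card (IsLocalRing.ResidueField ↥(A.comap (algebraMap ↥K' Qbar))) := by
  obtain ⟨m, hmN, hmp⟩ := Nat.exists_infinite_primes (max N l + 1)
  have hlm : ¬ l ∣ m := by
    intro h
    have h1 := (Nat.prime_dvd_prime_iff_eq hl hmp).mp h
    have h2 : l ≤ max N l := le_max_right N l
    omega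
  haveI : NeZero m := ⟨hmp.ne_zero⟩
  haveI : NeZero ((m : ℕ) : ℚ) := ⟨by exact_mod_cast hmp.ne_zero⟩
  obtain ⟨ζ, hζ⟩ : ∃ ζ : Qbar, IsPrimitiveRoot ζ m :=
    HasEnoughRootsOfUnity.exists_primitiveRoot Qbar m
  haveI : FiniteDimensional ℚ ℚ⟮ζ⟯ :=
    IntermediateField.adjoin.finiteDimensional (Algebra.IsIntegral.isIntegral ζ)
  haveI hfd : FiniteDimensional ℚ ↥(K₁ ⊔ ℚ⟮ζ⟯) := IntermediateField.finiteDimensional_sup K₁ ℚ⟮ζ⟯
  haveI hfin := finite_residueField_comap hl hA (K₁ ⊔ ℚ⟮ζ⟯)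
  refine ⟨K₁ ⊔ ℚ⟮ζ⟯, hfd, ?_, le_sup_left, ?_, hfin, ?_⟩
  · exact unramSup l _ _ h₁ (unramRootOfUnity l hl m hlm ζ hζ.pow_eq_one)
  · intro hst σ x hx
    exact stable_sup_adjoin_root hζ hst σ x hx
  · have h1 := le_card_residueField hl hA hlm hζ (K₁ ⊔ ℚ⟮ζ⟯)
      (le_sup_right (a := K₁) (IntermediateField.mem_adjoin_simple_self ℚ ζ))
    have h2 : N ≤ max N l := le_max_left N l
    omega

/-- **(RESFIELD), normal form**: no stability hypothesis on `K₁`; the output is `G_ℚ`-stable. -/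
theorem exists_unram_normal_large_resField (l : ℕ) (hl : l.Prime) (A : ValuationSubring Qbar)
    (hA : A.LiesOverPrime l) (K₁ : IntermediateField ℚ Qbar) [FiniteDimensional ℚ K₁]
    (h₁ : UnramAt l K₁) (N : ℕ) :
    ∃ K' : IntermediateField ℚ Qbar, FiniteDimensional ℚ K' ∧ UnramAt l K' ∧ K₁ ≤ K' ∧
      (∀ (σ : GQ) (x : Qbar), x ∈ K' → σ x ∈ K') ∧
      Finite (IsLocalRing.ResidueField ↥(A.comap (algebraMap ↥K' Qbar))) ∧
      N < Nat.card (IsLocalRing.ResidueField ↥(A.comap (algebraMap ↥K' Qbar))) := by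
  obtain ⟨K₂, hfd₂, hun₂, hle₂, hst₂⟩ := exists_normal_unram l K₁ h₁
  obtain ⟨K', hfd, hun, hle, hst, hfin, hN⟩ := exists_unram_large_resField l hl A hA K₂ hun₂ N
  exact ⟨K', hfd, hun, hle₂.trans hle, hst hst₂, hfin, hN⟩

end Fermat.Agent.FFJ.Alg.ResField82
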