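/-
FFJ / chapter ALG, brick UNRAM, corollary of Euler's formula (helper92).  **Adjoining a separated
Galois-stable finite set of integral elements keeps the field unramified.**

`S ⊂ ℚ̄` finite, all `c ∈ S` integral at `ℓ`, the polynomial `P = ∏_{c ∈ S} (X - c)` has coefficients
in `K` (e.g. `S` is stable under `Gal(ℚ̄/K)`), and `c - c'` is a unit at `ℓ` for `c ≠ c'` in `S`.
Then `UnramAt ℓ K → UnramAt ℓ (K(S))` (`unramAt_adjoin_roots`): adjoin the elements of `S` one at a
time, `P'(c) = ∏_{c' ≠ c} (c - c')` is a unit at `ℓ`, and apply `Unram92.unramAdjoinRoot`.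
-/
import Mathlib
import Fermat.Agent.FFJ.Alg.Unram92

set_option autoImplicit false

noncomputable section

namespace Fermat.Agent.FFJ.Alg.UnramRoots92

open Fermat.Agent.FFJ.Alg.Spec78 Fermat.Agent.TW.FF.FlatModel68 Fermat.Agent.FFJ.Alg.Unram92
open Polynomial

/-- `P'(c) = ∏_{c' ≠ c} (c - c')` for `P = ∏_{c' ∈ S} (X - c')`, `c ∈ S`. -/
theorem eval_derivative_prod {R : Type*} [CommRing R] [DecidableEq R] (S : Finset R) {c : R}
    (hc : c ∈ S) :
    (∏ c' ∈ S, (X - C c')).derivative.eval c = ∏ c' ∈ S.erase c, (c - c') := by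
  rw [Polynomial.derivative_prod_finset, Polynomial.eval_finsetSum, Finset.sum_eq_single c]
  · rw [Polynomial.derivative_X_sub_C, mul_one, Polynomial.eval_prod]
    refine Finset.prod_congr rfl fun c' _ => ?_
    simp
  · intro a _ hac
    rw [Polynomial.eval_mul, Polynomial.eval_prod,
      Finset.prod_eq_zero (Finset.mem_erase.mpr ⟨Ne.symm hac, hc⟩) (by simp), zero_mul]
  · intro h
    exact absurd hc h

/-- The coefficients of `∏ (X - c)` are integral at `ℓ` when the `c` are. -/
theorem integralAt_coeff_prod {l : ℕ} (S : Finset Qbar) (hS : ∀ c ∈ S, IntegralAt l c) (i : ℕ) :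
    IntegralAt l ((∏ c ∈ S, (X - C c)).coeff i) := by
  have h : ∏ c ∈ S, (X - C c) ∈ Polynomial.lifts (integralAtSubring l).subtype := by
    refine Subsemiring.prod_mem _ fun c hc => ?_
    exact ⟨X - C ⟨c, hS c hc⟩, by simp⟩
  rw [Polynomial.lifts_iff_coeff_lifts] at h
  obtain ⟨y, hy⟩ := h i
  rw [← hy]
  exact y.2

/-- **Adjoining a separated finite set of integral elements with characteristic polynomial over `K`
keeps `K` unramified above `ℓ`.** -/
theorem unramAt_adjoin_roots {l : ℕ} {K : IntermediateField ℚ Qbar} (hK : UnramAt l K)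
    (S : Finset Qbar) (hSint : ∀ c ∈ S, IntegralAt l c)
    (hcoef : ∀ i, (∏ c ∈ S, (X - C c)).coeff i ∈ K)
    (hsep : ∀ c ∈ S, ∀ c' ∈ S, c ≠ c' → IntegralAt l (c - c')⁻¹) :
    UnramAt l (K ⊔ IntermediateField.adjoin ℚ (S : Set Qbar)) := by
  classical
  have key : ∀ T : Finset Qbar, T ⊆ S →
      UnramAt l (K ⊔ IntermediateField.adjoin ℚ (T : Set Qbar)) := by
    intro T
    induction T using Finset.induction_on with
    | empty =>
      intro _
      rw [Finset.coe_empty, IntermediateField.adjoin_empty, sup_bot_eq]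
      exact hK
    | insert c T hcT ih =>
      intro hsub
      have hc : c ∈ S := hsub (Finset.mem_insert_self c T)
      have hT : T ⊆ S := fun x hx => hsub (Finset.mem_insert_of_mem hx)
      have hfield : K ⊔ IntermediateField.adjoin ℚ ((insert c T : Finset Qbar) : Set Qbar) =
          (K ⊔ IntermediateField.adjoin ℚ (T : Set Qbar)) ⊔ IntermediateField.adjoin ℚ {c} := by
        rw [Finset.coe_insert, Set.insert_eq, IntermediateField.adjoin_union, sup_assoc,
          sup_comm (IntermediateField.adjoin ℚ {c})]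
      rw [hfield]
      refine unramAdjoinRoot l _ (ih hT) (∏ c' ∈ S, (X - C c')) c
        (Polynomial.monic_prod_of_monic _ _ fun c' _ => Polynomial.monic_X_sub_C c')
        (fun i => ⟨(le_sup_left : K ≤ K ⊔ IntermediateField.adjoin ℚ (T : Set Qbar)) (hcoef i),
          integralAt_coeff_prod S hSint i⟩) ?_ ?_ ?_
      · rw [Polynomial.eval_prod]
        exact Finset.prod_eq_zero hc (by simp)
      · rw [eval_derivative_prod S hc, Finset.prod_ne_zero_iff]
        intro c' hc'
        exact sub_ne_zero.mpr (Finset.ne_of_mem_erase hc').symm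
      · rw [eval_derivative_prod S hc, ← Finset.prod_inv_distrib]
        refine Subring.prod_mem (integralAtSubring l) fun c' hc' => ?_
        exact hsep c hc c' (Finset.mem_of_mem_erase hc') (Finset.ne_of_mem_erase hc').symm
  exact key S (Finset.Subset.refl S)

end Fermat.Agent.FFJ.Alg.UnramRoots92
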