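/-
FFJ / chapter ALG, brick UNRAM, producers at ONE place (helper92).

Producers of `SpecLocal78.UnramAtPlace A K` (`= TDIn92.TDIn A.toSubring K`): `ℚ`, composita,
transport by `σ` with `σ(A) ⊂ A'`, Euler's formula at `A`, separated Galois-stable sets of roots at `A`,
finite free algebras with unit discriminant over a subring of `A ∩ K`, roots of unity of order prime to
`ℓ`; and helpers producing NORMAL fields (`G_ℚ`-stable intermediate fields).
-/
import Mathlib
import Fermat.Agent.FFJ.Alg.SpecLocal78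
import Fermat.Agent.FFJ.Alg.TDIn92
import Fermat.Agent.FFJ.Alg.UnramRoots92

set_option autoImplicit false

noncomputable section

namespace Fermat.Agent.FFJ.Alg.UnramPlace92

open Fermat.Agent.FFJ.Alg.Spec78 Fermat.Agent.TW.FF.FlatModel68 Fermat.Agent.FFJ.Alg.Unram92
open Fermat.Agent.FFJ.Alg.TDIn92 Fermat.Agent.FFJ.Alg.SpecLocal78
open Polynomial

/-! ### Euler's formula with coefficients in a subring -/

/-- **Euler's formula** for trace-dual families with members in a subring `S`. -/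
theorem tdIn_adjoinRoot {S : Subring Qbar} {K : IntermediateField ℚ Qbar} (hK : TDIn S K)
    (f : Qbar[X]) (α : Qbar) (hc : ∀ i, f.coeff i ∈ K ∧ f.coeff i ∈ S) (hαS : α ∈ S)
    (hα : f.eval α = 0) (hd : f.derivative.eval α ≠ 0) (hdi : (f.derivative.eval α)⁻¹ ∈ S) :
    TDIn S (K ⊔ IntermediateField.adjoin ℚ {α}) := by
  obtain ⟨n, θ, θ', hθK, hint, h1, h0⟩ := hK
  set L : IntermediateField ℚ Qbar := K ⊔ IntermediateField.adjoin ℚ {α} with hL
  have hKL : K ≤ L := le_sup_left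
  have hαL : α ∈ L :=
    (le_sup_right : IntermediateField.adjoin ℚ {α} ≤ L) (IntermediateField.mem_adjoin_simple_self ℚ α)
  obtain ⟨g, hfg, hg⟩ := exists_quotient (L.toSubfield.toSubring ⊓ S) f
    (fun i => ⟨hKL (hc i).1, (hc i).2⟩) ⟨hαL, hαS⟩ hα
  have hgL : ∀ i, g.coeff i ∈ L := fun i => (hg i).1
  have hgS : ∀ i, g.coeff i ∈ S := fun i => (hg i).2
  have hgα : g.eval α = f.derivative.eval α := by
    rw [hfg, Polynomial.derivative_mul, Polynomial.derivative_X_sub_C]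
    simp
  rw [← hgα] at hd hdi
  have hgαL : g.eval α ∈ L := by
    rw [Polynomial.eval_eq_sum_range]
    exact sum_mem fun i _ => mul_mem (hgL i) (pow_mem hαL i)
  have hroot : ∀ β : Qbar, f.eval β = 0 → β ≠ α → g.eval β = 0 := by
    intro β hβ hne
    rw [hfg] at hβ
    simp only [Polynomial.eval_mul, Polynomial.eval_sub, Polynomial.eval_X, Polynomial.eval_C,
      mul_eq_zero, sub_eq_zero] at hβ
    exact hβ.resolve_left hne
  have hσroot : ∀ σ : GQ, σ ∈ K.fixingSubgroup → f.eval (σ α) = 0 := by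
    intro σ hσ
    rw [IntermediateField.mem_fixingSubgroup_iff] at hσ
    have hfσ : f.map ((σ : Qbar ≃+* Qbar) : Qbar →+* Qbar) = f := by
      ext i
      rw [Polynomial.coeff_map]
      exact hσ _ (hc i).1
    have h2 : (f.map ((σ : Qbar ≃+* Qbar) : Qbar →+* Qbar)).eval
        (((σ : Qbar ≃+* Qbar) : Qbar →+* Qbar) α) =
        ((σ : Qbar ≃+* Qbar) : Qbar →+* Qbar) (f.eval α) := Polynomial.eval_map_apply _ _
    rw [hfσ, hα, map_zero] at h2
    exact h2
  have hsum : ∀ σ : GQ, ∑ c : Fin (g.natDegree + 1) × Fin n,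
      (g.coeff c.1 * (g.eval α)⁻¹ * θ c.2) * σ (α ^ (c.1 : ℕ) * θ' c.2) =
      (g.eval α)⁻¹ * g.eval (σ α) * ∑ a, θ a * σ (θ' a) := by
    intro σ
    rw [Polynomial.eval_eq_sum_range (p := g) (σ α),
      ← Fin.sum_univ_eq_sum_range (fun i => g.coeff i * σ α ^ i) (g.natDegree + 1),
      mul_assoc, Finset.sum_mul_sum, Finset.mul_sum, Fintype.sum_prod_type]
    refine Finset.sum_congr rfl fun i _ => ?_
    rw [Finset.mul_sum]
    refine Finset.sum_congr rfl fun a _ => ?_
    rw [map_mul, map_pow]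
    ring
  refine tdIn_of_fintype (ι := Fin (g.natDegree + 1) × Fin n)
    (fun c => g.coeff c.1 * (g.eval α)⁻¹ * θ c.2) (fun c => α ^ (c.1 : ℕ) * θ' c.2) ?_ ?_ ?_ ?_
  · intro c
    exact ⟨mul_mem (mul_mem (hgL _) (L.inv_mem hgαL)) (hKL (hθK c.2).1),
      mul_mem (pow_mem hαL _) (hKL (hθK c.2).2)⟩
  · intro c
    exact ⟨S.mul_mem (S.mul_mem (hgS _) hdi) (hint c.2).1,
      S.mul_mem (S.pow_mem hαS _) (hint c.2).2⟩
  · intro σ hσ
    rw [hL, IntermediateField.fixingSubgroup_sup, Subgroup.mem_inf,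
      mem_fixingSubgroup_adjoin_simple_iff] at hσ
    rw [hsum, h1 σ hσ.1, hσ.2, mul_one, inv_mul_cancel₀ hd]
  · intro σ hσ
    rw [hL, IntermediateField.fixingSubgroup_sup, Subgroup.mem_inf,
      mem_fixingSubgroup_adjoin_simple_iff, not_and_or] at hσ
    rw [hsum]
    by_cases hσK : σ ∈ K.fixingSubgroup
    · have hne : σ α ≠ α := hσ.resolve_left (not_not.mpr hσK)
      rw [hroot (σ α) (hσroot σ hσK) hne, mul_zero, zero_mul]
    · rw [h0 σ hσK, mul_zero]

theorem coeff_prod_mem (S : Subring Qbar) (T : Finset Qbar) (hT : ∀ c ∈ T, c ∈ S) (i : ℕ) :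
    (∏ c ∈ T, (X - C c)).coeff i ∈ S := by
  have h : ∏ c ∈ T, (X - C c) ∈ Polynomial.lifts S.subtype := by
    refine Subsemiring.prod_mem _ fun c hc => ?_
    exact ⟨X - C ⟨c, hT c hc⟩, by simp⟩
  rw [Polynomial.lifts_iff_coeff_lifts] at h
  obtain ⟨y, hy⟩ := h i
  rw [← hy]
  exact y.2

/-- adjoining a separated finite set of elements of `S` whose characteristic polynomial has
coefficients in `K`. -/
theorem tdIn_adjoin_roots {S : Subring Qbar} {K : IntermediateField ℚ Qbar} (hK : TDIn S K)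
    (T : Finset Qbar) (hTS : ∀ c ∈ T, c ∈ S)
    (hcoef : ∀ i, (∏ c ∈ T, (X - C c)).coeff i ∈ K)
    (hsep : ∀ c ∈ T, ∀ c' ∈ T, c ≠ c' → (c - c')⁻¹ ∈ S) :
    TDIn S (K ⊔ IntermediateField.adjoin ℚ (T : Set Qbar)) := by
  classical
  have key : ∀ U : Finset Qbar, U ⊆ T →
      TDIn S (K ⊔ IntermediateField.adjoin ℚ (U : Set Qbar)) := by
    intro U
    induction U using Finset.induction_on with
    | empty =>
      intro _
      rw [Finset.coe_empty, IntermediateField.adjoin_empty, sup_bot_eq]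
      exact hK
    | insert c U hcU ih =>
      intro hsub
      have hc : c ∈ T := hsub (Finset.mem_insert_self c U)
      have hU : U ⊆ T := fun x hx => hsub (Finset.mem_insert_of_mem hx)
      have hfield : K ⊔ IntermediateField.adjoin ℚ ((insert c U : Finset Qbar) : Set Qbar) =
          (K ⊔ IntermediateField.adjoin ℚ (U : Set Qbar)) ⊔ IntermediateField.adjoin ℚ {c} := by
        rw [Finset.coe_insert, Set.insert_eq, IntermediateField.adjoin_union, sup_assoc,
          sup_comm (IntermediateField.adjoin ℚ {c})]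
      rw [hfield]
      refine tdIn_adjoinRoot (ih hU) (∏ c' ∈ T, (X - C c')) c
        (fun i => ⟨(le_sup_left : K ≤ K ⊔ IntermediateField.adjoin ℚ (U : Set Qbar)) (hcoef i),
          coeff_prod_mem S T hTS i⟩) (hTS c hc) ?_ ?_ ?_
      · rw [Polynomial.eval_prod]
        exact Finset.prod_eq_zero hc (by simp)
      · rw [UnramRoots92.eval_derivative_prod T hc, Finset.prod_ne_zero_iff]
        intro c' hc'
        exact sub_ne_zero.mpr (Finset.ne_of_mem_erase hc').symm
      · rw [UnramRoots92.eval_derivative_prod T hc, ← Finset.prod_inv_distrib]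
        refine Subring.prod_mem S fun c' hc' => ?_
        exact hsep c hc c' (Finset.mem_of_mem_erase hc') (Finset.ne_of_mem_erase hc').symm
  exact key T (Finset.Subset.refl T)

/-! ### Producers of `UnramAtPlace` -/

theorem unramAtPlace_iff_tdIn {A : ValuationSubring Qbar} {K : IntermediateField ℚ Qbar} :
    UnramAtPlace A K ↔ TDIn A.toSubring K := Iff.rfl

theorem unramAtPlace_bot (A : ValuationSubring Qbar) : UnramAtPlace A ⊥ :=
  unramAtPlace_iff_tdIn.mpr (tdIn_bot A.toSubring)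

theorem unramAtPlace_sup {A : ValuationSubring Qbar} {K₁ K₂ : IntermediateField ℚ Qbar}
    (h₁ : UnramAtPlace A K₁) (h₂ : UnramAtPlace A K₂) : UnramAtPlace A (K₁ ⊔ K₂) :=
  unramAtPlace_iff_tdIn.mpr (tdIn_sup (unramAtPlace_iff_tdIn.mp h₁) (unramAtPlace_iff_tdIn.mp h₂))

/-- transport by `σ` with `σ(A) ⊂ A'` (e.g. `A' = A` and `σ` in the decomposition group of `A`). -/
theorem unramAtPlace_map {A A' : ValuationSubring Qbar} {K : IntermediateField ℚ Qbar} (σ : GQ)
    (hσ : ∀ x ∈ A, σ x ∈ A') (hK : UnramAtPlace A K) :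
    UnramAtPlace A' (K.map (σ : Qbar →ₐ[ℚ] Qbar)) :=
  unramAtPlace_iff_tdIn.mpr
    (tdIn_map (S := A.toSubring) (S' := A'.toSubring) σ hσ (unramAtPlace_iff_tdIn.mp hK))

/-- **Euler's formula at the place `A`.** -/
theorem unramAtPlace_adjoinRoot {A : ValuationSubring Qbar} {K : IntermediateField ℚ Qbar}
    (hK : UnramAtPlace A K) (f : Qbar[X]) (α : Qbar) (hf : f.Monic)
    (hc : ∀ i, f.coeff i ∈ K ∧ f.coeff i ∈ A) (hα : f.eval α = 0)
    (hd : f.derivative.eval α ≠ 0) (hdi : (f.derivative.eval α)⁻¹ ∈ A) :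
    UnramAtPlace A (K ⊔ IntermediateField.adjoin ℚ {α}) :=
  unramAtPlace_iff_tdIn.mpr
    (tdIn_adjoinRoot (S := A.toSubring) (unramAtPlace_iff_tdIn.mp hK) f α hc
      (mem_of_root A hf (fun i => (hc i).2) hα) hα hd hdi)

/-- separated finite sets of elements of `A` with characteristic polynomial over `K`. -/
theorem unramAtPlace_adjoin_roots {A : ValuationSubring Qbar} {K : IntermediateField ℚ Qbar}
    (hK : UnramAtPlace A K) (T : Finset Qbar) (hTA : ∀ c ∈ T, c ∈ A)
    (hcoef : ∀ i, (∏ c ∈ T, (X - C c)).coeff i ∈ K)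
    (hsep : ∀ c ∈ T, ∀ c' ∈ T, c ≠ c' → (c - c')⁻¹ ∈ A) :
    UnramAtPlace A (K ⊔ IntermediateField.adjoin ℚ (T : Set Qbar)) :=
  unramAtPlace_iff_tdIn.mpr
    (tdIn_adjoin_roots (S := A.toSubring) (unramAtPlace_iff_tdIn.mp hK) T hTA hcoef hsep)

/-- **finite free with unit discriminant over a subring of `A ∩ K`.** -/
theorem unramAtPlace_of_isUnit_discr (A : ValuationSubring Qbar) {K : IntermediateField ℚ Qbar}
    (hK : UnramAtPlace A K) {R E : Type*} [CommRing R] [CommRing E] [Algebra R E] {ι : Type*}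
    [Fintype ι] [DecidableEq ι] (b : Module.Basis ι R E) (hdisc : IsUnit (Algebra.discr R b))
    (j : R →+* Qbar) (hjK : ∀ r, j r ∈ K) (hjA : ∀ r, j r ∈ A)
    (ε : E →+* Qbar) (hε : ∀ r, ε (algebraMap R E r) = j r) :
    UnramAtPlace A (K ⊔ IntermediateField.adjoin ℚ (Set.range ε)) :=
  unramAtPlace_iff_tdIn.mpr
    (tdIn_of_isUnit_discr A (unramAtPlace_iff_tdIn.mp hK) b hdisc j hjK hjA ε hε)

/-- roots of unity of order prime to `ℓ`. -/
theorem unramAtPlace_rootOfUnity {l : ℕ} (hl : l.Prime) {A : ValuationSubring Qbar}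
    (hA : A.LiesOverPrime l) {n : ℕ} (hn : ¬ l ∣ n) {ζ : Qbar} (hζ : ζ ^ n = 1) :
    UnramAtPlace A (IntermediateField.adjoin ℚ {ζ}) :=
  unramAtPlace_of_unramAt (unramRootOfUnity l hl n hn ζ hζ) hA

/-! ### Normal fields -/

/-- the field generated by a `G_ℚ`-stable set is `G_ℚ`-stable. -/
theorem stable_adjoin {T : Set Qbar} (hT : ∀ σ : GQ, ∀ x ∈ T, σ x ∈ T) (σ : GQ) (x : Qbar)
    (hx : x ∈ IntermediateField.adjoin ℚ T) : σ x ∈ IntermediateField.adjoin ℚ T := by
  have hle : (IntermediateField.adjoin ℚ T).map (σ : Qbar →ₐ[ℚ] Qbar) ≤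
      IntermediateField.adjoin ℚ T := by
    rw [IntermediateField.adjoin_map]
    apply IntermediateField.adjoin.mono
    rintro _ ⟨y, hy, rfl⟩
    exact hT σ y hy
  exact hle ((IntermediateField.mem_map _).mpr ⟨x, hx, rfl⟩)

/-- composita of `G_ℚ`-stable fields are `G_ℚ`-stable. -/
theorem stable_sup {K₁ K₂ : IntermediateField ℚ Qbar}
    (h₁ : ∀ (σ : GQ) (x : Qbar), x ∈ K₁ → σ x ∈ K₁)
    (h₂ : ∀ (σ : GQ) (x : Qbar), x ∈ K₂ → σ x ∈ K₂) (σ : GQ) (x : Qbar) (hx : x ∈ K₁ ⊔ K₂) :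
    σ x ∈ K₁ ⊔ K₂ := by
  rw [IntermediateField.sup_def] at hx ⊢
  refine stable_adjoin (T := (K₁ : Set Qbar) ∪ K₂) ?_ σ x hx
  rintro τ y (hy | hy)
  · exact Or.inl (h₁ τ y hy)
  · exact Or.inr (h₂ τ y hy)

/-- the field generated by all roots of a polynomial with rational coefficients is `G_ℚ`-stable. -/
theorem stable_adjoin_rootSet (f : ℚ[X]) (σ : GQ) (x : Qbar)
    (hx : x ∈ IntermediateField.adjoin ℚ {y : Qbar | Polynomial.aeval y f = 0}) :
    σ x ∈ IntermediateField.adjoin ℚ {y : Qbar | Polynomial.aeval y f = 0} := by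
  refine stable_adjoin ?_ σ x hx
  intro τ y hy
  show Polynomial.aeval (τ y) f = 0
  have h1 : Polynomial.aeval (τ y) f = τ (Polynomial.aeval y f) :=
    Polynomial.aeval_algHom_apply (τ : Qbar →ₐ[ℚ] Qbar) y f
  rw [h1, show Polynomial.aeval y f = 0 from hy, map_zero]

end Fermat.Agent.FFJ.Alg.UnramPlace92
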