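/-
FFJ / chapter ALG, brick RESFIELD (helper82), form AT ONE PLACE (`SpecLocal78.UnramAtPlace`), as
requested by helper78 (#1757: ALG drops normality of `K`; only unramifiedness at `A ∩ K` matters).

* `exists_unramAtPlace_large_resField` : for `A` over `ℓ`, `K₁` finite with `UnramAtPlace A K₁` and
  any `N` there is a finite `K' ⊇ K₁` with `UnramAtPlace A K'` (and `G_ℚ`-stable if `K₁` is) such that
  the residue field of `A ∩ K'` is finite with more than `N` elements (`K' = K₁(ζ_m)`).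
* `exists_unramAtPlace_sup_large_resField` : the same with a second field `K₂` thrown in
  (compositum of the curve field and a point field, then enlarge the residue field).
-/
import Mathlib
import Fermat.Agent.FFJ.Alg.ResField82
import Fermat.Agent.FFJ.Alg.UnramPlace92

set_option autoImplicit false
set_option linter.style.haveILetI false

noncomputable section

namespace Fermat.Agent.FFJ.Alg.ResFieldPlace82

open Fermat.Agent.FFJ.Alg.Spec78 Fermat.Agent.FFJ.Alg.Unram92 Fermat.Agent.TW.FF.FlatModel68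
open Fermat.Agent.FFJ.Alg.SpecLocal78 Fermat.Agent.FFJ.Alg.UnramPlace92
open Fermat.Agent.FFJ.Alg.ResField82
open Polynomial IntermediateField

attribute [local instance] isAlgClosure_Qbar normal_Qbar isAlgebraic_Qbar

/-- **(RESFIELD) at one place.** -/
theorem exists_unramAtPlace_large_resField (l : ℕ) (hl : l.Prime) (A : ValuationSubring Qbar)
    (hA : A.LiesOverPrime l) (K₁ : IntermediateField ℚ Qbar) [FiniteDimensional ℚ K₁]
    (h₁ : UnramAtPlace A K₁) (N : ℕ) :
    ∃ K' : IntermediateField ℚ Qbar, FiniteDimensional ℚ K' ∧ UnramAtPlace A K' ∧ K₁ ≤ K' ∧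
      ((∀ (σ : GQ) (x : Qbar), x ∈ K₁ → σ x ∈ K₁) →
        ∀ (σ : GQ) (x : Qbar), x ∈ K' → σ x ∈ K') ∧
      Finite (IsLocalRing.ResidueField ↥(A.comap (algebraMap ↥K' Qbar))) ∧
      N < Nat.card (IsLocalRing.ResidueField ↥(A.comap (algebraMap ↥K' Qbar))) := by
  obtain ⟨m, hmN, hmp⟩ := Nat.exists_infinite_primes (max N l + 1)
  have hlm : ¬ l ∣ m := by
    intro h
    have h1 := (Nat.prime_dvd_prime_iff_eq hl hmp).mp h
    have h2 : l ≤ max N l := le_max_right N l
    omega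
  haveI : NeZero m := ⟨hmp.ne_zero⟩
  haveI : NeZero ((m : ℕ) : ℚ) := ⟨by exact_mod_cast hmp.ne_zero⟩
  obtain ⟨ζ, hζ⟩ : ∃ ζ : Qbar, IsPrimitiveRoot ζ m :=
    HasEnoughRootsOfUnity.exists_primitiveRoot Qbar m
  haveI : FiniteDimensional ℚ ℚ⟮ζ⟯ :=
    IntermediateField.adjoin.finiteDimensional (Algebra.IsIntegral.isIntegral ζ)
  haveI hfd : FiniteDimensional ℚ ↥(K₁ ⊔ ℚ⟮ζ⟯) := IntermediateField.finiteDimensional_sup K₁ ℚ⟮ζ⟯
  haveI hfin := finite_residueField_comap hl hA (K₁ ⊔ ℚ⟮ζ⟯)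
  refine ⟨K₁ ⊔ ℚ⟮ζ⟯, hfd, ?_, le_sup_left, ?_, hfin, ?_⟩
  · exact unramAtPlace_sup h₁ (unramAtPlace_rootOfUnity hl hA hlm hζ.pow_eq_one)
  · intro hst σ x hx
    exact stable_sup_adjoin_root hζ hst σ x hx
  · have h1 := le_card_residueField hl hA hlm hζ (K₁ ⊔ ℚ⟮ζ⟯)
      (le_sup_right (a := K₁) (IntermediateField.mem_adjoin_simple_self ℚ ζ))
    have h2 : N ≤ max N l := le_max_left N l
    omega

/-- compositum of two fields unramified at `A`, enlarged so that the residue field is large. -/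
theorem exists_unramAtPlace_sup_large_resField (l : ℕ) (hl : l.Prime) (A : ValuationSubring Qbar)
    (hA : A.LiesOverPrime l) (K₁ K₂ : IntermediateField ℚ Qbar) [FiniteDimensional ℚ K₁]
    [FiniteDimensional ℚ K₂] (h₁ : UnramAtPlace A K₁) (h₂ : UnramAtPlace A K₂) (N : ℕ) :
    ∃ K' : IntermediateField ℚ Qbar, FiniteDimensional ℚ K' ∧ UnramAtPlace A K' ∧ K₁ ≤ K' ∧
      K₂ ≤ K' ∧ Finite (IsLocalRing.ResidueField ↥(A.comap (algebraMap ↥K' Qbar))) ∧
      N < Nat.card (IsLocalRing.ResidueField ↥(A.comap (algebraMap ↥K' Qbar))) := by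
  haveI : FiniteDimensional ℚ ↥(K₁ ⊔ K₂) := IntermediateField.finiteDimensional_sup K₁ K₂
  obtain ⟨K', hfd, hun, hle, -, hfin, hN⟩ :=
    exists_unramAtPlace_large_resField l hl A hA (K₁ ⊔ K₂) (unramAtPlace_sup h₁ h₂) N
  exact ⟨K', hfd, hun, le_sup_left.trans hle, le_sup_right.trans hle, hfin, hN⟩

end Fermat.Agent.FFJ.Alg.ResFieldPlace82
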