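/-
FFJ / chapter ALG (helper92).  **Brick TD without normality of `K`** (for helper78's ALG-NN).

`K ⊂ ℚ̄` ANY number field, `A` a valuation subring of `ℚ̄` over `ℓ`, `K` unramified at the one place
`A ∩ K` (`SpecLocal78.UnramAtPlace A K`).  For every `N` there is a trace-dual family
`x_a ∈ A ∩ K`, `y_a ∈ A ∩ K` of `K/ℚ` such that for every `σ ∈ G_ℚ`
* all conjugates `σ(y_a)` lie in `A`;
* either `σ ∈ Stab(A)·G_K` (there is `g ∈ G_K` with `σ g ∈ Stab(A)`), or every `σ(y_a)` is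
  `ℓ^N·σ(w)` with `w ∈ K`, `σ(w) ∈ A`;
* `∑_a x_a σ(y_a) = [σ ∈ G_K]`.

Compared with `TDLocal78.adaptedTD_of_unramAtPlace`: no normality; the ring `A ∩ K` is replaced by `A`
for the conjugates (they live in `σ K`), and the stabiliser of `A ∩ K` by `Stab(A)·G_K`
(`Decomp92.exists_fixing_mul_mem_stab'`).
-/
import Mathlib
import Fermat.Agent.FFJ.Alg.TDLocal78
import Fermat.Agent.FFJ.Alg.Decomp92

set_option autoImplicit false

noncomputable section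

namespace Fermat.Agent.FFJ.Alg.TDNN92

open Fermat.Agent.FFJ.Alg.Spec78 Fermat.Agent.FFJ.Alg.SpecLocal78
open Fermat.Agent.TW.FF.FlatModel68 Fermat.Agent.FFJ.Alg.Defs78
open Fermat.Agent.FFJ.Alg.Unram92 Fermat.Agent.FFJ.Alg.TD92 Fermat.Agent.FFJ.Alg.TDLocal78
open Fermat.Agent.RED.Interface4 (AK)
open Fermat.Agent.RED.DESC.NumberFieldDVR27
open NumberField

/-- `σ⁻¹A ∩ K = A ∩ K` in pointwise form. -/
theorem forall_mem_iff_of_AK_eq {A : ValuationSubring Qbar} {K : IntermediateField ℚ Qbar} (σ : GQ)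
    (h : AK (conjA A σ) K = AK A K) : ∀ x : Qbar, x ∈ K → (σ x ∈ A ↔ x ∈ A) := by
  intro x hx
  have h1 : (⟨x, hx⟩ : K) ∈ AK (conjA A σ) K ↔ (⟨x, hx⟩ : K) ∈ AK A K := by rw [h]
  rw [mem_AK_iff, mem_AK_iff] at h1
  rw [← mem_conjA]
  exact h1

/-- **Adapted trace-dual families, `K` not necessarily normal.** -/
theorem adaptedTD_NN {l : ℕ} (hl : l.Prime) (K : IntermediateField ℚ Qbar)
    [FiniteDimensional ℚ K] (A : ValuationSubring Qbar) (hA : A.LiesOverPrime l)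
    (hunr : UnramAtPlace A K) (N : ℕ) :
    ∃ (n : ℕ) (x y : Fin n → Qbar),
      (∀ a, x a ∈ A ∧ x a ∈ K) ∧ (∀ a, y a ∈ A ∧ y a ∈ K) ∧ (∀ a (σ : GQ), σ (y a) ∈ A) ∧
      (∀ σ : GQ, (∃ g : GQ, g ∈ K.fixingSubgroup ∧ σ * g ∈ stab (F := ℚ) A.toSubring) ∨
        ∀ a, ∃ w : Qbar, w ∈ K ∧ σ w ∈ A ∧ σ (y a) = ((l : ℕ) : Qbar) ^ N * σ w) ∧
      (∀ σ : GQ, σ ∈ K.fixingSubgroup → ∑ a, x a * σ (y a) = 1) ∧
      ∀ σ : GQ, σ ∉ K.fixingSubgroup → ∑ a, x a * σ (y a) = 0 := by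
  obtain ⟨n, θ, θ', hθK, hθA, h1, h0⟩ := hunr
  -- uniform exponent for the conjugates of the `θ'`
  have hN' := fun a => exists_pow_mul_integralAt hl (θ' a)
  choose N'a hN'a using hN'
  set N' : ℕ := ∑ a, N'a a with hN'def
  have hint : ∀ a, IntegralAt l (((l : ℕ) : Qbar) ^ N' * θ' a) := fun a =>
    hN'a a N' (Finset.single_le_sum (fun _ _ => Nat.zero_le _) (Finset.mem_univ a))
  obtain ⟨e, hev, he⟩ := exists_approx hl K A hA (N + N')
  set eQ : Qbar := ((e : K) : Qbar) with heQ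
  have heK : eQ ∈ K := (e : K).2
  have he0 : eQ ≠ 0 := by
    intro h
    rw [h, map_zero] at hev
    exact zero_ne_one hev
  have heint : IntegralAt l eQ := fun A' _ => coe_int_mem A' K e
  have heinvA : eQ⁻¹ ∈ A := by
    rw [← A.valuation_le_one_iff, map_inv₀, hev, inv_one]
  have hefix : ∀ σ : GQ, σ ∈ K.fixingSubgroup → σ eQ = eQ := fun σ hσ =>
    (IntermediateField.mem_fixingSubgroup_iff K σ).mp hσ _ heK
  have hsum : ∀ σ : GQ, ∑ a, eQ⁻¹ * θ a * σ (eQ * θ' a) =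
      eQ⁻¹ * σ eQ * ∑ a, θ a * σ (θ' a) := by
    intro σ
    rw [Finset.mul_sum]
    refine Finset.sum_congr rfl fun a _ => ?_
    rw [map_mul]
    ring
  have hyA : ∀ a, eQ * θ' a ∈ A := fun a => A.mul_mem _ _ (heint A hA) (hθA a).2
  have hyK : ∀ a, eQ * θ' a ∈ K := fun a => K.mul_mem heK (hθK a).2
  -- the good conjugates
  have hgood : ∀ σ : GQ, AK (conjA A σ) K = AK A K →
      ∃ g : GQ, g ∈ K.fixingSubgroup ∧ σ * g ∈ stab (F := ℚ) A.toSubring := fun σ h =>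
    Fermat.Agent.FFJ.Alg.Decomp92.exists_fixing_mul_mem_stab' K A σ
      (forall_mem_iff_of_AK_eq σ h)
  -- the bad conjugates
  have hbad : ∀ (σ : GQ) (w : K), w ∈ AK (conjA A σ) K → (e : K) = (l : K) ^ (N + N') * w →
      ∀ a, ∃ z : Qbar, z ∈ K ∧ σ z ∈ A ∧ σ (eQ * θ' a) = ((l : ℕ) : Qbar) ^ N * σ z := by
    intro σ w hw hwe a
    refine ⟨(w : Qbar) * (((l : ℕ) : Qbar) ^ N' * θ' a), ?_, ?_, ?_⟩
    · exact K.mul_mem w.2 (K.mul_mem (pow_mem (natCast_mem K l) N') (hθK a).2)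
    · rw [map_mul]
      exact A.mul_mem _ _ (mem_conjA.mp ((mem_AK_iff _ K w).mp hw))
        (integralAt_map σ (hint a) A hA)
    · have h2 : eQ = ((l : ℕ) : Qbar) ^ (N + N') * (w : Qbar) := by
        rw [heQ, hwe]
        push_cast
        rfl
      rw [map_mul, h2, map_mul, map_mul, map_mul, map_pow, map_pow, map_natCast]
      ring
  refine ⟨n, fun a => eQ⁻¹ * θ a, fun a => eQ * θ' a, ?_, ?_, ?_, ?_, ?_, ?_⟩
  · intro a
    exact ⟨A.mul_mem _ _ heinvA (hθA a).1, K.mul_mem (K.inv_mem heK) (hθK a).1⟩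
  · intro a
    exact ⟨hyA a, hyK a⟩
  · intro a σ
    rcases he σ with h | ⟨w, hw, hwe⟩
    · obtain ⟨g, hg, hgA⟩ := hgood σ h
      have hfix : g (eQ * θ' a) = eQ * θ' a :=
        (IntermediateField.mem_fixingSubgroup_iff K g).mp hg _ (hyK a)
      have h3 : σ (eQ * θ' a) = (σ * g) (eQ * θ' a) := by
        rw [AlgEquiv.mul_apply, hfix]
      rw [h3]
      exact ((mem_stab.mp hgA) _).mpr (hyA a)
    · obtain ⟨z, _, hzA, hzeq⟩ := hbad σ w hw hwe a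
      rw [hzeq]
      exact A.mul_mem _ _ (pow_mem (integralAt_natCast l l A hA) N) hzA
  · intro σ
    rcases he σ with h | ⟨w, hw, hwe⟩
    · left
      exact hgood σ h
    · right
      exact hbad σ w hw hwe
  · intro σ hσ
    rw [hsum, h1 σ hσ, hefix σ hσ, inv_mul_cancel₀ he0, mul_one]
  · intro σ hσ
    rw [hsum, h0 σ hσ, mul_zero]

end Fermat.Agent.FFJ.Alg.TDNN92
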